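import Mathlib

/-!
# Betti Hecke operators: the abstract transfer-type operator of a Hecke family

`Γ` is a group, `e : Γ →* G` an injective homomorphism into an ambient group `G` and
`rep : ι → G` a finite family of elements of `G` such that right multiplication by `e γ` permutes
the cosets `e(Γ) * rep i`, which are pairwise distinct (`IsHeckeFamily`).
Then `rep i * e γ = e (kap γ i) * rep (perm γ i)` defines `perm γ : ι → ι` and `kap γ i : Γ`, and for
a homomorphism `φ : Γ → A` into an abelian group the function `γ ↦ ∑ i, φ (kap γ i)` is again a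
homomorphism: the Betti Hecke operator `heckeOp`.

Main results:
* `IsHeckeFamily.kap_mul`, `IsHeckeFamily.perm_mul`: the cocycle identities;
* `IsHeckeFamily.heckeOp`: the operator, additive in `φ`, `heckeOpLin` linear in `φ`;
* `IsHeckeFamily.heckeOp_eq_of_twist`: independence of the representatives and compatibility with
  automorphisms (used for the involution `charInvolution`);
* `IsHeckeFamily.heckeOp_vanishes`: if `φ` vanishes on a class `P` of elements stable under
  powers and under "`G`-conjugation inside `Γ`", and `A` is torsion free, then so does `heckeOp φ`.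
-/

set_option autoImplicit false

namespace Fermat.Agent.Betti

open Finset

variable {Γ G : Type*} [Group Γ] [Group G] (e : Γ →* G) {ι : Type*} (rep : ι → G)

/-- A family of elements of `G` whose `Γ`-cosets are pairwise distinct and permuted by right
multiplication by `Γ`. -/
structure IsHeckeFamily : Prop where
  exists_mul : ∀ (γ : Γ) (i : ι), ∃ (j : ι) (κ : Γ), rep i * e γ = e κ * rep j
  inj : ∀ (i j : ι) (ε : Γ), rep i = e ε * rep j → i = j

namespace IsHeckeFamily

variable {e rep} (H : IsHeckeFamily e rep)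

/-- The permutation of the index set induced by right multiplication by `γ`. -/
noncomputable def perm (γ : Γ) (i : ι) : ι := (H.exists_mul γ i).choose

/-- The element `κ_i(γ) ∈ Γ` with `rep i * γ = κ_i(γ) * rep (perm γ i)`. -/
noncomputable def kap (γ : Γ) (i : ι) : Γ := (H.exists_mul γ i).choose_spec.choose

theorem rep_mul (γ : Γ) (i : ι) : rep i * e γ = e (H.kap γ i) * rep (H.perm γ i) :=
  (H.exists_mul γ i).choose_spec.choose_spec

include H in
theorem unique (he : Function.Injective e) {γ : Γ} {i j : ι} {κ : Γ}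
    (h : rep i * e γ = e κ * rep j) : j = H.perm γ i ∧ κ = H.kap γ i := by
  have h1 := H.rep_mul γ i
  rw [h] at h1
  have h2 : rep j = e (κ⁻¹ * H.kap γ i) * rep (H.perm γ i) := by
    rw [map_mul, map_inv, mul_assoc, ← h1, inv_mul_cancel_left]
  have hj : j = H.perm γ i := H.inj _ _ _ h2
  refine ⟨hj, ?_⟩
  subst hj
  have h3 : e κ = e (H.kap γ i) := mul_right_cancel h1
  exact he h3

theorem perm_mul (he : Function.Injective e) (γ δ : Γ) (i : ι) :
    H.perm (γ * δ) i = H.perm δ (H.perm γ i) := by
  have h : rep i * e (γ * δ) = e (H.kap γ i * H.kap δ (H.perm γ i)) * rep (H.perm δ (H.perm γ i)) := by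
    rw [map_mul, ← mul_assoc, H.rep_mul γ i, mul_assoc, H.rep_mul δ, ← mul_assoc, map_mul]
  exact (H.unique he h).1.symm

theorem kap_mul (he : Function.Injective e) (γ δ : Γ) (i : ι) :
    H.kap (γ * δ) i = H.kap γ i * H.kap δ (H.perm γ i) := by
  have h : rep i * e (γ * δ) = e (H.kap γ i * H.kap δ (H.perm γ i)) * rep (H.perm δ (H.perm γ i)) := by
    rw [map_mul, ← mul_assoc, H.rep_mul γ i, mul_assoc, H.rep_mul δ, ← mul_assoc, map_mul]
  have h' := h
  rw [← H.perm_mul he γ δ i] at h'
  exact (H.unique he h').2.symm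

theorem perm_one (he : Function.Injective e) (i : ι) : H.perm 1 i = i := by
  have h : rep i * e 1 = e 1 * rep i := by simp
  exact (H.unique he h).1.symm

theorem kap_one (he : Function.Injective e) (i : ι) : H.kap 1 i = 1 := by
  have h : rep i * e 1 = e 1 * rep i := by simp
  exact (H.unique he h).2.symm

/-- `perm γ` as a permutation. -/
noncomputable def permEquiv (he : Function.Injective e) (γ : Γ) : Equiv.Perm ι where
  toFun := H.perm γ
  invFun := H.perm γ⁻¹
  left_inv i := by rw [← H.perm_mul he, mul_inv_cancel, H.perm_one he]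
  right_inv i := by rw [← H.perm_mul he, inv_mul_cancel, H.perm_one he]

@[simp] theorem permEquiv_apply (he : Function.Injective e) (γ : Γ) (i : ι) :
    H.permEquiv he γ i = H.perm γ i := rfl

theorem perm_pow (he : Function.Injective e) (γ : Γ) (n : ℕ) (i : ι) :
    H.perm (γ ^ n) i = (H.perm γ)^[n] i := by
  induction n generalizing i with
  | zero => simp [H.perm_one he]
  | succ n ih =>
    rw [pow_succ', H.perm_mul he, ih, Function.iterate_succ_apply]

theorem permEquiv_pow (he : Function.Injective e) (γ : Γ) (n : ℕ) :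
    H.permEquiv he (γ ^ n) = (H.permEquiv he γ) ^ n := by
  ext i
  rw [permEquiv_apply, H.perm_pow he, Equiv.Perm.coe_pow]
  rfl

section Operator

variable [Fintype ι] {A : Type*} [AddCommGroup A]

/-- The Betti Hecke operator of a Hecke family on homomorphisms `Γ → A`. -/
noncomputable def heckeOp (he : Function.Injective e) (φ : Additive Γ →+ A) : Additive Γ →+ A where
  toFun γ := ∑ i, φ (Additive.ofMul (H.kap (Additive.toMul γ) i))
  map_zero' := by
    show ∑ i, φ (Additive.ofMul (H.kap 1 i)) = 0
    simp [H.kap_one he]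
  map_add' γ δ := by
    show ∑ i, φ (Additive.ofMul (H.kap (Additive.toMul γ * Additive.toMul δ) i)) = _
    simp only [H.kap_mul he, ofMul_mul, map_add, sum_add_distrib]
    congr 1
    exact Equiv.sum_comp (H.permEquiv he (Additive.toMul γ))
      (fun i => φ (Additive.ofMul (H.kap (Additive.toMul δ) i)))

theorem heckeOp_apply (he : Function.Injective e) (φ : Additive Γ →+ A) (γ : Γ) :
    H.heckeOp he φ (Additive.ofMul γ) = ∑ i, φ (Additive.ofMul (H.kap γ i)) := rfl

theorem heckeOp_add (he : Function.Injective e) (φ ψ : Additive Γ →+ A) :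
    H.heckeOp he (φ + ψ) = H.heckeOp he φ + H.heckeOp he ψ := by
  refine AddMonoidHom.ext fun γ => ?_
  show ∑ i, (φ + ψ) _ = (∑ i, φ _) + ∑ i, ψ _
  simp [sum_add_distrib]

theorem heckeOp_zero (he : Function.Injective e) :
    H.heckeOp he (0 : Additive Γ →+ A) = 0 := by
  refine AddMonoidHom.ext fun γ => ?_
  show ∑ i, (0 : Additive Γ →+ A) _ = 0
  simp

/-- The Betti Hecke operator as a linear map. -/
noncomputable def heckeOpLin (he : Function.Injective e) (R : Type*) [Semiring R] [Module R A] :
    (Additive Γ →+ A) →ₗ[R] (Additive Γ →+ A) where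
  toFun := H.heckeOp he
  map_add' := H.heckeOp_add he
  map_smul' c φ := by
    refine AddMonoidHom.ext fun γ => ?_
    show ∑ i, (c • φ) _ = c • ∑ i, φ _
    simp [smul_sum]

@[simp] theorem heckeOpLin_apply (he : Function.Injective e) (R : Type*) [Semiring R] [Module R A]
    (φ : Additive Γ →+ A) : H.heckeOpLin he R φ = H.heckeOp he φ := rfl

/-- Post-composition with a homomorphism of coefficient groups commutes with the Hecke operator. -/
theorem heckeOp_comp (he : Function.Injective e) {B : Type*} [AddCommGroup B] (u : A →+ B)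
    (φ : Additive Γ →+ A) : H.heckeOp he (u.comp φ) = u.comp (H.heckeOp he φ) := by
  refine AddMonoidHom.ext fun γ => ?_
  show ∑ i, u (φ _) = u (∑ i, φ _)
  rw [map_sum]

end Operator

section Twist

variable [Fintype ι] {A : Type*} [AddCommGroup A]
variable {ι' : Type*} [Fintype ι'] {rep' : ι' → G} (H' : IsHeckeFamily e rep')

/-- Independence of the representatives, twisted by automorphisms: if `Θ : G → G` and
`θ : Γ → Γ` are compatible homomorphisms and `Θ (rep i) = e (ε i) * rep' (π i)` for a bijection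
`π`, then `heckeOp' (φ) ∘ θ = heckeOp (φ ∘ θ)`. -/
theorem heckeOp_eq_of_twist (he : Function.Injective e) (Θ : G →* G) (θ : Γ →* Γ)
    (hΘ : ∀ γ, Θ (e γ) = e (θ γ)) (π : ι ≃ ι') (ε : ι → Γ)
    (hrep : ∀ i, Θ (rep i) = e (ε i) * rep' (π i)) (φ : Additive Γ →+ A) :
    (H'.heckeOp he φ).comp (MonoidHom.toAdditive θ) =
      H.heckeOp he (φ.comp (MonoidHom.toAdditive θ)) := by
  refine AddMonoidHom.ext fun γ => ?_
  obtain ⟨γ, rfl⟩ : ∃ g : Γ, Additive.ofMul g = γ := ⟨Additive.toMul γ, rfl⟩
  show ∑ j, φ (Additive.ofMul (H'.kap (θ γ) j)) = ∑ i, φ (Additive.ofMul (θ (H.kap γ i)))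
  -- key identity
  have key : ∀ i, π (H.perm γ i) = H'.perm (θ γ) (π i) ∧
      (ε i)⁻¹ * θ (H.kap γ i) * ε (H.perm γ i) = H'.kap (θ γ) (π i) := by
    intro i
    have h1 := congrArg Θ (H.rep_mul γ i)
    rw [map_mul, map_mul, hrep, hΘ, hΘ, hrep] at h1
    have h2 : rep' (π i) * e (θ γ)
        = e ((ε i)⁻¹ * θ (H.kap γ i) * ε (H.perm γ i)) * rep' (π (H.perm γ i)) := by
      have h3 : rep' (π i) * e (θ γ) = (e (ε i))⁻¹ * (e (ε i) * rep' (π i) * e (θ γ)) := by
        group
      rw [h3, h1, map_mul, map_mul, map_inv]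
      simp only [mul_assoc]
    exact ⟨(H'.unique he h2).1, (H'.unique he h2).2⟩
  rw [← Equiv.sum_comp π]
  have hterm : ∀ i, φ (Additive.ofMul (H'.kap (θ γ) (π i)))
      = φ (Additive.ofMul (θ (H.kap γ i))) - φ (Additive.ofMul (ε i))
        + φ (Additive.ofMul (ε (H.perm γ i))) := by
    intro i
    rw [← (key i).2]
    simp only [ofMul_mul, ofMul_inv, map_add, map_neg]
    abel
  simp only [hterm, sum_add_distrib, sum_sub_distrib]
  have hperm : ∑ i, φ (Additive.ofMul (ε (H.perm γ i))) = ∑ i, φ (Additive.ofMul (ε i)) :=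
    Equiv.sum_comp (H.permEquiv he γ) (fun i => φ (Additive.ofMul (ε i)))
  rw [hperm]
  abel

end Twist

section Vanishing

variable [Fintype ι] {A : Type*} [AddCommGroup A]

theorem sum_kap_pow (he : Function.Injective e) (φ : Additive Γ →+ A) (γ : Γ) (n : ℕ) :
    ∑ i, φ (Additive.ofMul (H.kap (γ ^ n) i)) = n • ∑ i, φ (Additive.ofMul (H.kap γ i)) := by
  induction n with
  | zero => simp [H.kap_one he]
  | succ n ih =>
    have h : ∀ i, φ (Additive.ofMul (H.kap (γ ^ (n + 1)) i))
        = φ (Additive.ofMul (H.kap (γ ^ n) i))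
          + φ (Additive.ofMul (H.kap γ (H.perm (γ ^ n) i))) := by
      intro i
      rw [pow_succ, H.kap_mul he, ofMul_mul, map_add]
    simp only [h, sum_add_distrib, ih]
    have hperm : ∑ i, φ (Additive.ofMul (H.kap γ (H.perm (γ ^ n) i)))
        = ∑ i, φ (Additive.ofMul (H.kap γ i)) :=
      Equiv.sum_comp (H.permEquiv he (γ ^ n)) (fun i => φ (Additive.ofMul (H.kap γ i)))
    rw [hperm, succ_nsmul]

/-- If `φ` vanishes on a set `P ⊆ Γ` such that `κ ∈ P` whenever `rep i * e (γ ^ n) = e κ * rep i`
with `γ ∈ P` and `0 < n`, then the Hecke operator of `φ` vanishes on `P`, provided `A` is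
torsion free. -/
theorem heckeOp_vanishes [IsAddTorsionFree A] (he : Function.Injective e) (P : Set Γ)
    (hP : ∀ γ ∈ P, ∀ n : ℕ, 0 < n → ∀ (i : ι) (κ : Γ), rep i * e (γ ^ n) = e κ * rep i → κ ∈ P)
    (φ : Additive Γ →+ A) (hφ : ∀ γ ∈ P, φ (Additive.ofMul γ) = 0) :
    ∀ γ ∈ P, H.heckeOp he φ (Additive.ofMul γ) = 0 := by
  intro γ hγ
  rw [heckeOp_apply]
  -- a positive power of `perm γ` is the identity
  obtain ⟨n, hn, hpow⟩ : ∃ n : ℕ, 0 < n ∧ (H.permEquiv he γ) ^ n = 1 :=
    ⟨orderOf (H.permEquiv he γ), orderOf_pos _, pow_orderOf_eq_one _⟩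
  have hfix : ∀ i, H.perm (γ ^ n) i = i := by
    intro i
    have := congrArg (fun s : Equiv.Perm ι => s i) ((H.permEquiv_pow he γ n).trans hpow)
    simpa using this
  have hzero : ∑ i, φ (Additive.ofMul (H.kap (γ ^ n) i)) = 0 := by
    refine Finset.sum_eq_zero fun i _ => hφ _ (hP γ hγ n hn i _ ?_)
    have := H.rep_mul (γ ^ n) i
    rwa [hfix] at this
  rw [H.sum_kap_pow he] at hzero
  exact (nsmul_right_injective hn.ne') (by simpa using hzero)

end Vanishing

end IsHeckeFamily

end Fermat.Agent.Betti
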