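import Mathlib
import Fermat.Prelude.Def_ModularCurve_PeriodHomPair
import Fermat.Prelude.Def_CuspForm_HeckeAlgebra
import Fermat.Prelude.Thm_ModularForm_heckeT_slash_eq_self_of_mem_Gamma0
import Fermat.Agent.Betti.Family

/-!
# Betti Hecke operators on `Hom(Γ₀(N), A)`

* `incl N : Γ₀(N) →* GL₂(ℝ)`;
* `repT p : OnePoint (ZMod p) → GL₂(ℝ)` (the prelude's `heckeRep`: `∞ ↦ [p,0;0,1]`, `j ↦ [1,j;0,p]`)
  is a Hecke family for `Γ₀(N)` when `p ∤ N` is prime (`isHeckeFamily_T`);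
* `repU p : ZMod p → GL₂(ℝ)`, `j ↦ [1,j;0,p]`, is a Hecke family for `Γ₀(N)` when `p ∣ N`
  (`isHeckeFamily_U`);
* `TB N hp hpN A`, `UB N hpN A`: the Betti Hecke operators on `Additive (Gamma0 N) →+ A`.
-/

set_option autoImplicit false

namespace Fermat.Agent.Betti

open CongruenceSubgroup Matrix.SpecialLinearGroup ModularForm
open scoped MatrixGroups
open P2MW.S_ModularForm_heckeT_slash_eq_self_of_mem_Gamma0.ModularForm.HeckeSlashInvariance

/-- The inclusion `Γ₀(N) → GL₂(ℝ)`. -/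
noncomputable def incl (N : ℕ) : Gamma0 N →* GL (Fin 2) ℝ := (mapGL ℝ).comp (Gamma0 N).subtype

@[simp] theorem incl_apply (N : ℕ) (γ : Gamma0 N) : incl N γ = mapGL ℝ (γ : SL(2, ℤ)) := rfl

theorem mapGL_real_injective : Function.Injective (mapGL ℝ : SL(2, ℤ) →* GL (Fin 2) ℝ) := by
  intro g h hgh
  ext i j
  have h1 : ((mapGL ℝ g : GL (Fin 2) ℝ) : Matrix (Fin 2) (Fin 2) ℝ) i j
      = ((mapGL ℝ h : GL (Fin 2) ℝ) : Matrix (Fin 2) (Fin 2) ℝ) i j := by rw [hgh]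
  simpa using h1

theorem incl_injective (N : ℕ) : Function.Injective (incl N) := fun _ _ h =>
  Subtype.ext (mapGL_real_injective h)

/-- The representatives `∞ ↦ [p,0;0,1]`, `j ↦ [1,j;0,p]` of `T_p`. -/
noncomputable abbrev repT (p : ℕ) : OnePoint (ZMod p) → GL (Fin 2) ℝ := heckeRep p

/-- The representatives `j ↦ [1,j;0,p]` of `U_p`. -/
noncomputable abbrev repU (p : ℕ) : ZMod p → GL (Fin 2) ℝ := fun j => heckeMatrix p j.val

theorem mem_Gamma0_of_dvd {N : ℕ} {g : SL(2, ℤ)} (h : (N : ℤ) ∣ g 1 0) : g ∈ Gamma0 N :=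
  Gamma0_mem.mpr ((ZMod.intCast_zmod_eq_zero_iff_dvd _ _).mpr h)

theorem dvd_of_mem_Gamma0 {N : ℕ} {g : SL(2, ℤ)} (h : g ∈ Gamma0 N) : (N : ℤ) ∣ g 1 0 :=
  (ZMod.intCast_zmod_eq_zero_iff_dvd _ _).mp (Gamma0_mem.mp h)

section entries

variable {p : ℕ} (hp : p ≠ 0)
include hp

theorem heckeMatrix_eq_mapGL_mul_heckeMatrix {ε : SL(2, ℤ)} {i j : ℕ}
    (h : heckeMatrix p i = mapGL ℝ ε * heckeMatrix p j) : (p : ℤ) ∣ (i : ℤ) - j := by
  have h00 := congrArg (fun M : GL (Fin 2) ℝ => (M : Matrix (Fin 2) (Fin 2) ℝ) 0 0) h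
  have h01 := congrArg (fun M : GL (Fin 2) ℝ => (M : Matrix (Fin 2) (Fin 2) ℝ) 0 1) h
  simp [hp, Matrix.mul_apply, Fin.sum_univ_two] at h00 h01
  have h00' : (ε 0 0 : ℤ) = 1 := by exact_mod_cast h00.symm
  refine ⟨ε 0 1, ?_⟩
  have : ((i : ℤ) : ℝ) - j = ((p : ℤ) : ℝ) * (ε 0 1 : ℤ) := by
    rw [h00'] at h01
    push_cast
    rw [h01]
    push_cast
    ring
  exact_mod_cast this

theorem heckeDiagMatrix_ne_mapGL_mul_heckeMatrix (hp1 : p ≠ 1) {ε : SL(2, ℤ)} {j : ℕ}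
    (h : heckeDiagMatrix p = mapGL ℝ ε * heckeMatrix p j) : False := by
  have h00 := congrArg (fun M : GL (Fin 2) ℝ => (M : Matrix (Fin 2) (Fin 2) ℝ) 0 0) h
  have h10 := congrArg (fun M : GL (Fin 2) ℝ => (M : Matrix (Fin 2) (Fin 2) ℝ) 1 0) h
  simp [hp, Matrix.mul_apply, Fin.sum_univ_two] at h00 h10
  have h00' : (ε 0 0 : ℤ) = p := by exact_mod_cast h00.symm
  have h10' : (ε 1 0 : ℤ) = 0 := by exact_mod_cast h10.symm
  have hdet := det_eq ε
  rw [h00', h10'] at hdet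
  have hdvd : (p : ℤ) ∣ 1 := ⟨ε 1 1, by linarith⟩
  have := Int.natCast_dvd_natCast.mp (by simpa using hdvd : ((p : ℕ) : ℤ) ∣ ((1 : ℕ) : ℤ))
  exact hp1 (Nat.dvd_one.mp this)

theorem heckeMatrix_ne_mapGL_mul_heckeDiagMatrix (hp1 : p ≠ 1) {ε : SL(2, ℤ)} {j : ℕ}
    (h : heckeMatrix p j = mapGL ℝ ε * heckeDiagMatrix p) : False := by
  have h00 := congrArg (fun M : GL (Fin 2) ℝ => (M : Matrix (Fin 2) (Fin 2) ℝ) 0 0) h
  simp [hp, Matrix.mul_apply, Fin.sum_univ_two] at h00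
  have h00' : (1 : ℤ) = ε 0 0 * p := by exact_mod_cast h00
  have hdvd : (p : ℤ) ∣ 1 := ⟨ε 0 0, by linarith⟩
  have := Int.natCast_dvd_natCast.mp (by simpa using hdvd : ((p : ℕ) : ℤ) ∣ ((1 : ℕ) : ℤ))
  exact hp1 (Nat.dvd_one.mp this)

end entries

theorem zmod_eq_of_dvd_val_sub {p : ℕ} [NeZero p] {i j : ZMod p}
    (h : (p : ℤ) ∣ (i.val : ℤ) - j.val) : i = j := by
  have h1 : ((i.val : ℤ) : ZMod p) = ((j.val : ℤ) : ZMod p) := by
    rw [← sub_eq_zero, ← Int.cast_sub]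
    exact (ZMod.intCast_zmod_eq_zero_iff_dvd _ _).mpr h
  simpa using h1

/-- The family of `T_p` is a Hecke family for `Γ₀(N)`, `p ∤ N`. -/
theorem isHeckeFamily_T (N : ℕ) {p : ℕ} [Fact p.Prime] (hpN : ¬ p ∣ N) :
    IsHeckeFamily (incl N) (repT p) where
  exists_mul γ x := by
    obtain ⟨g', hg', h⟩ := heckeRep_mul hpN (γ : SL(2, ℤ)) (dvd_of_mem_Gamma0 γ.2) x
    exact ⟨_, ⟨g', mem_Gamma0_of_dvd hg'⟩, h⟩
  inj x y ε h := by
    have hp : p ≠ 0 := (Fact.out : p.Prime).ne_zero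
    have hp1 : p ≠ 1 := (Fact.out : p.Prime).ne_one
    have : NeZero p := ⟨hp⟩
    induction x using OnePoint.rec with
    | infty =>
      induction y using OnePoint.rec with
      | infty => rfl
      | coe j => exact (heckeDiagMatrix_ne_mapGL_mul_heckeMatrix hp hp1 h).elim
    | coe i =>
      induction y using OnePoint.rec with
      | infty => exact (heckeMatrix_ne_mapGL_mul_heckeDiagMatrix hp hp1 h).elim
      | coe j =>
        exact congrArg _ (zmod_eq_of_dvd_val_sub (heckeMatrix_eq_mapGL_mul_heckeMatrix hp h))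

/-- The family of `U_p` is a Hecke family for `Γ₀(N)`, `p ∣ N`. -/
theorem isHeckeFamily_U (N : ℕ) {p : ℕ} [NeZero p] (hpN : p ∣ N) :
    IsHeckeFamily (incl N) (repU p) where
  exists_mul γ x := by
    have hc : (p : ℤ) ∣ (γ : SL(2, ℤ)) 1 0 :=
      (Int.natCast_dvd_natCast.mpr hpN).trans (dvd_of_mem_Gamma0 γ.2)
    obtain ⟨g', hg', h⟩ := heckeMatrix_mul_of_dvd (γ : SL(2, ℤ)) hc x
    refine ⟨_, ⟨g', mem_Gamma0_of_dvd ?_⟩, h⟩
    rw [hg']
    exact Dvd.dvd.mul_left (dvd_of_mem_Gamma0 γ.2) _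
  inj i j ε h :=
    zmod_eq_of_dvd_val_sub (heckeMatrix_eq_mapGL_mul_heckeMatrix (NeZero.ne p) h)

section Operators

variable (N : ℕ) (A : Type*) [AddCommGroup A]

/-- The Betti Hecke operator `T_p` on `Hom(Γ₀(N), A)`, `p ∤ N` prime:
`(T_p φ)(γ) = ∑ x, φ (κ_x(γ))` where `rep x * γ = κ_x(γ) * rep (x·γ)`. -/
noncomputable def TB {p : ℕ} (hp : p.Prime) (hpN : ¬ p ∣ N) :
    (Additive (Gamma0 N) →+ A) →+ (Additive (Gamma0 N) →+ A) :=
  haveI : Fact p.Prime := ⟨hp⟩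
  { toFun := (isHeckeFamily_T N hpN).heckeOp (incl_injective N)
    map_zero' := (isHeckeFamily_T N hpN).heckeOp_zero (incl_injective N)
    map_add' := (isHeckeFamily_T N hpN).heckeOp_add (incl_injective N) }

theorem neZero_of_dvd {N p : ℕ} [NeZero N] (hpN : p ∣ N) : NeZero p :=
  ⟨fun h => NeZero.ne N (by rw [h] at hpN; exact Nat.eq_zero_of_zero_dvd hpN)⟩

/-- The Betti Hecke operator `U_p` on `Hom(Γ₀(N), A)`, `p ∣ N`. -/
noncomputable def UB [NeZero N] {p : ℕ} (hpN : p ∣ N) :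
    (Additive (Gamma0 N) →+ A) →+ (Additive (Gamma0 N) →+ A) :=
  haveI : NeZero p := neZero_of_dvd hpN
  { toFun := (isHeckeFamily_U N hpN).heckeOp (incl_injective N)
    map_zero' := (isHeckeFamily_U N hpN).heckeOp_zero (incl_injective N)
    map_add' := (isHeckeFamily_U N hpN).heckeOp_add (incl_injective N) }

variable {N A}

theorem TB_apply {p : ℕ} (hp : p.Prime) (hpN : ¬ p ∣ N) (φ : Additive (Gamma0 N) →+ A) :
    haveI : Fact p.Prime := ⟨hp⟩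
    TB N A hp hpN φ = (isHeckeFamily_T N hpN).heckeOp (incl_injective N) φ := rfl

theorem UB_apply [NeZero N] {p : ℕ} (hpN : p ∣ N) (φ : Additive (Gamma0 N) →+ A) :
    haveI : NeZero p := neZero_of_dvd hpN
    UB N A hpN φ = (isHeckeFamily_U N hpN).heckeOp (incl_injective N) φ := rfl

/-- Unfolded formula for `TB`: with `H := isHeckeFamily_T N hpN` one has
`repT p x * incl N γ = incl N (H.kap γ x) * repT p (H.perm γ x)` (`H.rep_mul`) and
`(TB φ)(γ) = ∑ x, φ (H.kap γ x)`. -/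
theorem TB_apply_apply {p : ℕ} (hp : p.Prime) (hpN : ¬ p ∣ N) (φ : Additive (Gamma0 N) →+ A)
    (γ : Gamma0 N) :
    haveI : Fact p.Prime := ⟨hp⟩
    TB N A hp hpN φ (Additive.ofMul γ)
      = ∑ x : OnePoint (ZMod p), φ (Additive.ofMul ((isHeckeFamily_T N hpN).kap γ x)) := rfl

theorem UB_apply_apply [NeZero N] {p : ℕ} (hpN : p ∣ N) (φ : Additive (Gamma0 N) →+ A)
    (γ : Gamma0 N) :
    haveI : NeZero p := neZero_of_dvd hpN
    UB N A hpN φ (Additive.ofMul γ)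
      = ∑ x : ZMod p, φ (Additive.ofMul ((isHeckeFamily_U N hpN).kap γ x)) := rfl

end Operators

end Fermat.Agent.Betti
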