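import Mathlib
import Fermat.Prelude.Def_ModularCurve_PeriodHomPair
import Fermat.Prelude.Def_CuspForm_HeckeAlgebra
import Fermat.Agent.Betti.Defs

/-!
# Betti–Hecke package: interface statements (work packages)

Each `Stmt_*` is a `Prop`; a work package proves it in its own file
`Fermat/Agent/Betti/H<seat>_<Name>.lean`, namespace `Fermat.Agent.Betti.H<seat>`.
See `NOTES/plan/Betti.md` for owners and status.
-/

set_option autoImplicit false

namespace Fermat.Agent.Betti

open CongruenceSubgroup ModularCurve ModularCurve.Period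
open scoped MatrixGroups

/-- **B3-T** (period map intertwines `T_p`): for `f ∈ S₂(Γ₀(N))`, `p ∤ N` prime,
`periodMap (T_p f) = T_p^B (periodMap f)`.
Proof sketch: let `F` be a primitive of `f` as in `HasEquivariantPrimitive` (exists:
`Fermat.Agent.S21.partA`), `G := ∑ x, F ∘ (repT p x • ·)`. Then `G' = T_p f`
(`heckeT_eq_sum_onePoint`, chain rule), so `G` differs by a constant from any primitive `H` of
`T_p f` with `HasEquivariantPrimitive` (`Fermat.Agent.S21.primitive_sub_const`), and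
`G (γ z) - G z = ∑ x, (F (κ_x(γ) • rep (x·γ) • z) - F (rep x • z)) = ∑ x, period_F (κ_x γ)`
by `IsHeckeFamily.rep_mul` and reindexing along `permEquiv`. -/
def Stmt_period_TB : Prop :=
  ∀ (N : ℕ) [NeZero N] {p : ℕ} (hp : p.Prime) (hpN : ¬ p ∣ N) (f : CuspForm (Gamma0 N) 2),
    periodMap N (CuspForm.heckeTLin 2 hp hpN f) = TB N ℂ hp hpN (periodMap N f)

/-- **B3-U** (period map intertwines `U_p`, `p ∣ N`). -/
def Stmt_period_UB : Prop :=
  ∀ (N : ℕ) [NeZero N] {p : ℕ} (hpN : p ∣ N) (f : CuspForm (Gamma0 N) 2),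
    periodMap N (CuspForm.heckeULin 2 hpN f) = UB N ℂ hpN (periodMap N f)

/-! ### The lattice, the matrix representation of the Hecke algebra, eigenvectors -/

/-- `b` is a universal basis of the parabolic homomorphisms: every parabolic homomorphism
`φ : Γ₀(N) → A` into a torsion free abelian group is `γ ↦ ∑ i, b i γ • a i` for unique `a i ∈ A`. -/
def IsParBasis (N : ℕ) {r : ℕ} (b : Fin r → (Additive (Gamma0 N) →+ ℤ)) : Prop :=
  (∀ i, IsParabolicHom (Gamma0 N) (b i)) ∧
    ∀ (A : Type) [AddCommGroup A] [IsAddTorsionFree A] (φ : Additive (Gamma0 N) →+ A),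
      IsParabolicHom (Gamma0 N) φ → ∃! a : Fin r → A, ∀ γ, φ γ = ∑ i, b i γ • a i

/-- **B1** (owner helper20): `Hom_par(Γ₀(N), ℤ)` has a finite universal basis.
Route: `Γ₀(N)` is finitely generated (finite index in `SL₂(ℤ) = ⟨S, T⟩`, Schreier), so
`H = Γ₀(N)^ab / ⟨parabolic⟩` is a finitely generated abelian group, `H / tors` is free. -/
def Stmt_basis : Prop :=
  ∀ (N : ℕ) [NeZero N], ∃ (r : ℕ) (b : Fin r → (Additive (Gamma0 N) →+ ℤ)), IsParBasis N b

/-- **B4-a** (owner helper76): in a universal basis the Hecke algebra `heckeAlgebra N 2 S`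
(a subalgebra of `End_ℂ S₂(Γ₀(N))`) is represented faithfully by integer matrices, the generators
`T_ℓ`, `U_q` going to the matrices of the Betti operators `TB`, `UB`.
Route: S21 (`Fermat.Agent.S21.result`) + B3 + `charInvolution_TB/UB` give an isomorphism
`S₂ × S₂ ≃ parabolicHoms ℂ` intertwining `t × t` with the Betti operator; the lattice spanned by `b`
is stable (`TB_mem_parabolicHoms`, `heckeOp_comp`). -/
def Stmt_matrixRep : Prop :=
  ∀ (N : ℕ) [NeZero N] (S : Set ℕ) (r : ℕ) (b : Fin r → (Additive (Gamma0 N) →+ ℤ)),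
    IsParBasis N b →
    ∃ M : CuspForm.heckeAlgebra N 2 S →+* Matrix (Fin r) (Fin r) ℤ, Function.Injective M ∧
      (∀ (ℓ : ℕ) (hℓ : ℓ.Prime) (hℓN : ¬ ℓ ∣ N) (hℓS : ℓ ∉ S) (j : Fin r),
        TB N ℤ hℓ hℓN (b j) = ∑ i, M (CuspForm.heckeAlgebra.T hℓ hℓN hℓS) i j • b i) ∧
      (∀ (q : ℕ) (hq : q.Prime) (hqN : q ∣ N) (hqS : q ∉ S) (j : Fin r),
        UB N ℤ hqN (b j) = ∑ i, M (CuspForm.heckeAlgebra.U hq hqN hqS) i j • b i)

/-- **ALG-EIG** (pure algebra, OPEN): a commutative ring of integer matrices and a character of it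
with values in a field of characteristic zero have a common eigenvector.
Route: `A := K`-span of the image in `M_r(K)` is a commutative finite dimensional `K`-algebra,
`R ⊗ K → M_r(K)` is injective (flatness; `R` is a finite free `ℤ`-module), so `χ` extends to
`χ_K : A → K`; `𝔪 = ker χ_K`; `𝔪^k = 𝔪^(k+1) = (e)` with `e` idempotent, `1 - e ∉ 𝔪`,
`W = (1 - e) K^r ≠ 0`, `𝔪^k W = 0`; a nonzero vector of the last nonzero `𝔪^j W` is killed by `𝔪`. -/
def Stmt_algEig : Prop :=
  ∀ (R : Type) [CommRing R] (r : ℕ) (M : R →+* Matrix (Fin r) (Fin r) ℤ), Function.Injective M →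
    ∀ (K : Type) [Field K] [CharZero K] (χ : R →+* K),
      ∃ v : Fin r → K, v ≠ 0 ∧ ∀ t : R, ((M t).map (Int.cast : ℤ → K)).mulVec v = χ t • v

/-- **B4-eig** (assembly, owner helper20): every character of the Hecke algebra with values in a
field of characteristic zero occurs in `Hom_par(Γ₀(N), K)`. This is the "nonvanishing" input of
`Fermat.Agent.S30.Stmt_TatePiece`. -/
def Stmt_eigen : Prop :=
  ∀ (N : ℕ) [NeZero N] (S : Set ℕ) (K : Type) [Field K] [CharZero K]
    (χ : CuspForm.heckeAlgebra N 2 S →+* K),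
    ∃ φ : Additive (Gamma0 N) →+ K, φ ≠ 0 ∧ IsParabolicHom (Gamma0 N) φ ∧
      (∀ (ℓ : ℕ) (hℓ : ℓ.Prime) (hℓN : ¬ ℓ ∣ N) (hℓS : ℓ ∉ S),
        TB N K hℓ hℓN φ = χ (CuspForm.heckeAlgebra.T hℓ hℓN hℓS) • φ) ∧
      (∀ (q : ℕ) (hq : q.Prime) (hqN : q ∣ N) (hqS : q ∉ S),
        UB N K hqN φ = χ (CuspForm.heckeAlgebra.U hq hqN hqS) • φ)

end Fermat.Agent.Betti
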