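import Mathlib
import Fermat.Agent.Betti.Stmts

/-!
# B1: a universal finite basis of the parabolic homomorphisms

`stmt_basis : Stmt_basis`: there are finitely many parabolic homomorphisms `b i : Γ₀(N) → ℤ` such
that every parabolic homomorphism `φ : Γ₀(N) → A` into a torsion free abelian group is
`γ ↦ ∑ i, b i γ • a i` for unique `a i ∈ A`.

Proof: `Γ₀(N)` is finitely generated (finite index in `SL₂(ℤ) = ⟨S, T⟩`), hence `Hom(Γ₀(N), ℤ)`
embeds into `ℤ^s` and the submodule of parabolic homomorphisms is free of finite rank; for general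
`A` one composes `φ` with the coordinates of the finitely generated free group `φ(Γ₀(N))`.
-/

set_option autoImplicit false

namespace Fermat.Agent.Betti

open CongruenceSubgroup ModularCurve ModularCurve.Period
open scoped MatrixGroups

/-! ### Abstract version -/

section Abstract

variable {Q : Type} [AddGroup Q]

instance instIsAddTorsionFreeHomInt : IsAddTorsionFree (Q →+ ℤ) where
  nsmul_right_injective n hn φ ψ h := by
    refine AddMonoidHom.ext fun x => ?_
    have := congrArg (fun f : Q →+ ℤ => f x) h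
    simp only [AddMonoidHom.coe_smul, Pi.smul_apply] at this
    exact mul_left_cancel₀ (by exact_mod_cast hn) this

/-- Homomorphisms vanishing on a set `Pset`. -/
def killing (Pset : Set Q) (A : Type) [AddCommGroup A] : AddSubgroup (Q →+ A) where
  carrier := {φ | ∀ x ∈ Pset, φ x = 0}
  zero_mem' := fun _ _ => rfl
  add_mem' := by
    intro φ ψ hφ hψ x hx
    show φ x + ψ x = 0
    rw [hφ x hx, hψ x hx, add_zero]
  neg_mem' := by
    intro φ hφ x hx
    show -φ x = 0
    rw [hφ x hx, neg_zero]

theorem mem_killing {Pset : Set Q} {A : Type} [AddCommGroup A] {φ : Q →+ A} :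
    φ ∈ killing Pset A ↔ ∀ x ∈ Pset, φ x = 0 := Iff.rfl

variable [AddGroup.FG Q]

theorem finite_homInt : Module.Finite ℤ (Q →+ ℤ) := by
  obtain ⟨s, hs, hfin⟩ := AddGroup.fg_iff.mp (inferInstance : AddGroup.FG Q)
  have : Finite s := hfin
  let ev : (Q →+ ℤ) →ₗ[ℤ] (s → ℤ) :=
    { toFun := fun φ x => φ x
      map_add' := fun _ _ => rfl
      map_smul' := fun _ _ => rfl }
  refine Module.Finite.of_injective ev ?_
  intro φ ψ h
  refine AddMonoidHom.eq_of_eqOn_dense hs ?_
  intro x hx
  exact congrFun h ⟨x, hx⟩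

/-- The universal basis, abstract version. -/
theorem exists_universal_basis (Pset : Set Q) :
    ∃ (r : ℕ) (b : Fin r → (Q →+ ℤ)), (∀ i, b i ∈ killing Pset ℤ) ∧
      ∀ (A : Type) [AddCommGroup A] [IsAddTorsionFree A] (φ : Q →+ A), φ ∈ killing Pset A →
        ∃! a : Fin r → A, ∀ x, φ x = ∑ i, b i x • a i := by
  classical
  have : Module.Finite ℤ (Q →+ ℤ) := finite_homInt
  let Λ : Submodule ℤ (Q →+ ℤ) := (killing Pset ℤ).toIntSubmodule
  have : Module.Finite ℤ Λ := Module.IsNoetherian.finite ℤ Λ
  have : Module.Free ℤ Λ := Module.free_of_finite_type_torsion_free'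
  let B := Module.finBasis ℤ Λ
  refine ⟨Module.finrank ℤ Λ, fun i => (B i : Q →+ ℤ), fun i => (B i).2, ?_⟩
  intro A _ _ φ hφ
  -- key: a family `d` with `∑ i, b i x • d i = 0` for all `x` vanishes
  have huniq : ∀ d : Fin (Module.finrank ℤ Λ) → A,
      (∀ x, ∑ i, (B i : Q →+ ℤ) x • d i = 0) → d = 0 := by
    intro d hd
    let A₁ : AddSubgroup A := AddSubgroup.closure (Set.range d)
    have : AddGroup.FG A₁ :=
      (AddGroup.fg_iff_addSubgroup_fg A₁).mpr ⟨(Finset.univ.image d), by simp [A₁]⟩
    have : Module.Finite ℤ A₁ := Module.Finite.iff_addGroup_fg.mpr inferInstance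
    have : Module.Free ℤ A₁ := Module.free_of_finite_type_torsion_free'
    let u := Module.finBasis ℤ A₁
    have hdmem : ∀ i, d i ∈ A₁ := fun i => AddSubgroup.subset_closure ⟨i, rfl⟩
    let d' : Fin (Module.finrank ℤ Λ) → A₁ := fun i => ⟨d i, hdmem i⟩
    have hd' : ∀ x, ∑ i, (B i : Q →+ ℤ) x • d' i = 0 := by
      intro x
      apply Subtype.ext
      simpa [d'] using hd x
    have hcoord : ∀ k i, u.coord k (d' i) = 0 := by
      intro k
      have h1 : ∑ i, u.coord k (d' i) • B i = 0 := by
        apply Subtype.ext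
        refine AddMonoidHom.ext fun x => ?_
        have h2 := congrArg (u.coord k) (hd' x)
        simp only [map_sum, map_smul, map_zero, smul_eq_mul] at h2
        simp only [Submodule.coe_sum, Submodule.coe_smul, AddMonoidHom.finsetSum_apply,
          AddMonoidHom.smul_apply, smul_eq_mul, Submodule.coe_zero, AddMonoidHom.zero_apply]
        rw [← h2]
        exact Finset.sum_congr rfl fun i _ => mul_comm _ _
      intro i
      have := (Fintype.linearIndependent_iff.mp B.linearIndependent) _ h1 i
      exact this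
    funext i
    have : d' i = 0 := by
      apply u.ext_elem
      intro k
      simpa using hcoord k i
    simpa [d'] using congrArg Subtype.val this
  -- existence
  have hex : ∃ a : Fin (Module.finrank ℤ Λ) → A, ∀ x, φ x = ∑ i, (B i : Q →+ ℤ) x • a i := by
    let A₀ : AddSubgroup A := φ.range
    have : AddGroup.FG A₀ := AddGroup.fg_range φ
    have : Module.Finite ℤ A₀ := Module.Finite.iff_addGroup_fg.mpr inferInstance
    have : Module.Free ℤ A₀ := Module.free_of_finite_type_torsion_free'
    let u := Module.finBasis ℤ A₀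
    let φ₀ : Q →+ A₀ := φ.rangeRestrict
    let c : Fin (Module.finrank ℤ A₀) → Λ := fun k =>
      ⟨(u.coord k).toAddMonoidHom.comp φ₀, by
        intro x hx
        show u.coord k (φ₀ x) = 0
        have : φ₀ x = 0 := Subtype.ext (hφ x hx)
        rw [this, map_zero]⟩
    refine ⟨fun i => ∑ k, B.repr (c k) i • (u k : A), fun x => ?_⟩
    have h1 : φ x = ((∑ k, u.coord k (φ₀ x) • u k : A₀) : A) := by
      have h0 : (∑ k, u.coord k (φ₀ x) • u k : A₀) = φ₀ x := by
        simp only [Module.Basis.coord_apply]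
        exact u.sum_repr (φ₀ x)
      rw [h0]
      rfl
    have h2 : ∀ k, u.coord k (φ₀ x) = ∑ i, B.repr (c k) i * (B i : Q →+ ℤ) x := by
      intro k
      have h3 : (c k : Q →+ ℤ) = ∑ i, B.repr (c k) i • (B i : Q →+ ℤ) := by
        have h5 := congrArg (fun l : Λ => (l : Q →+ ℤ)) (B.sum_repr (c k))
        simp only [Submodule.coe_sum, Submodule.coe_smul] at h5
        exact h5.symm
      have h4 := congrArg (fun f : Q →+ ℤ => f x) h3
      simp only [AddMonoidHom.finsetSum_apply, AddMonoidHom.smul_apply, smul_eq_mul] at h4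
      rw [← h4]
      rfl
    rw [h1]
    simp only [AddSubgroup.val_finsetSum, AddSubgroup.coe_zsmul, h2, Finset.sum_smul,
      Finset.smul_sum, smul_smul]
    rw [Finset.sum_comm]
    refine Finset.sum_congr rfl fun i _ => Finset.sum_congr rfl fun k _ => ?_
    rw [mul_comm]
  obtain ⟨a, ha⟩ := hex
  refine ⟨a, ha, fun a' ha' => ?_⟩
  have hz : a' - a = 0 := huniq (a' - a) (fun x => by
    simp only [Pi.sub_apply, smul_sub, Finset.sum_sub_distrib]
    rw [← ha x, ← ha' x, sub_self])
  exact sub_eq_zero.mp hz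

end Abstract

/-! ### `Γ₀(N)` -/

theorem fg_SL2Z : Group.FG SL(2, ℤ) :=
  Group.fg_iff.mpr ⟨{ModularGroup.S, ModularGroup.T}, SpecialLinearGroup.SL2Z_generators,
    Set.toFinite _⟩

theorem fg_Gamma0 (N : ℕ) [NeZero N] : Group.FG (Gamma0 N) :=
  haveI := fg_SL2Z
  Subgroup.fg_of_index_ne_zero _

/-- **B1**: a universal finite basis of the parabolic homomorphisms of `Γ₀(N)`. -/
theorem stmt_basis : Stmt_basis := by
  intro N _
  have : Group.FG (Gamma0 N) := fg_Gamma0 N
  obtain ⟨r, b, hb, huniv⟩ := exists_universal_basis (Q := Additive (Gamma0 N))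
    {x | (((Additive.toMul x : Gamma0 N) : SL(2, ℤ)) : Matrix (Fin 2) (Fin 2) ℤ).trace ^ 2 = 4}
  refine ⟨r, b, fun i γ hγ => hb i (Additive.ofMul γ) hγ, ?_⟩
  intro A _ _ φ hφ
  exact huniv A φ (fun x hx => hφ (Additive.toMul x) hx)

end Fermat.Agent.Betti
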