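import Mathlib
import Fermat.Prelude.Def_ModularCurve_PeriodHomPair
import Fermat.Agent.Betti.Defs

/-!
# Betti Hecke operators: parabolic homomorphisms and the involution

* `TB_mem_parabolicHoms`, `UB_mem_parabolicHoms`: the Betti Hecke operators preserve
  `parabolicHoms` (coefficients in a torsion free group);
* `charInvolution_TB`, `charInvolution_UB`: they commute with `charInvolution`.
-/

set_option autoImplicit false

namespace Fermat.Agent.Betti

open CongruenceSubgroup Matrix.SpecialLinearGroup ModularForm ModularCurve.Period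
open scoped MatrixGroups
open P2MW.S_ModularForm_heckeT_slash_eq_self_of_mem_Gamma0.ModularForm.HeckeSlashInvariance

/-! ### Traces of powers -/

theorem sq_eq_trace_smul_sub (M : Matrix (Fin 2) (Fin 2) ℤ) :
    M * M = M.trace • M - M.det • (1 : Matrix (Fin 2) (Fin 2) ℤ) := by
  have h : ∀ i j, (M * M) i j
      = M.trace * M i j - M.det * (1 : Matrix (Fin 2) (Fin 2) ℤ) i j := by
    intro i j
    fin_cases i <;> fin_cases j <;>
      simp [Matrix.mul_apply, Fin.sum_univ_two, Matrix.trace_fin_two, Matrix.det_fin_two] <;> ring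
  ext i j
  rw [h]
  simp only [Matrix.sub_apply, Matrix.smul_apply, smul_eq_mul]

/-- For `g ∈ SL₂(ℤ)` with `tr g = 2ε`, `ε = ±1`: `tr (g ^ n) = 2 ε ^ n` and
`g ^ n = ε^(n-1) n g - ε^n (n - 1)`. -/
theorem pow_eq_of_trace (g : Matrix (Fin 2) (Fin 2) ℤ) (hdet : g.det = 1) (ε : ℤ) (hε : ε * ε = 1)
    (htr : g.trace = 2 * ε) (n : ℕ) :
    g ^ (n + 1) = (ε ^ n * (n + 1)) • g - (ε ^ (n + 1) * n) • (1 : Matrix (Fin 2) (Fin 2) ℤ) := by
  induction n with
  | zero => simp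
  | succ n ih =>
    rw [pow_succ, ih, sub_mul, Matrix.smul_mul, Matrix.smul_mul, one_mul, sq_eq_trace_smul_sub,
      hdet, htr]
    have h2 : ε ^ (n + 1 + 1) = ε ^ n := by rw [pow_succ, pow_succ, mul_assoc, hε, mul_one]
    rw [h2]
    simp only [smul_sub, smul_smul, one_smul]
    have e1 : ε ^ n * (↑n + 1) * (2 * ε) - ε ^ (n + 1) * ↑n = ε ^ (n + 1) * ((n + 1 : ℕ) + 1 : ℤ) := by
      push_cast; ring
    have e2 : (ε ^ n * (↑n + 1) : ℤ) = ε ^ n * ((n + 1 : ℕ) : ℤ) := by push_cast; ring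
    rw [← e1, e2]
    push_cast
    module

theorem trace_pow_sq_eq_four (g : SL(2, ℤ))
    (h : (g : Matrix (Fin 2) (Fin 2) ℤ).trace ^ 2 = 4) (n : ℕ) :
    ((g ^ n : SL(2, ℤ)) : Matrix (Fin 2) (Fin 2) ℤ).trace ^ 2 = 4 := by
  rcases n with _ | n
  · simp
  · have hε : ∃ ε : ℤ, ε * ε = 1 ∧ (g : Matrix (Fin 2) (Fin 2) ℤ).trace = 2 * ε := by
      have h' : ((g : Matrix (Fin 2) (Fin 2) ℤ).trace - 2) *
          ((g : Matrix (Fin 2) (Fin 2) ℤ).trace + 2) = 0 := by linear_combination h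
      rcases mul_eq_zero.mp h' with h1 | h1
      · exact ⟨1, by norm_num, by linarith⟩
      · exact ⟨-1, by norm_num, by linarith⟩
    obtain ⟨ε, hε1, hε2⟩ := hε
    have hpow := pow_eq_of_trace (g : Matrix (Fin 2) (Fin 2) ℤ) g.2 ε hε1 hε2 n
    rw [Matrix.SpecialLinearGroup.coe_pow, hpow, Matrix.trace_sub, Matrix.trace_smul,
      Matrix.trace_smul, hε2, Matrix.trace_one]
    simp only [smul_eq_mul, Fintype.card_fin]
    have h3 : ε ^ (n + 1) = ε ^ n * ε := pow_succ _ _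
    rw [h3]
    have h4 : (ε ^ n) ^ 2 = 1 := by
      rw [← pow_mul, mul_comm, pow_mul, pow_two, hε1, one_pow]
    have h5 : ε ^ 2 = 1 := by rw [pow_two, hε1]
    have : (ε ^ n * (↑n + 1) * (2 * ε) - ε ^ n * ε * ↑n * ((2 : ℕ) : ℤ)) = 2 * (ε ^ n * ε) := by
      push_cast; ring
    rw [this]
    calc (2 * (ε ^ n * ε)) ^ 2 = 4 * ((ε ^ n) ^ 2 * ε ^ 2) := by ring
      _ = 4 := by rw [h4, h5]; norm_num

theorem trace_mapGL (g : SL(2, ℤ)) :
    ((mapGL ℝ g : GL (Fin 2) ℝ) : Matrix (Fin 2) (Fin 2) ℝ).trace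
      = (((g : Matrix (Fin 2) (Fin 2) ℤ).trace : ℤ) : ℝ) := by
  simp [Matrix.trace_fin_two]

/-- The class of parabolic elements satisfies the hypothesis of `heckeOp_vanishes`. -/
theorem parabolic_stable (N : ℕ) {ι : Type*} (rep : ι → GL (Fin 2) ℝ) (γ : Gamma0 N)
    (hγ : ((γ : SL(2, ℤ)) : Matrix (Fin 2) (Fin 2) ℤ).trace ^ 2 = 4) (n : ℕ) (i : ι)
    (κ : Gamma0 N) (h : rep i * incl N (γ ^ n) = incl N κ * rep i) :
    ((κ : SL(2, ℤ)) : Matrix (Fin 2) (Fin 2) ℤ).trace ^ 2 = 4 := by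
  have h1 : incl N κ = rep i * incl N (γ ^ n) * (rep i)⁻¹ := by
    rw [h, mul_inv_cancel_right]
  have h2 : ((incl N κ : GL (Fin 2) ℝ) : Matrix (Fin 2) (Fin 2) ℝ).trace
      = ((incl N (γ ^ n) : GL (Fin 2) ℝ) : Matrix (Fin 2) (Fin 2) ℝ).trace := by
    rw [h1]
    exact Matrix.trace_units_conj (rep i) _
  rw [incl_apply, incl_apply, trace_mapGL, trace_mapGL] at h2
  have h3 : ((κ : SL(2, ℤ)) : Matrix (Fin 2) (Fin 2) ℤ).trace
      = (((γ ^ n : Gamma0 N) : SL(2, ℤ)) : Matrix (Fin 2) (Fin 2) ℤ).trace := by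
    exact_mod_cast h2
  rw [h3]
  have := trace_pow_sq_eq_four (γ : SL(2, ℤ)) hγ n
  simpa using this

section Parabolic

variable {N : ℕ} {A : Type*} [AddCommGroup A] [IsAddTorsionFree A]

theorem heckeOp_isParabolicHom {ι : Type*} [Fintype ι] {rep : ι → GL (Fin 2) ℝ}
    (H : IsHeckeFamily (incl N) rep) {φ : Additive (Gamma0 N) →+ A}
    (hφ : IsParabolicHom (Gamma0 N) φ) :
    IsParabolicHom (Gamma0 N) (H.heckeOp (incl_injective N) φ) := by
  intro γ hγ
  exact H.heckeOp_vanishes (incl_injective N)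
    {γ : Gamma0 N | ((γ : SL(2, ℤ)) : Matrix (Fin 2) (Fin 2) ℤ).trace ^ 2 = 4}
    (fun γ hγ n _ i κ h => parabolic_stable N rep γ hγ n i κ h) φ (fun γ hγ => hφ γ hγ) γ hγ

/-- `T_p^B` preserves parabolic homomorphisms. -/
theorem TB_mem_parabolicHoms (R : Type*) [Semiring R] [Module R A] {p : ℕ} (hp : p.Prime)
    (hpN : ¬ p ∣ N) {φ : Additive (Gamma0 N) →+ A} (hφ : φ ∈ parabolicHoms R (Gamma0 N) A) :
    TB N A hp hpN φ ∈ parabolicHoms R (Gamma0 N) A := by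
  have : Fact p.Prime := ⟨hp⟩
  exact heckeOp_isParabolicHom (isHeckeFamily_T N hpN) hφ

/-- `U_p^B` preserves parabolic homomorphisms. -/
theorem UB_mem_parabolicHoms [NeZero N] (R : Type*) [Semiring R] [Module R A] {p : ℕ}
    (hpN : p ∣ N) {φ : Additive (Gamma0 N) →+ A} (hφ : φ ∈ parabolicHoms R (Gamma0 N) A) :
    UB N A hpN φ ∈ parabolicHoms R (Gamma0 N) A := by
  have : NeZero p := neZero_of_dvd hpN
  exact heckeOp_isParabolicHom (isHeckeFamily_U N hpN) hφ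

end Parabolic

end Fermat.Agent.Betti
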