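import Mathlib
import Fermat.Agent.Betti.Stmts
import Fermat.Agent.S21.Assembly
import Fermat.Agent.S21.H20_Primitive

/-!
# Betti-Hecke, part B3: the period map intertwines the Hecke operators

`periodMap N (T_p f) = T_p^B (periodMap N f)` and the same for `U_p`
(`Stmt_period_TB`, `Stmt_period_UB` of `Fermat/Agent/Betti/Stmts.lean`), via the abstract statement
`period_heckeOp` for an arbitrary Hecke family of matrices of positive determinant.
-/

set_option autoImplicit false

open ModularCurve ModularCurve.Period UpperHalfPlane CongruenceSubgroup Filter Topology Function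
open scoped MatrixGroups ModularForm
open P2MW.S_ModularForm_heckeT_slash_eq_self_of_mem_Gamma0.ModularForm.HeckeSlashInvariance

namespace Fermat.Agent.Betti.H76

/-- Chain rule: if `F` is a primitive of `f` on `ℍ` and `g ∈ GL₂(ℝ)` has positive determinant,
then `F ∘ g` is a primitive of `f ∣[2] g`. -/
theorem hasDerivAt_comp_glsmul {F : ℍ → ℂ} {f : ℍ → ℂ}
    (hF : ∀ τ : ℍ, HasDerivAt (F ∘ ofComplex) (f τ) ↑τ) (g : GL (Fin 2) ℝ)
    (hdet : 0 < g.val.det) (τ : ℍ) :
    HasDerivAt ((fun w : ℍ => F (g • w)) ∘ ofComplex) ((f ∣[(2 : ℤ)] g) τ) ↑τ := by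
  have h1 := (hasStrictDerivAt_smul hdet τ).hasDerivAt
  have h2 : HasDerivAt (F ∘ ofComplex) (f (g • τ)) (↑(g • ofComplex (τ : ℂ))) := by
    rw [ofComplex_apply]
    exact hF (g • τ)
  have h3 := h2.comp (τ : ℂ) h1
  have hdet' : 0 < g.det.val := by
    rw [Matrix.GeneralLinearGroup.val_det_apply]; exact hdet
  have hval : f (g • τ) * ((g.val.det : ℂ) / denom g τ ^ 2) = (f ∣[(2 : ℤ)] g) τ := by
    rw [ModularForm.slash_apply, UpperHalfPlane.σ, if_pos hdet',
      Matrix.GeneralLinearGroup.val_det_apply, abs_of_pos hdet]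
    simp [zpow_neg, div_eq_mul_inv, mul_assoc]
  rw [hval] at h3
  refine h3.congr_of_eventuallyEq ?_
  filter_upwards with z
  simp [Function.comp]

/-- **Abstract B3**: for a Hecke family `rep` for `Γ₀(N)` consisting of matrices of positive
determinant, if `f' = ∑ i, f ∣[2] rep i` then `periodMap f' = heckeOp (periodMap f)`. -/
theorem period_heckeOp {N : ℕ} [NeZero N] {ι : Type*} [Fintype ι] {rep : ι → GL (Fin 2) ℝ}
    (H : IsHeckeFamily (incl N) rep) (hdet : ∀ i, 0 < (rep i).val.det)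
    (f f' : CuspForm (Gamma0 N) 2) (hf' : (⇑f' : ℍ → ℂ) = ∑ i, (⇑f : ℍ → ℂ) ∣[(2 : ℤ)] rep i) :
    periodMap N f' = H.heckeOp (incl_injective N) (periodMap N f) := by
  refine AddMonoidHom.ext fun γ => ?_
  obtain ⟨g, rfl⟩ : ∃ g : Gamma0 N, Additive.ofMul g = γ := ⟨Additive.toMul γ, rfl⟩
  obtain ⟨F, hF⟩ := Fermat.Agent.S21.partA N f
  obtain ⟨Hh, hH⟩ := Fermat.Agent.S21.partA N f'
  set G : ℍ → ℂ := fun z => ∑ i, F (rep i • z) with hGdef
  have hG : ∀ τ : ℍ, HasDerivAt (G ∘ ofComplex) (f' τ) ↑τ := by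
    intro τ
    have h1 : HasDerivAt (fun w : ℂ => ∑ i, ((fun w : ℍ => F (rep i • w)) ∘ ofComplex) w)
        (∑ i, ((⇑f : ℍ → ℂ) ∣[(2 : ℤ)] rep i) τ) ↑τ :=
      HasDerivAt.fun_sum (fun i _ => hasDerivAt_comp_glsmul hF.1 (rep i) (hdet i) τ)
    have h2 : f' τ = ∑ i, ((⇑f : ℍ → ℂ) ∣[(2 : ℤ)] rep i) τ := by
      rw [hf', Finset.sum_apply]
    rw [h2]
    exact h1
  obtain ⟨c, hc⟩ := Fermat.Agent.S21.primitive_sub_const (f := ⇑f') hG hH.1
  rw [Fermat.Agent.S21.periodMap_apply_of_hasEquivariantPrimitive hH g UpperHalfPlane.I,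
    IsHeckeFamily.heckeOp_apply]
  have e1 : Hh ((g : SL(2, ℤ)) • UpperHalfPlane.I) - Hh UpperHalfPlane.I
      = G ((g : SL(2, ℤ)) • UpperHalfPlane.I) - G UpperHalfPlane.I := by
    have a := hc ((g : SL(2, ℤ)) • UpperHalfPlane.I)
    have b := hc UpperHalfPlane.I
    linear_combination b - a
  rw [e1]
  -- termwise
  have hterm : ∀ i, F (rep i • ((g : SL(2, ℤ)) • UpperHalfPlane.I))
      = periodMap N f (Additive.ofMul (H.kap g i)) + F (rep (H.perm g i) • UpperHalfPlane.I) := by
    intro i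
    have hmul := H.rep_mul g i
    have e2 : rep i • ((g : SL(2, ℤ)) • UpperHalfPlane.I)
        = ((H.kap g i : Gamma0 N) : SL(2, ℤ)) • (rep (H.perm g i) • UpperHalfPlane.I) := by
      have l1 : rep i • ((g : SL(2, ℤ)) • UpperHalfPlane.I)
          = (rep i * incl N g) • UpperHalfPlane.I := by
        rw [mul_smul]; rfl
      have l2 : ((H.kap g i : Gamma0 N) : SL(2, ℤ)) • (rep (H.perm g i) • UpperHalfPlane.I)
          = (incl N (H.kap g i) * rep (H.perm g i)) • UpperHalfPlane.I := by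
        rw [mul_smul]; rfl
      rw [l1, l2, hmul]
    rw [e2, Fermat.Agent.S21.periodMap_apply_of_hasEquivariantPrimitive hF (H.kap g i)
      (rep (H.perm g i) • UpperHalfPlane.I)]
    ring
  have hperm : ∑ i, F (rep (H.perm g i) • UpperHalfPlane.I) = ∑ i, F (rep i • UpperHalfPlane.I) :=
    Equiv.sum_comp (H.permEquiv (incl_injective N) g) (fun i => F (rep i • UpperHalfPlane.I))
  simp only [hGdef, hterm, Finset.sum_add_distrib, hperm]
  ring

theorem det_pos_repT {p : ℕ} (x : OnePoint (ZMod p)) : 0 < (repT p x).val.det := by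
  induction x using OnePoint.rec with
  | infty =>
    have := ModularForm.det_heckeDiagMatrix_pos p
    rwa [Matrix.GeneralLinearGroup.val_det_apply] at this
  | coe j =>
    have := ModularForm.det_heckeMatrix_pos p j.val
    rwa [Matrix.GeneralLinearGroup.val_det_apply] at this

theorem det_pos_repU {p : ℕ} (x : ZMod p) : 0 < (repU p x).val.det := by
  have := ModularForm.det_heckeMatrix_pos p x.val
  rwa [Matrix.GeneralLinearGroup.val_det_apply] at this

/-- **B3-T**: the period map intertwines `T_p` and `T_p^B`. -/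
theorem stmt_period_TB : Stmt_period_TB := by
  intro N _ p hp hpN f
  have : Fact p.Prime := ⟨hp⟩
  have : NeZero p := ⟨hp.ne_zero⟩
  rw [TB_apply]
  refine period_heckeOp (isHeckeFamily_T N hpN) det_pos_repT f _ ?_
  rw [CuspForm.coe_heckeTLin_apply, heckeT_eq_sum_onePoint]

/-- **B3-U**: the period map intertwines `U_p` and `U_p^B`. -/
theorem stmt_period_UB : Stmt_period_UB := by
  intro N _ p hpN f
  have : NeZero p := neZero_of_dvd hpN
  rw [UB_apply]
  refine period_heckeOp (isHeckeFamily_U N hpN) det_pos_repU f _ ?_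
  rw [CuspForm.coe_heckeULin_apply, heckeU_eq_sum_zmod]

end Fermat.Agent.Betti.H76
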