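import Mathlib
import Fermat.Agent.Betti.Basic

/-!
# Betti-Hecke: the Hecke operators preserve parabolic homomorphisms for ARBITRARY coefficients

`Fermat.Agent.Betti.heckeOp_isParabolicHom` needs torsion free coefficients (it uses the order of
the permutation `perm γ`).  Summing over the orbits of `perm γ` instead removes the hypothesis, so
that `T_p^B`, `U_p^B` act on `Hom_par(Γ₀(N), ℤ/n)`, `Hom_par(Γ₀(N), μ_n)`, ...

* `sum_eq_zero_of_orbit_sums`: a sum over a finite type vanishes if its partial sums along the
  orbits of a permutation vanish;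
* `map_kap_pow`: `φ (κ_i(γ^m)) = ∑_{k<m} φ (κ_{σ^k i}(γ))`;
* `heckeOp_vanishes_gen`, `heckeOp_isParabolicHom_gen`, `TB_mem_parabolicHoms_gen`,
  `UB_mem_parabolicHoms_gen`.
-/

set_option autoImplicit false

namespace Fermat.Agent.Betti.H76

open CongruenceSubgroup Matrix.SpecialLinearGroup ModularForm ModularCurve.Period
open scoped MatrixGroups

/-! ### Sums over the orbits of a permutation -/

theorem sum_eq_zero_of_orbit_sums {X : Type*} [Fintype X] {A : Type*} [AddCommMonoid A]
    (σ : Equiv.Perm X) (f : X → A)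
    (h : ∀ x : X, ∀ m : ℕ, 0 < m → (σ ^ m) x = x → ∑ i ∈ Finset.range m, f ((σ ^ i) x) = 0) :
    ∑ x, f x = 0 := by
  classical
  have claim : ∀ n : ℕ, ∀ S : Finset X, S.card = n → (∀ x ∈ S, σ x ∈ S) → ∑ x ∈ S, f x = 0 := by
    intro n
    induction n using Nat.strong_induction_on with
    | _ n ih =>
      intro S hcard hinv
      rcases S.eq_empty_or_nonempty with rfl | ⟨x, hx⟩
      · simp
      -- the orbit of x
      have hper : x ∈ Function.periodicPts σ := by
        refine Function.mk_mem_periodicPts (orderOf_pos σ) ?_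
        have : (σ ^ orderOf σ) x = x := by rw [pow_orderOf_eq_one]; rfl
        rw [Function.IsPeriodicPt, Function.IsFixedPt]
        rwa [← Equiv.Perm.coe_pow] 
      set m := Function.minimalPeriod σ x with hm
      have hmpos : 0 < m := Function.minimalPeriod_pos_of_mem_periodicPts hper
      have hmx : (σ ^ m) x = x := by
        have := Function.isPeriodicPt_minimalPeriod σ x
        rw [Function.IsPeriodicPt, Function.IsFixedPt, ← Equiv.Perm.coe_pow] at this
        exact this
      have hinvpow : ∀ i : ℕ, ∀ y ∈ S, (σ ^ i) y ∈ S := by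
        intro i
        induction i with
        | zero => intro y hy; simpa using hy
        | succ i ihi =>
          intro y hy
          rw [pow_succ', Equiv.Perm.mul_apply]
          exact hinv _ (ihi y hy)
      set O : Finset X := (Finset.range m).image (fun i => (σ ^ i) x) with hO
      have hOS : O ⊆ S := by
        intro y hy
        rw [hO, Finset.mem_image] at hy
        obtain ⟨i, -, rfl⟩ := hy
        exact hinvpow i x hx
      have hinj : Set.InjOn (fun i => (σ ^ i) x) (Finset.range m : Set ℕ) := by
        intro i hi j hj hij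
        simp only [Finset.coe_range, Set.mem_Iio] at hi hj
        have := Function.iterate_injOn_Iio_minimalPeriod (f := σ) (x := x)
          (show i ∈ Set.Iio (Function.minimalPeriod σ x) from hi)
          (show j ∈ Set.Iio (Function.minimalPeriod σ x) from hj)
        apply this
        simpa [← Equiv.Perm.coe_pow] using hij
      have hsumO : ∑ y ∈ O, f y = 0 := by
        rw [hO, Finset.sum_image hinj]
        exact h x m hmpos hmx
      have hxO : x ∈ O := by
        rw [hO, Finset.mem_image]
        exact ⟨0, Finset.mem_range.mpr hmpos, by simp⟩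
      -- the complement is invariant
      have hinv' : ∀ y ∈ S \ O, σ y ∈ S \ O := by
        intro y hy
        rw [Finset.mem_sdiff] at hy ⊢
        refine ⟨hinv y hy.1, fun hσy => hy.2 ?_⟩
        rw [hO, Finset.mem_image] at hσy ⊢
        obtain ⟨i, hi, hiy⟩ := hσy
        rcases Nat.eq_zero_or_pos i with rfl | hipos
        · refine ⟨m - 1, Finset.mem_range.mpr (by omega), ?_⟩
          apply σ.injective
          rw [← Equiv.Perm.mul_apply, ← pow_succ', show m - 1 + 1 = m by omega, hmx]
          simpa using hiy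
        · refine ⟨i - 1, Finset.mem_range.mpr (by have := Finset.mem_range.mp hi; omega), ?_⟩
          apply σ.injective
          rw [← Equiv.Perm.mul_apply, ← pow_succ', show i - 1 + 1 = i by omega]
          exact hiy
      have hlt : (S \ O).card < n := by
        rw [← hcard]
        apply Finset.card_lt_card
        refine ⟨Finset.sdiff_subset, fun hsub => ?_⟩
        have := hsub hx
        rw [Finset.mem_sdiff] at this
        exact this.2 hxO
      have h2 := ih _ hlt (S \ O) rfl hinv'
      rw [← Finset.sum_sdiff hOS, h2, hsumO, add_zero]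
  have := claim _ Finset.univ rfl (fun x _ => Finset.mem_univ _)
  simpa using this


/-! ### The abstract vanishing statement -/

section Abstract

variable {Γ G : Type*} [Group Γ] [Group G] {e : Γ →* G} {ι : Type*} {rep : ι → G}
variable {A : Type*} [AddCommGroup A]

theorem map_kap_pow (H : IsHeckeFamily e rep) (he : Function.Injective e)
    (φ : Additive Γ →+ A) (γ : Γ) (i : ι) (m : ℕ) :
    φ (Additive.ofMul (H.kap (γ ^ m) i))
      = ∑ k ∈ Finset.range m, φ (Additive.ofMul (H.kap γ ((H.permEquiv he γ ^ k) i))) := by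
  induction m with
  | zero => simp [H.kap_one he]
  | succ m ih =>
    rw [pow_succ, H.kap_mul he, ofMul_mul, map_add, ih, Finset.sum_range_succ,
      ← H.permEquiv_pow he, IsHeckeFamily.permEquiv_apply]

/-- `heckeOp_vanishes` without any hypothesis on the coefficient group. -/
theorem heckeOp_vanishes_gen [Fintype ι] (H : IsHeckeFamily e rep) (he : Function.Injective e)
    (P : Set Γ)
    (hP : ∀ γ ∈ P, ∀ n : ℕ, 0 < n → ∀ (i : ι) (κ : Γ), rep i * e (γ ^ n) = e κ * rep i → κ ∈ P)
    (φ : Additive Γ →+ A) (hφ : ∀ γ ∈ P, φ (Additive.ofMul γ) = 0) :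
    ∀ γ ∈ P, H.heckeOp he φ (Additive.ofMul γ) = 0 := by
  intro γ hγ
  rw [IsHeckeFamily.heckeOp_apply]
  refine sum_eq_zero_of_orbit_sums (H.permEquiv he γ) _ (fun i m hm hi => ?_)
  rw [← map_kap_pow H he φ γ i m]
  refine hφ _ (hP γ hγ m hm i _ ?_)
  have h1 := H.rep_mul (γ ^ m) i
  have h2 : H.perm (γ ^ m) i = i := by
    rw [← IsHeckeFamily.permEquiv_apply H he, H.permEquiv_pow he]
    exact hi
  rwa [h2] at h1

end Abstract

/-! ### `T_p^B` and `U_p^B` preserve parabolic homomorphisms, any coefficients -/

section Parabolic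

variable {N : ℕ} {A : Type*} [AddCommGroup A]

theorem heckeOp_isParabolicHom_gen {ι : Type*} [Fintype ι] {rep : ι → GL (Fin 2) ℝ}
    (H : IsHeckeFamily (incl N) rep) {φ : Additive (Gamma0 N) →+ A}
    (hφ : IsParabolicHom (Gamma0 N) φ) :
    IsParabolicHom (Gamma0 N) (H.heckeOp (incl_injective N) φ) := by
  intro γ hγ
  exact heckeOp_vanishes_gen H (incl_injective N)
    {γ : Gamma0 N | ((γ : SL(2, ℤ)) : Matrix (Fin 2) (Fin 2) ℤ).trace ^ 2 = 4}
    (fun γ hγ n _ i κ h => parabolic_stable N rep γ hγ n i κ h) φ (fun γ hγ => hφ γ hγ) γ hγ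

/-- `T_p^B` preserves parabolic homomorphisms (any coefficient group). -/
theorem TB_mem_parabolicHoms_gen (R : Type*) [Semiring R] [Module R A] {p : ℕ} (hp : p.Prime)
    (hpN : ¬ p ∣ N) {φ : Additive (Gamma0 N) →+ A} (hφ : φ ∈ parabolicHoms R (Gamma0 N) A) :
    TB N A hp hpN φ ∈ parabolicHoms R (Gamma0 N) A := by
  have : Fact p.Prime := ⟨hp⟩
  exact heckeOp_isParabolicHom_gen (isHeckeFamily_T N hpN) hφ

/-- `U_p^B` preserves parabolic homomorphisms (any coefficient group). -/
theorem UB_mem_parabolicHoms_gen [NeZero N] (R : Type*) [Semiring R] [Module R A] {p : ℕ}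
    (hpN : p ∣ N) {φ : Additive (Gamma0 N) →+ A} (hφ : φ ∈ parabolicHoms R (Gamma0 N) A) :
    UB N A hpN φ ∈ parabolicHoms R (Gamma0 N) A := by
  have : NeZero p := neZero_of_dvd hpN
  exact heckeOp_isParabolicHom_gen (isHeckeFamily_U N hpN) hφ

end Parabolic

end Fermat.Agent.Betti.H76
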