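import Mathlib
import Fermat.Prelude.Def_ModularCurve_PeriodHomPair
import Fermat.Agent.Betti.Defs

/-!
# Betti Hecke operators commute with the involution `charInvolution`

`charInvolution` is composition with the automorphism `jConjGamma0` of `Γ₀(N)`, conjugation by
`J = diag(1, -1)`. Since `J [1,j;0,p] J = [1,-j;0,p] = T^m [1,j';0,p]` with `j' = (-j) mod p` and
`J [p,0;0,1] J = [p,0;0,1]`, the Hecke families of `T_p` and `U_p` are stable under conjugation
by `J` up to left multiplication by `Γ₀(N)`, and `IsHeckeFamily.heckeOp_eq_of_twist` applies.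
-/

set_option autoImplicit false

namespace Fermat.Agent.Betti

open CongruenceSubgroup Matrix.SpecialLinearGroup ModularForm ModularCurve.Period
open scoped MatrixGroups
open P2MW.S_ModularForm_heckeT_slash_eq_self_of_mem_Gamma0.ModularForm.HeckeSlashInvariance

/-- `J = diag(1, -1)` in `GL₂(ℝ)`. -/
noncomputable def Jmat : GL (Fin 2) ℝ :=
  Matrix.GeneralLinearGroup.mkOfDetNeZero !![1, 0; 0, -1] (by simp [Matrix.det_fin_two_of])

@[simp] theorem val_Jmat :
    ((Jmat : GL (Fin 2) ℝ) : Matrix (Fin 2) (Fin 2) ℝ) = !![1, 0; 0, -1] := rfl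

theorem Jmat_mul_self : Jmat * Jmat = 1 := by
  ext i j
  fin_cases i <;> fin_cases j <;> simp [Matrix.mul_apply, Fin.sum_univ_two]

/-- Conjugation by `J` on `GL₂(ℝ)`. -/
noncomputable def conjJ : GL (Fin 2) ℝ →* GL (Fin 2) ℝ where
  toFun g := Jmat * g * Jmat
  map_one' := by rw [mul_one, Jmat_mul_self]
  map_mul' g h := by
    calc Jmat * (g * h) * Jmat = Jmat * g * 1 * h * Jmat := by group
      _ = Jmat * g * (Jmat * Jmat) * h * Jmat := by rw [Jmat_mul_self]
      _ = Jmat * g * Jmat * (Jmat * h * Jmat) := by group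

theorem conjJ_apply (g : GL (Fin 2) ℝ) : conjJ g = Jmat * g * Jmat := rfl

theorem val_conjJ (g : GL (Fin 2) ℝ) :
    ((conjJ g : GL (Fin 2) ℝ) : Matrix (Fin 2) (Fin 2) ℝ)
      = !![g 0 0, -g 0 1; -g 1 0, g 1 1] := by
  ext i j
  fin_cases i <;> fin_cases j <;>
    simp [conjJ_apply, Matrix.mul_apply, Fin.sum_univ_two, Matrix.vecMul, dotProduct]

theorem conjJ_incl (N : ℕ) (γ : Gamma0 N) : conjJ (incl N γ) = incl N (jConjGamma0 N γ) := by
  ext i j
  rw [val_conjJ]
  fin_cases i <;> fin_cases j <;> simp [jConjMat]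

/-- `T ^ m` as an element of `Γ₀(N)`. -/
noncomputable def tPow (N : ℕ) (m : ℤ) : Gamma0 N :=
  ⟨ModularGroup.T ^ m, by
    rw [Gamma0_mem, ModularGroup.coe_T_zpow]
    simp⟩

theorem val_incl_tPow (N : ℕ) (m : ℤ) :
    ((incl N (tPow N m) : GL (Fin 2) ℝ) : Matrix (Fin 2) (Fin 2) ℝ) = !![1, (m : ℝ); 0, 1] := by
  ext i j
  have h := ModularGroup.coe_T_zpow m
  rw [incl_apply, mapGL_apply]
  show ((((ModularGroup.T ^ m : SL(2, ℤ)) : Matrix (Fin 2) (Fin 2) ℤ) i j : ℤ) : ℝ) = _
  rw [h]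
  fin_cases i <;> fin_cases j <;> simp

/-- The exponent `m` with `[1,-j;0,p] = T^m [1,(-j) mod p;0,p]`. -/
noncomputable def negShift {p : ℕ} (x : ZMod p) : ℤ := -(((x.val + (-x).val) / p : ℕ) : ℤ)

theorem negShift_spec {p : ℕ} [NeZero p] (x : ZMod p) :
    -(x.val : ℝ) = (negShift x : ℝ) * p + ((-x).val : ℝ) := by
  have hdvd : p ∣ x.val + (-x).val := by
    rw [← ZMod.natCast_eq_zero_iff]
    push_cast
    rw [ZMod.natCast_zmod_val, ZMod.natCast_zmod_val, add_neg_cancel]
  obtain ⟨c, hc⟩ := hdvd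
  have hp : 0 < p := Nat.pos_of_ne_zero (NeZero.ne p)
  have h1 : (x.val + (-x).val) / p = c := by rw [hc, Nat.mul_div_cancel_left _ hp]
  have h2 : ((x.val : ℝ) + ((-x).val : ℝ)) = (p : ℝ) * c := by exact_mod_cast hc
  rw [negShift, h1]
  push_cast
  linarith

theorem conjJ_heckeMatrix {p : ℕ} [NeZero p] (N : ℕ) (x : ZMod p) :
    conjJ (heckeMatrix p x.val) = incl N (tPow N (negShift x)) * heckeMatrix p (-x).val := by
  have hp : p ≠ 0 := NeZero.ne p
  have h := negShift_spec x
  simp only [ZMod.natCast_val] at h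
  ext i j
  rw [val_conjJ, Matrix.GeneralLinearGroup.coe_mul, val_incl_tPow]
  fin_cases i <;> fin_cases j <;>
    simp [hp, Matrix.mul_apply, Fin.sum_univ_two]
  linarith

theorem conjJ_heckeDiagMatrix {p : ℕ} [NeZero p] :
    conjJ (heckeDiagMatrix p) = heckeDiagMatrix p := by
  have hp : p ≠ 0 := NeZero.ne p
  ext i j
  rw [val_conjJ]
  fin_cases i <;> fin_cases j <;> simp [hp]

section Invol

variable {N : ℕ} {A : Type*} [AddCommGroup A]

/-- `T_p^B` commutes with `charInvolution`. -/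
theorem charInvolution_TB (R : Type*) [Semiring R] [Module R A] {p : ℕ} (hp : p.Prime)
    (hpN : ¬ p ∣ N) (φ : Additive (Gamma0 N) →+ A) :
    charInvolution N R A (TB N A hp hpN φ) = TB N A hp hpN (charInvolution N R A φ) := by
  have : Fact p.Prime := ⟨hp⟩
  have : NeZero p := ⟨hp.ne_zero⟩
  let π : OnePoint (ZMod p) ≃ OnePoint (ZMod p) := Equiv.optionCongr (Equiv.neg (ZMod p))
  let ε : OnePoint (ZMod p) → Gamma0 N := fun x => x.elim 1 (fun j => tPow N (negShift j))
  refine (isHeckeFamily_T N hpN).heckeOp_eq_of_twist (isHeckeFamily_T N hpN) (incl_injective N)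
    conjJ (jConjGamma0 N) (conjJ_incl N) π ε ?_ φ
  intro x
  induction x using OnePoint.rec with
  | infty =>
    show conjJ (heckeDiagMatrix p) = incl N 1 * heckeDiagMatrix p
    rw [map_one, one_mul, conjJ_heckeDiagMatrix]
  | coe j =>
    show conjJ (heckeMatrix p j.val) = incl N (tPow N (negShift j)) * heckeMatrix p (-j).val
    exact conjJ_heckeMatrix N j

/-- `U_p^B` commutes with `charInvolution`. -/
theorem charInvolution_UB [NeZero N] (R : Type*) [Semiring R] [Module R A] {p : ℕ}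
    (hpN : p ∣ N) (φ : Additive (Gamma0 N) →+ A) :
    charInvolution N R A (UB N A hpN φ) = UB N A hpN (charInvolution N R A φ) := by
  have : NeZero p := neZero_of_dvd hpN
  refine (isHeckeFamily_U N hpN).heckeOp_eq_of_twist (isHeckeFamily_U N hpN) (incl_injective N)
    conjJ (jConjGamma0 N) (conjJ_incl N) (Equiv.neg (ZMod p)) (fun j => tPow N (negShift j)) ?_ φ
  intro j
  exact conjJ_heckeMatrix N j

end Invol

end Fermat.Agent.Betti
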