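import Mathlib
import Fermat.Agent.Betti.Basic
import Fermat.Agent.Betti.Invol
import Fermat.Agent.Betti.H76_Period
import Fermat.Agent.Betti.H76_Vanish
import Fermat.Agent.S21

/-!
# Betti-Hecke, part B4(i): transfer of Hecke relations between `S₂(Γ₀(N))` and `Hom_par(Γ₀(N), A)`

Words in the Hecke generators are elements `w` of the free algebra `FreeAlgebra ℤ (Gen S)` on the
primes outside `S`; `wordS N S w` is the operator on `S₂(Γ₀(N))` (`T_ℓ` for `ℓ ∤ N`, `U_ℓ` for
`ℓ ∣ N`), `wordB N S A w` the Betti operator on `Hom(Γ₀(N), A)`.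

* `range_wordS`: the range of `wordS` is the prelude's `CuspForm.heckeAlgebra N 2 S`;
* `periodMap_wordS`: `periodMap (w_S f) = w_B (periodMap f)`;
* `wordB_comp`, `wordB_charInvolution`, `wordB_mem_parabolicHoms`: naturality in the coefficients,
  commutation with the involution, stability of parabolic homomorphisms (any coefficients);
* `wordS_eq_zero_iff`: `w_S = 0` on `S₂` iff `w_B = 0` on `Hom_par(Γ₀(N), ℂ)`;
* `wordS_eq_zero_of_int`, `wordS_eq_zero_of_zmod`: given the spanning hypothesis `SpanHyp N`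
  (`Hom_par(Γ₀(N), ℂ)` is spanned by `Hom_par(Γ₀(N), ℤ)`), `w_B = 0` on `Hom_par(Γ₀(N), ℤ)`, or
  on `Hom_par(Γ₀(N), ℤ/pⁿ)` for all `n`, implies `w_S = 0`  (= item (c') of `NOTES/plan/R.md`).
-/

set_option autoImplicit false

open CongruenceSubgroup ModularCurve ModularCurve.Period
open scoped MatrixGroups

namespace Fermat.Agent.Betti.H76

/-- Indices of the Hecke generators: the primes outside `S`. -/
def Gen (S : Set ℕ) : Type := {l : ℕ // l.Prime ∧ l ∉ S}

section Defs

variable (N : ℕ) [NeZero N] (S : Set ℕ)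

/-- The Hecke generator at `l` on cusp forms: `U_l` if `l ∣ N`, `T_l` otherwise. -/
noncomputable def genS (l : Gen S) : Module.End ℂ (CuspForm (Gamma0 N) 2) :=
  if h : l.1 ∣ N then CuspForm.heckeULin 2 h else CuspForm.heckeTLin 2 l.2.1 h

/-- The Betti Hecke generator at `l` on `Hom(Γ₀(N), A)`. -/
noncomputable def genB (A : Type*) [AddCommGroup A] (l : Gen S) :
    Module.End ℤ (Additive (Gamma0 N) →+ A) :=
  if h : l.1 ∣ N then (UB N A h).toIntLinearMap else (TB N A l.2.1 h).toIntLinearMap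

/-- The operator on `S₂(Γ₀(N))` of a word in the Hecke generators. -/
noncomputable def wordS :
    FreeAlgebra ℤ (Gen S) →ₐ[ℤ] Module.End ℂ (CuspForm (Gamma0 N) 2) :=
  FreeAlgebra.lift ℤ (genS N S)

/-- The Betti operator on `Hom(Γ₀(N), A)` of a word in the Hecke generators. -/
noncomputable def wordB (A : Type*) [AddCommGroup A] :
    FreeAlgebra ℤ (Gen S) →ₐ[ℤ] Module.End ℤ (Additive (Gamma0 N) →+ A) :=
  FreeAlgebra.lift ℤ (genB N S A)

@[simp] theorem wordS_ι (l : Gen S) : wordS N S (FreeAlgebra.ι ℤ l) = genS N S l := by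
  simp [wordS]

@[simp] theorem wordB_ι (A : Type*) [AddCommGroup A] (l : Gen S) :
    wordB N S A (FreeAlgebra.ι ℤ l) = genB N S A l := by
  simp [wordB]

theorem range_genS : Set.range (genS N S) = CuspForm.heckeGenerators N 2 S := by
  ext T
  constructor
  · rintro ⟨l, rfl⟩
    unfold genS
    split_ifs with h
    · exact CuspForm.heckeULin_mem_heckeGenerators l.2.1 h l.2.2
    · exact CuspForm.heckeTLin_mem_heckeGenerators l.2.1 h l.2.2
  · rintro (⟨l, hl, hlN, hlS, rfl⟩ | ⟨q, hqN, hq, hqS, rfl⟩)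
    · refine ⟨⟨l, hl, hlS⟩, ?_⟩
      unfold genS
      rw [dif_neg hlN]
    · refine ⟨⟨q, hq, hqS⟩, ?_⟩
      unfold genS
      rw [dif_pos hqN]

/-- The range of `wordS` is the Hecke algebra of the prelude. -/
theorem range_wordS : (wordS N S).range = CuspForm.heckeAlgebra N 2 S := by
  unfold wordS CuspForm.heckeAlgebra
  rw [← Algebra.adjoin_range_eq_range_freeAlgebra_lift, range_genS]

theorem wordS_mem_heckeAlgebra (w : FreeAlgebra ℤ (Gen S)) :
    wordS N S w ∈ CuspForm.heckeAlgebra N 2 S := by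
  rw [← range_wordS]
  exact ⟨w, rfl⟩

theorem exists_word_of_mem_heckeAlgebra {t : Module.End ℂ (CuspForm (Gamma0 N) 2)}
    (ht : t ∈ CuspForm.heckeAlgebra N 2 S) : ∃ w : FreeAlgebra ℤ (Gen S), wordS N S w = t := by
  rw [← range_wordS] at ht
  exact ht

end Defs

section Equivariance

variable (N : ℕ) [NeZero N] (S : Set ℕ)

theorem periodMap_genS (l : Gen S) (f : CuspForm (Gamma0 N) 2) :
    periodMap N (genS N S l f) = genB N S ℂ l (periodMap N f) := by
  unfold genS genB
  split_ifs with h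
  · exact stmt_period_UB N h f
  · exact stmt_period_TB N l.2.1 h f

/-- **B4(i), equivariance**: the period map intertwines every word in the Hecke operators. -/
theorem periodMap_wordS (w : FreeAlgebra ℤ (Gen S)) (f : CuspForm (Gamma0 N) 2) :
    periodMap N (wordS N S w f) = wordB N S ℂ w (periodMap N f) := by
  obtain ⟨pml, hpml⟩ := Fermat.Agent.S21.existsPeriodMapLinear_of_partA (Fermat.Agent.S21.partA N)
  induction w using FreeAlgebra.induction generalizing f with
  | grade0 r =>
    rw [AlgHom.commutes, AlgHom.commutes, Module.algebraMap_end_apply,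
      Module.algebraMap_end_apply, ← hpml, ← hpml, map_zsmul]
  | grade1 l => rw [wordS_ι, wordB_ι, periodMap_genS]
  | mul a b iha ihb =>
    rw [map_mul, map_mul, Module.End.mul_apply, Module.End.mul_apply, iha, ihb]
  | add a b iha ihb =>
    rw [map_add, map_add, LinearMap.add_apply, LinearMap.add_apply, ← hpml, map_add, hpml, hpml,
      iha, ihb]

end Equivariance

section Naturality

variable (N : ℕ) [NeZero N] (S : Set ℕ) {A B : Type*} [AddCommGroup A] [AddCommGroup B]

theorem genB_comp (u : A →+ B) (l : Gen S) (φ : Additive (Gamma0 N) →+ A) :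
    genB N S B l (u.comp φ) = u.comp (genB N S A l φ) := by
  unfold genB
  split_ifs with h
  · have : NeZero l.1 := neZero_of_dvd h
    exact (isHeckeFamily_U N h).heckeOp_comp (incl_injective N) u φ
  · have : Fact l.1.Prime := ⟨l.2.1⟩
    exact (isHeckeFamily_T N h).heckeOp_comp (incl_injective N) u φ

/-- Naturality of the Betti operators in the coefficient group. -/
theorem wordB_comp (u : A →+ B) (w : FreeAlgebra ℤ (Gen S)) (φ : Additive (Gamma0 N) →+ A) :
    wordB N S B w (u.comp φ) = u.comp (wordB N S A w φ) := by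
  induction w using FreeAlgebra.induction generalizing φ with
  | grade0 r =>
    rw [AlgHom.commutes, AlgHom.commutes, Module.algebraMap_end_apply,
      Module.algebraMap_end_apply]
    ext γ
    simp
  | grade1 l => rw [wordB_ι, wordB_ι, genB_comp]
  | mul a b iha ihb =>
    rw [map_mul, map_mul, Module.End.mul_apply, Module.End.mul_apply, ihb, iha]
  | add a b iha ihb =>
    rw [map_add, map_add, LinearMap.add_apply, LinearMap.add_apply, iha, ihb]
    ext γ
    simp

theorem genB_charInvolution (R : Type*) [Semiring R] [Module R A] (l : Gen S)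
    (φ : Additive (Gamma0 N) →+ A) :
    charInvolution N R A (genB N S A l φ) = genB N S A l (charInvolution N R A φ) := by
  unfold genB
  split_ifs with h
  · exact charInvolution_UB R h φ
  · exact charInvolution_TB R l.2.1 h φ

/-- The Betti operators commute with the involution. -/
theorem wordB_charInvolution (R : Type*) [Semiring R] [Module R A] (w : FreeAlgebra ℤ (Gen S))
    (φ : Additive (Gamma0 N) →+ A) :
    charInvolution N R A (wordB N S A w φ) = wordB N S A w (charInvolution N R A φ) := by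
  induction w using FreeAlgebra.induction generalizing φ with
  | grade0 r =>
    rw [AlgHom.commutes, Module.algebraMap_end_apply, Module.algebraMap_end_apply]
    ext γ
    simp
  | grade1 l => rw [wordB_ι, genB_charInvolution]
  | mul a b iha ihb =>
    rw [map_mul, Module.End.mul_apply, Module.End.mul_apply, iha, ihb]
  | add a b iha ihb =>
    rw [map_add, LinearMap.add_apply, LinearMap.add_apply, ← iha, ← ihb]
    ext γ
    simp

theorem genB_mem_parabolicHoms (R : Type*) [Semiring R] [Module R A] (l : Gen S)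
    {φ : Additive (Gamma0 N) →+ A} (hφ : φ ∈ parabolicHoms R (Gamma0 N) A) :
    genB N S A l φ ∈ parabolicHoms R (Gamma0 N) A := by
  unfold genB
  split_ifs with h
  · exact UB_mem_parabolicHoms_gen R h hφ
  · exact TB_mem_parabolicHoms_gen R l.2.1 h hφ

/-- The Betti operators preserve the parabolic homomorphisms (any coefficient group). -/
theorem wordB_mem_parabolicHoms (R : Type*) [Semiring R] [Module R A]
    (w : FreeAlgebra ℤ (Gen S)) {φ : Additive (Gamma0 N) →+ A}
    (hφ : φ ∈ parabolicHoms R (Gamma0 N) A) :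
    wordB N S A w φ ∈ parabolicHoms R (Gamma0 N) A := by
  induction w using FreeAlgebra.induction generalizing φ with
  | grade0 r =>
    rw [AlgHom.commutes, Module.algebraMap_end_apply]
    intro γ hγ
    show r • φ (Additive.ofMul γ) = 0
    rw [hφ γ hγ, smul_zero]
  | grade1 l => rw [wordB_ι]; exact genB_mem_parabolicHoms N S R l hφ
  | mul a b iha ihb =>
    rw [map_mul, Module.End.mul_apply]
    exact iha (ihb hφ)
  | add a b iha ihb =>
    rw [map_add, LinearMap.add_apply]
    exact Submodule.add_mem _ (iha hφ) (ihb hφ)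

/-- The Betti operators are linear over any ring acting on the coefficients by endomorphisms
(here: complex scalars). -/
theorem wordB_smul (w : FreeAlgebra ℤ (Gen S)) (c : ℂ) (φ : Additive (Gamma0 N) →+ ℂ) :
    wordB N S ℂ w (c • φ) = c • wordB N S ℂ w φ := by
  have h1 : c • φ = (AddMonoidHom.mulLeft c).comp φ := by
    ext γ; rfl
  have h2 : c • wordB N S ℂ w φ = (AddMonoidHom.mulLeft c).comp (wordB N S ℂ w φ) := by
    ext γ; rfl
  rw [h1, h2, wordB_comp]

end Naturality

section Relations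

variable (N : ℕ) [NeZero N] (S : Set ℕ)

theorem periodMap_injective' {f : CuspForm (Gamma0 N) 2} (h : periodMap N f = 0) : f = 0 := by
  have hinj := Fermat.Agent.S21.periodHomPair_injective N
  obtain ⟨pml, hpml, hdef⟩ := periodHomPair_def N
    (Fermat.Agent.S21.existsPeriodMapLinear_of_partA (Fermat.Agent.S21.partA N))
  have h0 : periodHomPair N (f, 0) = 0 := by
    rw [hdef]
    simp only [LinearMap.coprod_apply, LinearMap.comp_apply, map_zero, add_zero, hpml, h]
  have := hinj (h0.trans (map_zero _).symm)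
  exact (Prod.mk.inj this).1

/-- **B4(i)**: a word in the Hecke operators vanishes on `S₂(Γ₀(N))` if and only if the
corresponding Betti operator vanishes on `Hom_par(Γ₀(N), ℂ)`. -/
theorem wordS_eq_zero_iff (w : FreeAlgebra ℤ (Gen S)) :
    wordS N S w = 0 ↔ ∀ φ ∈ parabolicHoms ℂ (Gamma0 N) ℂ, wordB N S ℂ w φ = 0 := by
  constructor
  · intro hw φ hφ
    obtain ⟨pml, hpml, hdef⟩ := periodHomPair_def N
      (Fermat.Agent.S21.existsPeriodMapLinear_of_partA (Fermat.Agent.S21.partA N))
    rw [← (Fermat.Agent.S21.result N).2] at hφ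
    obtain ⟨⟨f, g⟩, rfl⟩ := hφ
    rw [hdef]
    simp only [LinearMap.coprod_apply, LinearMap.comp_apply, LinearMap.add_apply,
      LinearMap.sub_apply, LinearMap.id_apply, hpml, map_add, map_sub]
    rw [← wordB_charInvolution, ← wordB_charInvolution, ← periodMap_wordS, ← periodMap_wordS, hw]
    simp only [LinearMap.zero_apply]
    have hz : periodMap N (0 : CuspForm (Gamma0 N) 2) = 0 := by
      rw [← hpml, map_zero]
    rw [hz]
    simp
  · intro h
    ext f : 1
    apply periodMap_injective' N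
    rw [periodMap_wordS]
    exact h _ (Fermat.Agent.S21.periodMap_mem_parabolicHoms N f)

/-- The spanning hypothesis (part of B1): `Hom_par(Γ₀(N), ℂ)` is spanned over `ℂ` by the
integer valued parabolic homomorphisms. -/
def SpanHyp : Prop :=
  ∀ φ ∈ parabolicHoms ℂ (Gamma0 N) ℂ,
    φ ∈ Submodule.span ℂ {ψ : Additive (Gamma0 N) →+ ℂ |
      ∃ φ₀ ∈ parabolicHoms ℤ (Gamma0 N) ℤ, ψ = (Int.castAddHom ℂ).comp φ₀}

/-- **B4(i), integral form**: under `SpanHyp`, a word vanishing on `Hom_par(Γ₀(N), ℤ)` vanishes on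
`S₂(Γ₀(N))`. -/
theorem wordS_eq_zero_of_int (hspan : SpanHyp N) (w : FreeAlgebra ℤ (Gen S))
    (h : ∀ φ ∈ parabolicHoms ℤ (Gamma0 N) ℤ, wordB N S ℤ w φ = 0) : wordS N S w = 0 := by
  rw [wordS_eq_zero_iff]
  intro φ hφ
  refine Submodule.span_induction ?_ ?_ ?_ ?_ (hspan φ hφ)
  · rintro ψ ⟨φ₀, hφ₀, rfl⟩
    rw [wordB_comp, h φ₀ hφ₀, AddMonoidHom.comp_zero]
  · exact map_zero _
  · intro x y _ _ hx hy
    rw [map_add, hx, hy, add_zero]
  · intro c x _ hx
    rw [wordB_smul, hx, smul_zero]

omit [NeZero N] in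
theorem castHom_complex_comp_mem_parabolicHoms {φ : Additive (Gamma0 N) →+ ℤ}
    (hφ : φ ∈ parabolicHoms ℤ (Gamma0 N) ℤ) :
    (Int.castAddHom ℂ).comp φ ∈ parabolicHoms ℂ (Gamma0 N) ℂ := by
  intro γ hγ
  show ((φ (Additive.ofMul γ) : ℤ) : ℂ) = 0
  rw [hφ γ hγ, Int.cast_zero]

/-- Converse direction, integrally (no spanning hypothesis needed): a relation on `S₂(Γ₀(N))`
holds on `Hom_par(Γ₀(N), ℤ)`. -/
theorem wordB_int_eq_zero_of_wordS (w : FreeAlgebra ℤ (Gen S)) (hw : wordS N S w = 0)
    {φ : Additive (Gamma0 N) →+ ℤ} (hφ : φ ∈ parabolicHoms ℤ (Gamma0 N) ℤ) :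
    wordB N S ℤ w φ = 0 := by
  have h1 := (wordS_eq_zero_iff N S w).mp hw _ (castHom_complex_comp_mem_parabolicHoms N hφ)
  rw [wordB_comp] at h1
  refine AddMonoidHom.ext fun γ => ?_
  have h2 := congrArg (fun ψ : Additive (Gamma0 N) →+ ℂ => ψ γ) h1
  simp only [AddMonoidHom.comp_apply, Int.coe_castAddHom, AddMonoidHom.zero_apply] at h2
  exact_mod_cast h2

/-- Under `SpanHyp`: a relation holds on `S₂(Γ₀(N))` iff it holds on `Hom_par(Γ₀(N), ℤ)`. -/
theorem wordS_eq_zero_iff_int (hspan : SpanHyp N) (w : FreeAlgebra ℤ (Gen S)) :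
    wordS N S w = 0 ↔ ∀ φ ∈ parabolicHoms ℤ (Gamma0 N) ℤ, wordB N S ℤ w φ = 0 :=
  ⟨fun hw _ hφ => wordB_int_eq_zero_of_wordS N S w hw hφ, wordS_eq_zero_of_int N S hspan w⟩

omit [NeZero N] in
/-- Reduction of an integer valued parabolic homomorphism modulo `m` is parabolic. -/
theorem castHom_comp_mem_parabolicHoms (m : ℕ) {φ : Additive (Gamma0 N) →+ ℤ}
    (hφ : φ ∈ parabolicHoms ℤ (Gamma0 N) ℤ) :
    (Int.castAddHom (ZMod m)).comp φ ∈ parabolicHoms ℤ (Gamma0 N) (ZMod m) := by
  intro γ hγ
  show ((φ (Additive.ofMul γ) : ℤ) : ZMod m) = 0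
  rw [hφ γ hγ, Int.cast_zero]

/-- **B4(i), torsion form** (item (c') of cluster R): under `SpanHyp`, a word in the Hecke
operators vanishing on `Hom_par(Γ₀(N), ℤ/pⁿ)` for all `n` vanishes on `S₂(Γ₀(N))`. -/
theorem wordS_eq_zero_of_zmod (hspan : SpanHyp N) {p : ℕ} (hp : 2 ≤ p)
    (w : FreeAlgebra ℤ (Gen S))
    (h : ∀ n : ℕ, ∀ φ ∈ parabolicHoms ℤ (Gamma0 N) (ZMod (p ^ n)),
      wordB N S (ZMod (p ^ n)) w φ = 0) : wordS N S w = 0 := by
  refine wordS_eq_zero_of_int N S hspan w (fun φ hφ => AddMonoidHom.ext fun γ => ?_)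
  show wordB N S ℤ w φ γ = 0
  -- divisible by all powers of `p`
  have hdiv : ∀ n : ℕ, ((p : ℤ) ^ n) ∣ wordB N S ℤ w φ γ := by
    intro n
    have h1 := h n _ (castHom_comp_mem_parabolicHoms N (p ^ n) hφ)
    rw [wordB_comp] at h1
    have h2 := congrArg (fun ψ : Additive (Gamma0 N) →+ ZMod (p ^ n) => ψ γ) h1
    simp only [AddMonoidHom.comp_apply, Int.coe_castAddHom, AddMonoidHom.zero_apply] at h2
    have := (ZMod.intCast_zmod_eq_zero_iff_dvd _ _).mp h2
    exact_mod_cast this
  by_contra hne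
  -- |x| < p ^ |x|
  set x := wordB N S ℤ w φ γ with hx
  have hlt : x.natAbs < p ^ x.natAbs := Nat.lt_pow_self hp
  have hd := Int.natAbs_dvd_natAbs.mpr (hdiv x.natAbs)
  rw [Int.natAbs_pow, Int.natAbs_natCast] at hd
  have hle := Nat.le_of_dvd (Int.natAbs_pos.mpr hne) hd
  omega

end Relations

end Fermat.Agent.Betti.H76
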