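import Mathlib
import Fermat.Agent.Betti.H76_Rel

/-!
# Betti-Hecke, part of B1: `Hom_par(Γ₀(N), ℂ)` is spanned by `Hom_par(Γ₀(N), ℤ)`

* `span_int_of_fg`: for a finitely generated group `Γ` and a set `P ⊆ Γ`, every homomorphism
  `Γ → ℂ` vanishing on `P` is a `ℂ`-linear combination of homomorphisms `Γ → ℤ` vanishing on `P`
  (the `ℤ`-span of the evaluation functionals is a finitely generated torsion free `ℤ`-module,
  hence free);
* `fg_Gamma0`: `Γ₀(N)` is finitely generated (Schreier's lemma, `SL(2, ℤ) = ⟨S, T⟩`);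
* `spanHyp : SpanHyp N`;
* consequences: `wordS_eq_zero_iff_int'`, `wordS_eq_zero_of_zmod'` (relations of Hecke operators
  on `Hom_par(Γ₀(N), ℤ)` resp. on all `Hom_par(Γ₀(N), ℤ/pⁿ)` hold on `S₂(Γ₀(N))`).
-/

set_option autoImplicit false

open CongruenceSubgroup ModularCurve ModularCurve.Period
open scoped MatrixGroups

namespace Fermat.Agent.Betti.H76

theorem span_int_of_fg {Γ : Type*} [Group Γ] [hfg : Group.FG Γ] (P : Set Γ)
    (φ : Additive Γ →+ ℂ) (hφ : ∀ g ∈ P, φ (Additive.ofMul g) = 0) :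
    φ ∈ Submodule.span ℂ {ψ : Additive Γ →+ ℂ | ∃ φ₀ : Additive Γ →+ ℤ,
        (∀ g ∈ P, φ₀ (Additive.ofMul g) = 0) ∧ ψ = (Int.castAddHom ℂ).comp φ₀} := by
  classical
  -- the homomorphisms vanishing on `P` and the evaluation map
  let HP : Type _ := {ψ : Additive Γ →+ ℂ // ∀ g ∈ P, ψ (Additive.ofMul g) = 0}
  let π : Additive Γ →+ (HP → ℂ) :=
    { toFun := fun g ψ => ψ.1 g
      map_zero' := by funext ψ; simp
      map_add' := by intro a b; funext ψ; simp }
  have hπ : ∀ g ψ, π g ψ = ψ.1 g := fun _ _ => rfl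
  -- a finite generating set
  obtain ⟨S, hS⟩ := Group.fg_iff.mp hfg
  obtain ⟨hScl, hSfin⟩ := hS
  let Q : Submodule ℤ (HP → ℂ) := Submodule.span ℤ ((fun g : Γ => π (Additive.ofMul g)) '' S)
  have hmem : ∀ g : Γ, π (Additive.ofMul g) ∈ Q := by
    intro g
    have hg : g ∈ Subgroup.closure S := by rw [hScl]; trivial
    induction hg using Subgroup.closure_induction with
    | mem x hx => exact Submodule.subset_span ⟨x, hx, rfl⟩
    | one => rw [ofMul_one, map_zero]; exact Q.zero_mem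
    | mul x y _ _ hx hy => rw [ofMul_mul, map_add]; exact Q.add_mem hx hy
    | inv x _ hx => rw [ofMul_inv, map_neg]; exact Q.neg_mem hx
  have hQfg : Q.FG := Submodule.fg_span (hSfin.image _)
  have : Module.Finite ℤ Q := Module.Finite.iff_fg.mpr hQfg
  obtain ⟨n, b⟩ := Module.basisOfFiniteTypeTorsionFree' (R := ℤ) (M := Q)
  -- the map to `Q`
  let π' : Additive Γ →+ Q :=
    { toFun := fun g => ⟨π g, hmem (Additive.toMul g)⟩
      map_zero' := by apply Subtype.ext; exact map_zero π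
      map_add' := by intro a c; apply Subtype.ext; exact map_add π a c }
  have hπ' : ∀ g, ((π' g : Q) : HP → ℂ) = π g := fun _ => rfl
  let ψ : Fin n → (Additive Γ →+ ℤ) := fun i => (b.coord i).toAddMonoidHom.comp π'
  have hψ : ∀ i g, ψ i g = b.repr (π' g) i := fun _ _ => rfl
  have hψP : ∀ i, ∀ g ∈ P, ψ i (Additive.ofMul g) = 0 := by
    intro i g hg
    have h0 : π' (Additive.ofMul g) = 0 := by
      apply Subtype.ext
      funext χ
      exact χ.2 g hg
    rw [hψ, h0, map_zero]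
    rfl
  have hsum : φ = ∑ i, ((b i : HP → ℂ) ⟨φ, hφ⟩) • (Int.castAddHom ℂ).comp (ψ i) := by
    refine AddMonoidHom.ext fun g => ?_
    have h1 := b.sum_repr (π' g)
    have h2 := congrArg (fun q : Q => (q : HP → ℂ) ⟨φ, hφ⟩) h1
    simp only [hπ', hπ] at h2
    rw [← h2]
    simp only [Submodule.coe_sum, Submodule.coe_smul, Finset.sum_apply, Pi.smul_apply,
      zsmul_eq_mul, AddMonoidHom.coe_finsetSum, AddMonoidHom.coe_smul, smul_eq_mul,
      AddMonoidHom.comp_apply, Int.coe_castAddHom, hψ]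
    refine Finset.sum_congr rfl fun i _ => ?_
    rw [Pi.mul_apply, Pi.intCast_apply, mul_comm]
  rw [hsum]
  refine Submodule.sum_mem _ fun i _ => Submodule.smul_mem _ _ (Submodule.subset_span ?_)
  exact ⟨ψ i, hψP i, rfl⟩

theorem fg_SL2Z : Group.FG SL(2, ℤ) := by
  rw [Group.fg_iff]
  exact ⟨{ModularGroup.S, ModularGroup.T}, SpecialLinearGroup.SL2Z_generators, Set.toFinite _⟩

theorem fg_Gamma0 (N : ℕ) [NeZero N] : Group.FG (Gamma0 N) := by
  have := fg_SL2Z
  exact Subgroup.fg_of_index_ne_zero (Gamma0 N)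

/-- **B1 (span)**: `Hom_par(Γ₀(N), ℂ)` is spanned over `ℂ` by the integer valued parabolic
homomorphisms. -/
theorem spanHyp (N : ℕ) [NeZero N] : SpanHyp N := by
  intro φ hφ
  have := fg_Gamma0 N
  have h := span_int_of_fg (Γ := Gamma0 N)
    {γ : Gamma0 N | ((γ : SL(2, ℤ)) : Matrix (Fin 2) (Fin 2) ℤ).trace ^ 2 = 4} φ
    (fun g hg => hφ g hg)
  refine Submodule.span_mono ?_ h
  rintro ψ ⟨φ₀, hφ₀, rfl⟩
  exact ⟨φ₀, fun γ hγ => hφ₀ γ hγ, rfl⟩

/-- A relation among the Hecke operators holds on `S₂(Γ₀(N))` iff it holds on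
`Hom_par(Γ₀(N), ℤ)`. -/
theorem wordS_eq_zero_iff_int' (N : ℕ) [NeZero N] (S : Set ℕ) (w : FreeAlgebra ℤ (Gen S)) :
    wordS N S w = 0 ↔ ∀ φ ∈ parabolicHoms ℤ (Gamma0 N) ℤ, wordB N S ℤ w φ = 0 :=
  wordS_eq_zero_iff_int N S (spanHyp N) w

/-- **Item (c') of cluster R**: a relation among the Betti Hecke operators that holds on
`Hom_par(Γ₀(N), ℤ/pⁿ)` for all `n` holds on `S₂(Γ₀(N))`. -/
theorem wordS_eq_zero_of_zmod' (N : ℕ) [NeZero N] (S : Set ℕ) {p : ℕ} (hp : 2 ≤ p)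
    (w : FreeAlgebra ℤ (Gen S))
    (h : ∀ n : ℕ, ∀ φ ∈ parabolicHoms ℤ (Gamma0 N) (ZMod (p ^ n)),
      wordB N S (ZMod (p ^ n)) w φ = 0) : wordS N S w = 0 :=
  wordS_eq_zero_of_zmod N S (spanHyp N) hp w h

end Fermat.Agent.Betti.H76
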