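import Mathlib
import Fermat.Agent.Betti.Stmts
import Fermat.Agent.Betti.H76_Span

/-!
# Betti-Hecke, part B4-a: the Hecke algebra as a ring of integer matrices

`stmt_matrixRep : Stmt_matrixRep`: in a universal basis `b` of the parabolic homomorphisms the
Hecke algebra `heckeAlgebra N 2 S` is represented faithfully by integer matrices, the generators
`T_ℓ`, `U_q` going to the matrices of the Betti operators `TB`, `UB`.

Route: `ρ : heckeAlgebra N 2 S →+* End_ℤ (Hom_par(Γ₀(N), ℤ))` is the factorisation of the word map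
`wordBL` through the surjection `wordS` (`wordB_int_eq_zero_of_wordS`); it is injective by
`wordS_eq_zero_iff_int'`; then take matrices in the basis `b`.
-/

set_option autoImplicit false

open CongruenceSubgroup ModularCurve ModularCurve.Period
open scoped MatrixGroups

namespace Fermat.Agent.Betti.H76

section

variable (N : ℕ) [NeZero N] (S : Set ℕ)

/-- Constructor for Hecke generator indices. -/
def mkGen {S : Set ℕ} (l : ℕ) (hl : l.Prime) (hlS : l ∉ S) : Gen S := ⟨l, hl, hlS⟩

/-- `Hom_par(Γ₀(N), ℤ)`. -/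
abbrev ParZ : Submodule ℤ (Additive (Gamma0 N) →+ ℤ) := parabolicHoms ℤ (Gamma0 N) ℤ

/-- The Betti generator restricted to `Hom_par(Γ₀(N), ℤ)`. -/
noncomputable def genBL (l : Gen S) : Module.End ℤ (ParZ N) :=
  (genB N S ℤ l).restrict (fun _ hφ => genB_mem_parabolicHoms N S ℤ l hφ)

/-- The Betti word operators restricted to `Hom_par(Γ₀(N), ℤ)`. -/
noncomputable def wordBL : FreeAlgebra ℤ (Gen S) →ₐ[ℤ] Module.End ℤ (ParZ N) :=
  FreeAlgebra.lift ℤ (genBL N S)

theorem wordBL_coe (w : FreeAlgebra ℤ (Gen S)) (φ : ParZ N) :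
    ((wordBL N S w φ : ParZ N) : Additive (Gamma0 N) →+ ℤ) = wordB N S ℤ w φ := by
  induction w using FreeAlgebra.induction generalizing φ with
  | grade0 r =>
    rw [AlgHom.commutes, AlgHom.commutes, Module.algebraMap_end_apply,
      Module.algebraMap_end_apply, Submodule.coe_smul]
  | grade1 l =>
    rw [wordB_ι]
    simp only [wordBL, FreeAlgebra.lift_ι_apply]
    rfl
  | mul a c iha ihc =>
    rw [map_mul, map_mul, Module.End.mul_apply, Module.End.mul_apply, iha, ihc]
  | add a c iha ihc =>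
    rw [map_add, map_add, LinearMap.add_apply, LinearMap.add_apply, Submodule.coe_add, iha, ihc]

/-- `wordS` as a surjection onto the Hecke algebra. -/
noncomputable def wordSH : FreeAlgebra ℤ (Gen S) →ₐ[ℤ] CuspForm.heckeAlgebra N 2 S :=
  (wordS N S).codRestrict (CuspForm.heckeAlgebra N 2 S) (wordS_mem_heckeAlgebra N S)

theorem wordSH_coe (w : FreeAlgebra ℤ (Gen S)) :
    ((wordSH N S w : CuspForm.heckeAlgebra N 2 S) :
      Module.End ℂ (CuspForm (Gamma0 N) 2)) = wordS N S w := rfl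

theorem wordSH_surjective : Function.Surjective (wordSH N S) := by
  rintro ⟨t, ht⟩
  obtain ⟨w, hw⟩ := exists_word_of_mem_heckeAlgebra N S ht
  exact ⟨w, Subtype.ext hw⟩

theorem wordSH_eq_zero_iff (w : FreeAlgebra ℤ (Gen S)) : wordSH N S w = 0 ↔ wordS N S w = 0 := by
  rw [← wordSH_coe]
  exact ⟨fun h => by rw [h]; rfl, fun h => Subtype.ext h⟩

theorem wordBL_eq_zero_iff (w : FreeAlgebra ℤ (Gen S)) : wordBL N S w = 0 ↔ wordS N S w = 0 := by
  rw [wordS_eq_zero_iff_int']
  constructor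
  · intro h φ hφ
    have := congrArg (fun f : Module.End ℤ (ParZ N) =>
      ((f ⟨φ, hφ⟩ : ParZ N) : Additive (Gamma0 N) →+ ℤ)) h
    simpa [wordBL_coe] using this
  · intro h
    ext1 φ
    apply Subtype.ext
    rw [wordBL_coe]
    exact h φ.1 φ.2

theorem ker_wordSH_le : RingHom.ker (wordSH N S).toRingHom ≤ RingHom.ker (wordBL N S).toRingHom := by
  intro w hw
  rw [RingHom.mem_ker] at hw ⊢
  exact (wordBL_eq_zero_iff N S w).mpr ((wordSH_eq_zero_iff N S w).mp hw)

/-- The action of the Hecke algebra on `Hom_par(Γ₀(N), ℤ)`. -/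
noncomputable def heckeRho : CuspForm.heckeAlgebra N 2 S →+* Module.End ℤ (ParZ N) :=
  RingHom.liftOfSurjective (wordSH N S).toRingHom (wordSH_surjective N S)
    ⟨(wordBL N S).toRingHom, ker_wordSH_le N S⟩

theorem heckeRho_wordSH (w : FreeAlgebra ℤ (Gen S)) :
    heckeRho N S (wordSH N S w) = wordBL N S w :=
  RingHom.liftOfRightInverse_comp_apply _ _ _ _ w

theorem heckeRho_injective : Function.Injective (heckeRho N S) := by
  rw [injective_iff_map_eq_zero]
  intro t ht
  obtain ⟨w, rfl⟩ := wordSH_surjective N S t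
  rw [heckeRho_wordSH] at ht
  exact (wordSH_eq_zero_iff N S w).mpr ((wordBL_eq_zero_iff N S w).mp ht)

theorem heckeRho_T {ℓ : ℕ} (hℓ : ℓ.Prime) (hℓN : ¬ ℓ ∣ N) (hℓS : ℓ ∉ S) (φ : ParZ N) :
    ((heckeRho N S (CuspForm.heckeAlgebra.T hℓ hℓN hℓS) φ : ParZ N) :
      Additive (Gamma0 N) →+ ℤ) = TB N ℤ hℓ hℓN φ := by
  have h1 : wordSH N S (FreeAlgebra.ι ℤ (mkGen ℓ hℓ hℓS : Gen S))
      = CuspForm.heckeAlgebra.T hℓ hℓN hℓS := by
    apply Subtype.ext
    rw [wordSH_coe, wordS_ι, CuspForm.heckeAlgebra.coe_T]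
    unfold genS
    rw [dif_neg (show ¬ (mkGen ℓ hℓ hℓS : Gen S).1 ∣ N from hℓN)]
    rfl
  rw [← h1, heckeRho_wordSH, wordBL_coe, wordB_ι]
  unfold genB
  rw [dif_neg (show ¬ (mkGen ℓ hℓ hℓS : Gen S).1 ∣ N from hℓN)]
  rfl

theorem heckeRho_U {q : ℕ} (hq : q.Prime) (hqN : q ∣ N) (hqS : q ∉ S) (φ : ParZ N) :
    ((heckeRho N S (CuspForm.heckeAlgebra.U hq hqN hqS) φ : ParZ N) :
      Additive (Gamma0 N) →+ ℤ) = UB N ℤ hqN φ := by
  have h1 : wordSH N S (FreeAlgebra.ι ℤ (mkGen q hq hqS : Gen S))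
      = CuspForm.heckeAlgebra.U hq hqN hqS := by
    apply Subtype.ext
    rw [wordSH_coe, wordS_ι, CuspForm.heckeAlgebra.coe_U]
    unfold genS
    rw [dif_pos (show (mkGen q hq hqS : Gen S).1 ∣ N from hqN)]
    rfl
  rw [← h1, heckeRho_wordSH, wordBL_coe, wordB_ι]
  unfold genB
  rw [dif_pos (show (mkGen q hq hqS : Gen S).1 ∣ N from hqN)]
  rfl

end

section Basis

variable {N : ℕ} [NeZero N] {r : ℕ} {b : Fin r → (Additive (Gamma0 N) →+ ℤ)}

/-- A universal basis is a basis of `Hom_par(Γ₀(N), ℤ)`. -/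
noncomputable def parBasis (hb : IsParBasis N b) : Module.Basis (Fin r) ℤ (ParZ N) :=
  Module.Basis.mk (v := fun i => (⟨b i, hb.1 i⟩ : ParZ N))
    (by
      rw [Fintype.linearIndependent_iff]
      intro g hg
      obtain ⟨a, -, ha⟩ := hb.2 ℤ (0 : Additive (Gamma0 N) →+ ℤ) (fun _ _ => rfl)
      have h1 : g = a := by
        apply ha
        intro γ
        have h2 := congrArg (fun φ : ParZ N => (φ : Additive (Gamma0 N) →+ ℤ) γ) hg
        simp only [Submodule.coe_sum, Submodule.coe_smul, AddMonoidHom.coe_finsetSum,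
          Finset.sum_apply, AddMonoidHom.coe_smul, Pi.smul_apply, smul_eq_mul,
          ZeroMemClass.coe_zero, AddMonoidHom.zero_apply] at h2
        rw [AddMonoidHom.zero_apply, ← h2]
        exact Finset.sum_congr rfl fun i _ => by rw [smul_eq_mul, mul_comm]
      have h3 : (0 : Fin r → ℤ) = a := by
        apply ha
        intro γ
        simp
      intro i
      rw [h1, ← h3]
      rfl)
    (by
      rintro ⟨φ, hφ⟩ -
      obtain ⟨a, ha, -⟩ := hb.2 ℤ φ hφ
      have : (⟨φ, hφ⟩ : ParZ N) = ∑ i, a i • (⟨b i, hb.1 i⟩ : ParZ N) := by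
        apply Subtype.ext
        refine AddMonoidHom.ext fun γ => ?_
        simp only [Submodule.coe_sum, Submodule.coe_smul, AddMonoidHom.coe_finsetSum,
          Finset.sum_apply, AddMonoidHom.coe_smul, Pi.smul_apply, smul_eq_mul]
        rw [ha γ]
        exact Finset.sum_congr rfl fun i _ => by rw [smul_eq_mul, mul_comm]
      rw [this]
      exact Submodule.sum_mem _ fun i _ =>
        Submodule.smul_mem _ _ (Submodule.subset_span ⟨i, rfl⟩))

omit [NeZero N] in
theorem parBasis_apply (hb : IsParBasis N b) (i : Fin r) :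
    ((parBasis hb i : ParZ N) : Additive (Gamma0 N) →+ ℤ) = b i := by
  simp [parBasis]

end Basis

/-- **B4-a**: the matrix representation of the Hecke algebra. -/
theorem stmt_matrixRep : Stmt_matrixRep := by
  intro N _ S r b hb
  classical
  let B := parBasis hb
  let E : Module.End ℤ (ParZ N) ≃ₐ[ℤ] Matrix (Fin r) (Fin r) ℤ := LinearMap.toMatrixAlgEquiv B
  refine ⟨E.toAlgHom.toRingHom.comp (heckeRho N S), ?_, ?_, ?_⟩
  · exact E.injective.comp (heckeRho_injective N S)
  · intro ℓ hℓ hℓN hℓS j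
    have h1 := heckeRho_T N S hℓ hℓN hℓS (B j)
    rw [parBasis_apply] at h1
    rw [← h1]
    have h2 := B.sum_repr (heckeRho N S (CuspForm.heckeAlgebra.T hℓ hℓN hℓS) (B j))
    have h3 := congrArg (fun φ : ParZ N => (φ : Additive (Gamma0 N) →+ ℤ)) h2
    simp only [Submodule.coe_sum, Submodule.coe_smul] at h3
    rw [← h3]
    refine Finset.sum_congr rfl fun i _ => ?_
    rw [parBasis_apply]
    show _ = (LinearMap.toMatrixAlgEquiv B
      (heckeRho N S (CuspForm.heckeAlgebra.T hℓ hℓN hℓS))) i j • b i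
    rw [LinearMap.toMatrixAlgEquiv_apply]
  · intro q hq hqN hqS j
    have h1 := heckeRho_U N S hq hqN hqS (B j)
    rw [parBasis_apply] at h1
    rw [← h1]
    have h2 := B.sum_repr (heckeRho N S (CuspForm.heckeAlgebra.U hq hqN hqS) (B j))
    have h3 := congrArg (fun φ : ParZ N => (φ : Additive (Gamma0 N) →+ ℤ)) h2
    simp only [Submodule.coe_sum, Submodule.coe_smul] at h3
    rw [← h3]
    refine Finset.sum_congr rfl fun i _ => ?_
    rw [parBasis_apply]
    show _ = (LinearMap.toMatrixAlgEquiv B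
      (heckeRho N S (CuspForm.heckeAlgebra.U hq hqN hqS))) i j • b i
    rw [LinearMap.toMatrixAlgEquiv_apply]

end Fermat.Agent.Betti.H76
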