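import Fermat.Agent.Betti.H41_TorsLiftOfCount

/-!
# TORSLIFT: final assembly in the shapes of the split (helper41)

* COUNT (helper77): for every prime `ℓ`,
  `Nat.card {χ : Additive (Gamma0 N) →+ ZMod ℓ // ∀ γ, trace ^ 2 ≤ 4 → χ (ofMul γ) = 0} ≤ ℓ ^ d`;
* BASIS (helper21): a universal basis `b : Fin r → _` (`IsParBasis N b`) with `d ≤ r`;
* then `Stmt_TorsLift N n` for all `n` (`H41.torsLift_of_basis_count`), and in the existential
  form (`H41.torsLift_of_exists`).
-/

set_option autoImplicit false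

namespace Fermat.Agent.Betti.H41

open CongruenceSubgroup ModularCurve ModularCurve.Period
open scoped MatrixGroups

/-- The set of homomorphisms counted by package COUNT. -/
abbrev KillsPE (N ℓ : ℕ) : Type :=
  {χ : Additive (Gamma0 N) →+ ZMod ℓ //
    ∀ γ : Gamma0 N, ((γ : SL(2, ℤ)) : Matrix (Fin 2) (Fin 2) ℤ).trace ^ 2 ≤ 4 →
      χ (Additive.ofMul γ) = 0}

theorem card_killMod_eq (N ℓ : ℕ) :
    Nat.card (KillMod (smallTrace N) ℓ) = Nat.card (KillsPE N ℓ) :=
  Nat.card_congr (Equiv.subtypeEquivRight fun _ =>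
    ⟨fun h γ hγ => h (Additive.ofMul γ) hγ, fun h x hx => h (Additive.toMul x) hx⟩)

/-- **TORSLIFT** from BASIS and COUNT. -/
theorem torsLift_of_basis_count (N : ℕ) [NeZero N] {r d : ℕ}
    {b : Fin r → (Additive (Gamma0 N) →+ ℤ)} (hb : IsParBasis N b) (hdr : d ≤ r)
    (hcount : ∀ (ℓ : ℕ) [Fact ℓ.Prime], Nat.card (KillsPE N ℓ) ≤ ℓ ^ d) (n : ℕ) :
    Fermat.Agent.S16.Stmt_TorsLift N n := by
  refine torsLift_of_count N hb (fun ℓ hℓ => ?_) n
  have : Fact ℓ.Prime := ⟨hℓ⟩
  rw [card_killMod_eq]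
  exact (hcount ℓ).trans (Nat.pow_le_pow_right hℓ.pos hdr)

/-- **TORSLIFT** from BASIS (existential form) and COUNT. -/
theorem torsLift_of_exists (N : ℕ) [NeZero N] {d : ℕ}
    (hbasis : ∃ (r : ℕ) (b : Fin r → (Additive (Gamma0 N) →+ ℤ)), IsParBasis N b ∧ d ≤ r)
    (hcount : ∀ (ℓ : ℕ) [Fact ℓ.Prime], Nat.card (KillsPE N ℓ) ≤ ℓ ^ d) (n : ℕ) :
    Fermat.Agent.S16.Stmt_TorsLift N n := by
  obtain ⟨r, b, hb, hdr⟩ := hbasis
  exact torsLift_of_basis_count N hb hdr hcount n

/-- Variant of BASIS: it suffices to have `d` parabolic homomorphisms `Γ₀(N) → ℤ` which are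
linearly independent over `ℤ`: the universal basis of `stmt_basis` then has `r ≥ d` elements. -/
theorem exists_basis_ge_of_indep (N : ℕ) [NeZero N] {d : ℕ}
    (c : Fin d → (Additive (Gamma0 N) →+ ℤ)) (hc : ∀ i, IsParabolicHom (Gamma0 N) (c i))
    (hind : LinearIndependent ℤ c) :
    ∃ (r : ℕ) (b : Fin r → (Additive (Gamma0 N) →+ ℤ)), IsParBasis N b ∧ d ≤ r := by
  obtain ⟨r, b, hb⟩ := stmt_basis N
  refine ⟨r, b, hb, ?_⟩
  -- express `c i = ∑ j, A i j • b j`; the matrix `A : Fin d → Fin r → ℤ` has independent rows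
  have hex : ∀ i, ∃ a : Fin r → ℤ, ∀ γ, c i γ = ∑ j, b j γ • a j := fun i =>
    (hb.2 ℤ (c i) (hc i)).exists
  choose A hA using hex
  -- the linear map `(Fin r → ℤ) → Hom`, `a ↦ ∑ j, a j • b j`
  let L : (Fin r → ℤ) →ₗ[ℤ] (Additive (Gamma0 N) →+ ℤ) :=
    { toFun := fun a => ∑ j, a j • b j
      map_add' := fun a a' => by
        simp only [Pi.add_apply, add_smul, Finset.sum_add_distrib]
      map_smul' := fun k a => by
        simp only [Pi.smul_apply, smul_eq_mul, RingHom.id_apply, Finset.smul_sum, mul_smul] }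
  have hL : ∀ i, L (A i) = c i := by
    intro i
    refine AddMonoidHom.ext fun γ => ?_
    rw [hA i γ]
    simp only [L, LinearMap.coe_mk, AddHom.coe_mk, AddMonoidHom.finsetSum_apply,
      AddMonoidHom.smul_apply, smul_eq_mul]
    exact Finset.sum_congr rfl fun j _ => mul_comm _ _
  have hAind : LinearIndependent ℤ A := by
    have h1 : LinearIndependent ℤ (L ∘ A) := by
      have : (L ∘ A) = c := funext hL
      rw [this]
      exact hind
    exact LinearIndependent.of_comp L h1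
  have h2 := hAind.fintype_card_le_finrank
  simpa using h2

end Fermat.Agent.Betti.H41
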