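import Fermat.Agent.Betti.H21_BasisGe
import Fermat.Agent.Betti.H41_TorsLiftFinal

/-!
# TORSLIFT from COUNT alone (helper21): BASIS (`H21.exists_basis_ge`) + ABS-LIFT (helper41)

`stmt_torsLift_of_card` : if for every prime `ℓ` at most `ℓ ^ (2 dim S₂(Γ₀(N)))` homomorphisms
`Γ₀(N) → ℤ/ℓ` kill the elements with `(tr γ)² ≤ 4` (package COUNT, helper77), then
`Fermat.Agent.S16.Stmt_TorsLift N n` holds for every `n`.
-/

set_option autoImplicit false

namespace Fermat.Agent.Betti.H21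

open CongruenceSubgroup

/-- **TORSLIFT** from COUNT. -/
theorem stmt_torsLift_of_card (N : ℕ) [NeZero N]
    (hcount : ∀ (ℓ : ℕ) [Fact ℓ.Prime], Nat.card (Fermat.Agent.Betti.H41.KillsPE N ℓ) ≤
      ℓ ^ (2 * Module.finrank ℂ (CuspForm (Gamma0 N) 2))) (n : ℕ) :
    Fermat.Agent.S16.Stmt_TorsLift N n :=
  Fermat.Agent.Betti.H41.torsLift_of_exists N (exists_basis_ge N) hcount n

end Fermat.Agent.Betti.H21
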