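import Mathlib

/-!
# Cyclic coboundaries (helper77, package TORSLIFT)

`cyc_cob`: let `σ` be a permutation of a finite set `X` and `c : X → A` a function into an
abelian group whose sums along all closed `σ`-paths vanish.  Then `c = v ∘ σ - v` for some
`v : X → A`.  (No divisibility in `A` is needed: this replaces the averaging argument
`H¹(finite group, ℂ-module) = 0` when the coefficients are `ℤ/m` or a finite field.)
-/

set_option autoImplicit false

namespace Fermat.Agent.Betti.H77

open Finset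

variable {X : Type*} {A : Type*} [AddCommGroup A]

/-- partial sums of `c` along the `σ`-path starting at `r` -/
def psum (σ : Equiv.Perm X) (c : X → A) (r : X) (k : ℕ) : A :=
  ∑ i ∈ range k, c ((σ ^ i) r)

lemma psum_zero (σ : Equiv.Perm X) (c : X → A) (r : X) : psum σ c r 0 = 0 := by
  simp [psum]

lemma psum_succ (σ : Equiv.Perm X) (c : X → A) (r : X) (k : ℕ) :
    psum σ c r (k + 1) = psum σ c r k + c ((σ ^ k) r) := by
  simp [psum, sum_range_succ]

lemma psum_add (σ : Equiv.Perm X) (c : X → A) (r : X) (k m : ℕ) :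
    psum σ c r (k + m) = psum σ c r k + psum σ c ((σ ^ k) r) m := by
  unfold psum
  rw [sum_range_add]
  congr 1
  refine sum_congr rfl fun i _ => ?_
  rw [← Equiv.Perm.mul_apply, ← pow_add, add_comm]

lemma psum_eq_of_pow_eq (σ : Equiv.Perm X) (c : X → A)
    (h : ∀ q : X, ∀ n : ℕ, 0 < n → (σ ^ n) q = q → ∑ i ∈ range n, c ((σ ^ i) q) = 0)
    {r : X} {k k' : ℕ} (hk : (σ ^ k) r = (σ ^ k') r) : psum σ c r k = psum σ c r k' := by
  wlog hle : k ≤ k' generalizing k k'
  · exact (this hk.symm (le_of_not_ge hle)).symm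
  obtain ⟨m, rfl⟩ := Nat.exists_eq_add_of_le hle
  rw [psum_add]
  rcases Nat.eq_zero_or_pos m with rfl | hm
  · simp [psum]
  · have h1 : (σ ^ m) ((σ ^ k) r) = (σ ^ k) r := by
      rw [← Equiv.Perm.mul_apply, ← pow_add, add_comm]
      exact hk.symm
    have h2 : psum σ c ((σ ^ k) r) m = 0 := h _ m hm h1
    rw [h2, add_zero]

/-- **Cyclic coboundary lemma.** -/
theorem cyc_cob [Finite X] (σ : Equiv.Perm X) (c : X → A)
    (h : ∀ q : X, ∀ n : ℕ, 0 < n → (σ ^ n) q = q → ∑ i ∈ range n, c ((σ ^ i) q) = 0) :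
    ∃ v : X → A, ∀ q, v (σ q) - v q = c q := by
  classical
  let s : Setoid X := Equiv.Perm.SameCycle.setoid σ
  let r : X → X := fun q => Quotient.out (Quotient.mk s q)
  have hr : ∀ q, σ.SameCycle (r q) q := fun q => Quotient.exact (Quotient.out_eq (Quotient.mk s q))
  have hrσ : ∀ q, r (σ q) = r q := by
    intro q
    show Quotient.out (Quotient.mk s (σ q)) = Quotient.out (Quotient.mk s q)
    congr 1
    apply Quotient.sound
    show σ.SameCycle (σ q) q
    exact Equiv.Perm.sameCycle_apply_left.mpr (Equiv.Perm.SameCycle.refl σ q)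
  have hex : ∀ q, ∃ k : ℕ, (σ ^ k) (r q) = q := fun q => (hr q).exists_nat_pow_eq
  choose k hk using hex
  refine ⟨fun q => psum σ c (r q) (k q), fun q => ?_⟩
  show psum σ c (r (σ q)) (k (σ q)) - psum σ c (r q) (k q) = c q
  rw [hrσ]
  have h1 : (σ ^ (k (σ q))) (r q) = (σ ^ (k q + 1)) (r q) := by
    have h2 := hk (σ q)
    rw [hrσ] at h2
    rw [h2, pow_succ', Equiv.Perm.mul_apply, hk q]
  rw [psum_eq_of_pow_eq σ c h h1, psum_succ, hk q]
  abel

end Fermat.Agent.Betti.H77
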