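import Mathlib
import Fermat.Agent.S21.H75_Main
import Fermat.Agent.Betti.H77_CycCob

/-!
# Shapiro cocycles with coefficients in an arbitrary field (helper77, package TORSLIFT)

`K`-valued version of `Fermat.Agent.S21.H75` (which works over `ℂ`): for a subgroup `Γ` of a group
`G` and a homomorphism `φ : Γ → K` the cocycle `cocK φ : G → ((G ⧸ Γ) → K)`.
-/

set_option autoImplicit false
set_option linter.unusedSectionVars false

namespace Fermat.Agent.Betti.H77

open Module
open Fermat.Agent.S21.H75 (kappa kappa_coe kappa_mul out_base_mem)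

variable (K : Type*) [Field K] {G : Type*} [Group G] (Γ : Subgroup G)

/-- precomposition with the action of `g` on `G ⧸ Γ` -/
noncomputable def RK (g : G) : ((G ⧸ Γ) → K) →ₗ[K] ((G ⧸ Γ) → K) :=
  LinearMap.funLeft K K (fun q => g • q)

@[simp] lemma RK_apply (g : G) (v : (G ⧸ Γ) → K) (q : G ⧸ Γ) : RK K Γ g v q = v (g • q) := rfl

lemma RK_mul (g h : G) : RK K Γ (g * h) = RK K Γ h * RK K Γ g := by
  ext v q
  simp [mul_smul]

lemma RK_one : RK K Γ (1 : G) = 1 := by
  ext v q
  simp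

/-- the cocycle attached to `φ : Γ → K` -/
noncomputable def cocK (φ : Additive Γ →+ K) (g : G) : (G ⧸ Γ) → K :=
  fun q => φ (Additive.ofMul (kappa Γ g q))

lemma cocK_apply (φ : Additive Γ →+ K) (g : G) (q : G ⧸ Γ) :
    cocK K Γ φ g q = φ (Additive.ofMul (kappa Γ g q)) := rfl

/-- coboundary of `v` -/
noncomputable def cobK (v : (G ⧸ Γ) → K) (g : G) : (G ⧸ Γ) → K := RK K Γ g v - v

lemma cobK_apply (v : (G ⧸ Γ) → K) (g : G) (q : G ⧸ Γ) :
    cobK K Γ v g q = v (g • q) - v q := rfl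

/-- A (right) cocycle `c : G → V`: `c (g h) = R_h (c g) + c h`. -/
def IsCocK (c : G → ((G ⧸ Γ) → K)) : Prop :=
  ∀ g h : G, c (g * h) = RK K Γ h (c g) + c h

lemma isCocK_cocK (φ : Additive Γ →+ K) : IsCocK K Γ (cocK K Γ φ) := by
  intro g h
  ext q
  simp only [cocK_apply, Pi.add_apply, RK_apply, kappa_mul, ofMul_mul, map_add]

lemma isCocK_cobK (v : (G ⧸ Γ) → K) : IsCocK K Γ (cobK K Γ v) := by
  intro g h
  simp only [cobK, RK_mul, Module.End.mul_apply, map_sub]
  abel

lemma IsCocK.add {c d : G → ((G ⧸ Γ) → K)} (hc : IsCocK K Γ c) (hd : IsCocK K Γ d) :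
    IsCocK K Γ (c + d) := by
  intro g h
  simp only [Pi.add_apply, hc g h, hd g h, map_add]
  abel

variable {K Γ}

lemma IsCocK.map_one {c : G → ((G ⧸ Γ) → K)} (hc : IsCocK K Γ c) : c 1 = 0 := by
  have h := hc 1 1
  rw [mul_one, RK_one, Module.End.one_apply] at h
  simpa using h

lemma IsCocK.map_inv {c : G → ((G ⧸ Γ) → K)} (hc : IsCocK K Γ c) (g : G) :
    c g⁻¹ = - RK K Γ g⁻¹ (c g) := by
  have h := hc g g⁻¹
  rw [mul_inv_cancel, hc.map_one] at h
  exact eq_neg_of_add_eq_zero_right h.symm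

/-- the value of a cocycle at `g ^ n` is the sum along the `g`-path -/
lemma IsCocK.map_pow_apply {c : G → ((G ⧸ Γ) → K)} (hc : IsCocK K Γ c) (g : G) (n : ℕ)
    (q : G ⧸ Γ) : c (g ^ n) q = ∑ i ∈ Finset.range n, c g ((g ^ i) • q) := by
  induction n with
  | zero => simp [hc.map_one]
  | succ n ih =>
    rw [pow_succ', hc g (g ^ n), Pi.add_apply, RK_apply, ih, Finset.sum_range_succ]
    abel

/-- a cocycle vanishing on a generating set vanishes identically -/
lemma IsCocK.eq_zero_of_closure {c : G → ((G ⧸ Γ) → K)} (hc : IsCocK K Γ c) {s : Set G}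
    (hs : Subgroup.closure s = ⊤) (h0 : ∀ g ∈ s, c g = 0) (g : G) : c g = 0 := by
  have hg : g ∈ Subgroup.closure s := by rw [hs]; trivial
  induction hg using Subgroup.closure_induction with
  | mem x hx => exact h0 x hx
  | one => exact hc.map_one
  | mul x y _ _ hx hy => rw [hc x y, hx, hy, map_zero, add_zero]
  | inv x _ hx => rw [hc.map_inv, hx, map_zero, neg_zero]

variable (K Γ)

lemma cocK_add (φ ψ : Additive Γ →+ K) (g : G) :
    cocK K Γ (φ + ψ) g = cocK K Γ φ g + cocK K Γ ψ g := rfl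

lemma cocK_smul (a : K) (φ : Additive Γ →+ K) (g : G) :
    cocK K Γ (a • φ) g = a • cocK K Γ φ g := rfl

lemma cobK_add (v w : (G ⧸ Γ) → K) (g : G) :
    cobK K Γ (v + w) g = cobK K Γ v g + cobK K Γ w g := by
  simp only [cobK, map_add]; abel

lemma cobK_smul (a : K) (v : (G ⧸ Γ) → K) (g : G) :
    cobK K Γ (a • v) g = a • cobK K Γ v g := by
  simp only [cobK, map_smul, smul_sub]

/-- the total cocycle `coc φ + cob v` evaluated at `g`, as a linear map in `(φ, v)` -/
noncomputable def evalK (g : G) :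
    ((Additive Γ →+ K) × ((G ⧸ Γ) → K)) →ₗ[K] ((G ⧸ Γ) → K) where
  toFun p := cocK K Γ p.1 g + cobK K Γ p.2 g
  map_add' p p' := by
    simp only [Prod.fst_add, Prod.snd_add, cocK_add, cobK_add]; abel
  map_smul' a p := by
    simp only [Prod.smul_fst, Prod.smul_snd, cocK_smul, cobK_smul, smul_add, RingHom.id_apply]

lemma evalK_apply (g : G) (p : (Additive Γ →+ K) × ((G ⧸ Γ) → K)) :
    evalK K Γ g p = cocK K Γ p.1 g + cobK K Γ p.2 g := rfl

lemma isCocK_evalK (p : (Additive Γ →+ K) × ((G ⧸ Γ) → K)) :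
    IsCocK K Γ (fun g => evalK K Γ g p) :=
  (isCocK_cocK K Γ p.1).add K Γ (isCocK_cobK K Γ p.2)

/-- Shapiro: evaluating the total cocycle at `γ ∈ Γ` and the base coset recovers `φ γ`. -/
lemma evalK_base (p : (Additive Γ →+ K) × ((G ⧸ Γ) → K)) (γ : Γ) :
    evalK K Γ (γ : G) p (QuotientGroup.mk 1) = p.1 (Additive.ofMul γ) := by
  have hfix : (γ : G) • (QuotientGroup.mk 1 : G ⧸ Γ) = QuotientGroup.mk 1 := by
    rw [← QuotientGroup.mk_mul_of_mem (1 : G) γ.2]
    simp [MulAction.Quotient.smul_mk]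
  have hk : kappa Γ (γ : G) (QuotientGroup.mk 1)
      = ⟨_, out_base_mem Γ⟩⁻¹ * γ * ⟨_, out_base_mem Γ⟩ := by
    apply Subtype.ext
    simp only [kappa_coe, hfix, Subgroup.coe_mul, Subgroup.coe_inv, mul_assoc]
  rw [evalK_apply, Pi.add_apply, cocK_apply, hk]
  simp only [cobK, Pi.sub_apply, RK_apply, hfix, sub_self, add_zero, ofMul_mul, ofMul_inv,
    map_add, map_neg]
  abel

/-- If the total cocycle vanishes at generators, then `φ = 0` and `v` is `G`-invariant. -/
lemma evalK_eq_zero_of_gen {s : Set G} (hs : Subgroup.closure s = ⊤)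
    (p : (Additive Γ →+ K) × ((G ⧸ Γ) → K)) (h0 : ∀ g ∈ s, evalK K Γ g p = 0) :
    p.1 = 0 ∧ ∀ q q' : G ⧸ Γ, p.2 q = p.2 q' := by
  have hall : ∀ g, evalK K Γ g p = 0 :=
    fun g => (isCocK_evalK K Γ p).eq_zero_of_closure hs h0 g
  have h1 : p.1 = 0 := by
    ext γ
    have := evalK_base K Γ p (Additive.toMul γ)
    rw [hall] at this
    exact this.symm
  refine ⟨h1, fun q q' => ?_⟩
  obtain ⟨g, rfl⟩ := MulAction.exists_smul_eq G q' q
  have := congrFun (hall g) q'
  rw [evalK_apply, h1] at this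
  simp only [cobK, Pi.add_apply, Pi.sub_apply, RK_apply, Pi.zero_apply] at this
  have h2 : cocK K Γ 0 g q' = 0 := rfl
  rw [h2, zero_add] at this
  exact sub_eq_zero.mp this

section SumZero

variable [Fintype (G ⧸ Γ)]

/-- the sum functional on `(G ⧸ Γ) → K` -/
noncomputable def sumK : ((G ⧸ Γ) → K) →ₗ[K] K :=
  ∑ q : G ⧸ Γ, LinearMap.proj q

lemma sumK_apply (v : (G ⧸ Γ) → K) : sumK K Γ v = ∑ q, v q := by
  simp [sumK, LinearMap.sum_apply]

omit [Fintype (G ⧸ Γ)] in
/-- `R_g w - w` lies in `range (R_S - 1) ⊔ range (R_U - 1)` whenever `S, U` generate. -/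
lemma RK_sub_mem_sup {S U : G} (hgen : Subgroup.closure {S, U} = ⊤) (g : G)
    (w : (G ⧸ Γ) → K) :
    RK K Γ g w - w ∈ LinearMap.range (RK K Γ S - 1) ⊔ LinearMap.range (RK K Γ U - 1) := by
  have hg : g ∈ Subgroup.closure {S, U} := by rw [hgen]; trivial
  induction hg using Subgroup.closure_induction generalizing w with
  | mem x hx =>
    rcases hx with rfl | rfl
    · exact Submodule.mem_sup_left ⟨w, rfl⟩
    · exact Submodule.mem_sup_right ⟨w, rfl⟩
  | one => simp [RK_one]
  | mul x y _ _ hx hy =>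
    have : RK K Γ (x * y) w - w = (RK K Γ y (RK K Γ x w) - RK K Γ x w) + (RK K Γ x w - w) := by
      rw [RK_mul, Module.End.mul_apply]; abel
    rw [this]
    exact Submodule.add_mem _ (hy _) (hx _)
  | inv x _ hx =>
    have h1 : RK K Γ x (RK K Γ x⁻¹ w) = w := by
      rw [← Module.End.mul_apply, ← RK_mul, inv_mul_cancel, RK_one, Module.End.one_apply]
    have : RK K Γ x⁻¹ w - w = -(RK K Γ x (RK K Γ x⁻¹ w) - RK K Γ x⁻¹ w) := by
      rw [h1]; abel
    rw [this]
    exact Submodule.neg_mem _ (hx _)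

lemma single_sub_single_mem_supK [DecidableEq (G ⧸ Γ)] {S U : G}
    (hgen : Subgroup.closure {S, U} = ⊤) (q q₀ : G ⧸ Γ) :
    (Pi.single q (1 : K) - Pi.single q₀ (1 : K) : (G ⧸ Γ) → K) ∈
      LinearMap.range (RK K Γ S - 1) ⊔ LinearMap.range (RK K Γ U - 1) := by
  obtain ⟨g, hg⟩ := MulAction.exists_smul_eq G q q₀
  have : (Pi.single q (1 : K) : (G ⧸ Γ) → K) = RK K Γ g (Pi.single q₀ (1 : K)) := by
    ext q'
    simp only [RK_apply, Pi.single_apply]
    have : q' = q ↔ g • q' = q₀ := by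
      rw [← hg]
      exact ⟨fun h => by rw [h], fun h => MulAction.injective g h⟩
    simp only [this]
  rw [this]
  exact RK_sub_mem_sup K Γ hgen g _

/-- Sum-zero vectors lie in `range (R_S - 1) ⊔ range (R_U - 1)`. -/
lemma ker_sumK_le_sup {S U : G} (hgen : Subgroup.closure {S, U} = ⊤) :
    LinearMap.ker (sumK K Γ) ≤
      LinearMap.range (RK K Γ S - 1) ⊔ LinearMap.range (RK K Γ U - 1) := by
  classical
  intro v hv
  rw [LinearMap.mem_ker, sumK_apply] at hv
  let q₀ : G ⧸ Γ := QuotientGroup.mk 1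
  have hv' : v = ∑ q, v q • (Pi.single q (1 : K) - Pi.single q₀ (1 : K) : (G ⧸ Γ) → K) := by
    simp only [smul_sub, Finset.sum_sub_distrib, ← Finset.sum_smul, hv, zero_smul, sub_zero]
    ext q'
    simp [Finset.sum_apply, Pi.single_apply]
  rw [hv']
  exact Submodule.sum_mem _ fun q _ =>
    Submodule.smul_mem _ _ (single_sub_single_mem_supK K Γ hgen q q₀)

/-- invariance under `g` propagates to the cyclic group generated by `g` -/
lemma apply_smul_of_mem_zpowersK {g : G} {v : (G ⧸ Γ) → K} (hv : ∀ q, v (g • q) = v q)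
    {h : G} (hh : h ∈ Subgroup.zpowers g) (q : G ⧸ Γ) : v (h • q) = v q := by
  obtain ⟨n, rfl⟩ := Subgroup.mem_zpowers_iff.mp hh
  clear hh
  have hinv : ∀ q, v (g⁻¹ • q) = v q := fun q => by
    have := hv (g⁻¹ • q)
    rw [smul_inv_smul] at this
    exact this.symm
  induction n using Int.induction_on generalizing q with
  | zero => simp
  | succ n ih =>
    rw [zpow_add_one, mul_smul, ih, hv]
  | pred n ih =>
    rw [zpow_sub_one, mul_smul, ih, hinv]

/-- `dim ker (R_g - 1)` is the number of orbits of `⟨g⟩` on `G ⧸ Γ`. -/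
theorem finrank_ker_RK_sub_one (g : G) :
    finrank K (LinearMap.ker (RK K Γ g - 1)) =
      Nat.card (MulAction.orbitRel.Quotient (Subgroup.zpowers g) (G ⧸ Γ)) := by
  classical
  let π : (G ⧸ Γ) → MulAction.orbitRel.Quotient (Subgroup.zpowers g) (G ⧸ Γ) :=
    Quotient.mk''
  have hπ : Function.Surjective π := Quotient.mk''_surjective
  let F : (MulAction.orbitRel.Quotient (Subgroup.zpowers g) (G ⧸ Γ) → K) →ₗ[K]
      ((G ⧸ Γ) → K) := LinearMap.funLeft K K π
  have hF : Function.Injective F := LinearMap.funLeft_injective_of_surjective K K π hπ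
  have hrange : LinearMap.range F = LinearMap.ker (RK K Γ g - 1) := by
    apply le_antisymm
    · rintro _ ⟨f, rfl⟩
      rw [LinearMap.mem_ker, LinearMap.sub_apply, Module.End.one_apply, sub_eq_zero]
      funext q
      show f (π (g • q)) = f (π q)
      congr 1
      apply Quotient.sound'
      exact ⟨⟨g, Subgroup.mem_zpowers g⟩, rfl⟩
    · intro v hv
      rw [LinearMap.mem_ker, LinearMap.sub_apply, Module.End.one_apply, sub_eq_zero] at hv
      have hv' : ∀ q, v (g • q) = v q := fun q => congrFun hv q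
      refine ⟨Quotient.lift v ?_, ?_⟩
      · rintro a b ⟨⟨h, hh⟩, rfl⟩
        exact apply_smul_of_mem_zpowersK K Γ hv' hh b
      · funext q
        rfl
  have : Finite (MulAction.orbitRel.Quotient (Subgroup.zpowers g) (G ⧸ Γ)) :=
    Finite.of_surjective π hπ
  let _ := Fintype.ofFinite (MulAction.orbitRel.Quotient (Subgroup.zpowers g) (G ⧸ Γ))
  rw [← hrange, LinearMap.finrank_range_of_inj hF, Module.finrank_fintype_fun_eq_card,
    Nat.card_eq_fintype_card]

end SumZero

end Fermat.Agent.Betti.H77
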