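import Mathlib
import Fermat.Agent.Betti.H77_CocK

/-!
# The dimension count over an arbitrary field (helper77, package TORSLIFT)

`G` a group generated by `S, T`, `Γ` a subgroup of finite index, `K` a field.  Let `V` be the
space of homomorphisms `Γ → K` which vanish on all `G`-conjugates of powers of `S`, `S * T`, `T`
lying in `Γ`.  Then

  `dim V + o(S) + o(S * T) + o(T) ≤ [G : Γ] + 2`,

`o(g)` the number of orbits of `g` on `G ⧸ Γ`  (`count_bound`).  For `K = ℂ` this is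
`Fermat.Agent.S21.H75.Hyp.finrank_bound`; the proof here divides by nothing.
-/

set_option autoImplicit false
set_option linter.unusedSectionVars false

namespace Fermat.Agent.Betti.H77

open Module
open Fermat.Agent.S21.H75 (kappa kappa_coe kappa_mul out_base_mem)

variable (K : Type*) [Field K] {G : Type*} [Group G] (Γ : Subgroup G)

/-- homs `Γ → K` vanishing on all `G`-conjugates of powers of elements of `E` lying in `Γ` -/
def vanHoms (E : Set G) : Submodule K (Additive Γ →+ K) where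
  carrier := {φ | ∀ x ∈ E, ∀ (g : G) (n : ℕ) (h : g⁻¹ * (x ^ n * g) ∈ Γ),
    φ (Additive.ofMul ⟨_, h⟩) = 0}
  zero_mem' := fun _ _ _ _ _ => rfl
  add_mem' := by
    intro φ ψ hφ hψ x hx g n h
    show φ _ + ψ _ = 0
    rw [hφ x hx g n h, hψ x hx g n h, add_zero]
  smul_mem' := by
    intro c φ hφ x hx g n h
    show c • φ _ = 0
    rw [hφ x hx g n h, smul_zero]

lemma mem_vanHoms {E : Set G} {φ : Additive Γ →+ K} :
    φ ∈ vanHoms K Γ E ↔ ∀ x ∈ E, ∀ (g : G) (n : ℕ) (h : g⁻¹ * (x ^ n * g) ∈ Γ),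
      φ (Additive.ofMul ⟨_, h⟩) = 0 := Iff.rfl

lemma toPerm_pow_apply (x : G) (i : ℕ) (q : G ⧸ Γ) :
    ((MulAction.toPerm x : Equiv.Perm (G ⧸ Γ)) ^ i) q = (x ^ i) • q := by
  induction i generalizing q with
  | zero => simp
  | succ i ih =>
    rw [pow_succ, Equiv.Perm.mul_apply, ih, pow_succ, mul_smul]
    rfl

/-- On the special elements the Shapiro cocycle of a hom in `vanHoms` is a coboundary. -/
lemma exists_cobK [Finite (G ⧸ Γ)] {E : Set G} {φ : Additive Γ →+ K}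
    (hφ : φ ∈ vanHoms K Γ E) {x : G} (hx : x ∈ E) :
    ∃ v : (G ⧸ Γ) → K, cocK K Γ φ x = cobK K Γ v x := by
  obtain ⟨v, hv⟩ := cyc_cob (MulAction.toPerm x : Equiv.Perm (G ⧸ Γ)) (cocK K Γ φ x) (by
    intro q n hn hq
    rw [toPerm_pow_apply] at hq
    simp only [toPerm_pow_apply]
    rw [← (isCocK_cocK K Γ φ).map_pow_apply x n q, cocK_apply]
    have hmem : (Quotient.out q)⁻¹ * (x ^ n * Quotient.out q) ∈ Γ := by
      have := (kappa Γ (x ^ n) q).2
      rwa [kappa_coe, hq] at this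
    have hk : kappa Γ (x ^ n) q = ⟨_, hmem⟩ := by
      apply Subtype.ext
      rw [kappa_coe, hq]
    rw [hk]
    exact hφ x hx _ n hmem)
  refine ⟨v, ?_⟩
  funext q
  rw [cobK_apply]
  exact (hv q).symm

lemma evalK_mem_range [Finite (G ⧸ Γ)] {E : Set G} {φ : Additive Γ →+ K}
    (hφ : φ ∈ vanHoms K Γ E) {x : G} (hx : x ∈ E) (a : (G ⧸ Γ) → K) :
    evalK K Γ x (φ, a) ∈ LinearMap.range (RK K Γ x - 1) := by
  obtain ⟨v, hv⟩ := exists_cobK K Γ hφ hx
  refine ⟨v + a, ?_⟩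
  rw [evalK_apply]
  show (RK K Γ x - 1) (v + a) = cocK K Γ φ x + cobK K Γ a x
  rw [hv]
  simp only [cobK, LinearMap.sub_apply, Module.End.one_apply, map_add]

/-- `Hom(Γ, K)` is finite-dimensional (finite index, `G` generated by `S, T`). -/
lemma finite_homK [Finite (G ⧸ Γ)] {S T : G} (hgen : Subgroup.closure {S, T} = ⊤) :
    FiniteDimensional K (Additive Γ →+ K) := by
  let Ψ : (Additive Γ →+ K) →ₗ[K] ((G ⧸ Γ) → K) × ((G ⧸ Γ) → K) :=
    ((evalK K Γ S).prod (evalK K Γ T)) ∘ₗ (LinearMap.inl K _ _)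
  have hΨ : Function.Injective Ψ := by
    rw [injective_iff_map_eq_zero]
    intro φ hφ
    have h1 : evalK K Γ S (φ, 0) = 0 := congrArg Prod.fst hφ
    have h2 : evalK K Γ T (φ, 0) = 0 := congrArg Prod.snd hφ
    have := evalK_eq_zero_of_gen K Γ hgen (φ, 0) (by
      rintro g (rfl | hg)
      · exact h1
      · rw [Set.mem_singleton_iff] at hg; rw [hg]; exact h2)
    exact this.1
  exact FiniteDimensional.of_injective Ψ hΨ

lemma closure_ST_T {S T : G} (hgen : Subgroup.closure {S, T} = ⊤) :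
    Subgroup.closure {S * T, T} = ⊤ := by
  rw [eq_top_iff, ← hgen, Subgroup.closure_le]
  intro x hx
  have hU : S * T ∈ Subgroup.closure {S * T, T} := Subgroup.subset_closure (by simp)
  have hT : T ∈ Subgroup.closure {S * T, T} := Subgroup.subset_closure (by simp)
  rcases hx with hx | hx
  · rw [hx]
    have h3 : S * T * T⁻¹ ∈ Subgroup.closure {S * T, T} := mul_mem hU (inv_mem hT)
    rwa [mul_inv_cancel_right] at h3
  · rw [Set.mem_singleton_iff] at hx
    rw [hx]; exact hT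

/-- the relation between the three trivialisations -/
lemma rel_of_evalK_eq_zero {S T : G} (φ : Additive Γ →+ K) (a b c : (G ⧸ Γ) → K)
    (hS : evalK K Γ S (φ, a) = 0) (hU : evalK K Γ (S * T) (φ, b) = 0)
    (hT : evalK K Γ T (φ, c) = 0) :
    (RK K Γ (S * T) - 1) (b - a) = (RK K Γ T - 1) (c - a) := by
  have h1 : evalK K Γ (S * T) (φ, a) = RK K Γ T (evalK K Γ S (φ, a)) + evalK K Γ T (φ, a) :=
    isCocK_evalK K Γ (φ, a) S T
  rw [hS, map_zero, zero_add] at h1
  have h2 : evalK K Γ (S * T) (φ, a) = (RK K Γ (S * T) - 1) (a - b) := by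
    have : evalK K Γ (S * T) (φ, a) = evalK K Γ (S * T) (φ, a) - evalK K Γ (S * T) (φ, b) := by
      rw [hU, sub_zero]
    rw [this]
    simp only [evalK_apply, cobK, LinearMap.sub_apply, Module.End.one_apply, map_sub]
    abel
  have h3 : evalK K Γ T (φ, a) = (RK K Γ T - 1) (a - c) := by
    have : evalK K Γ T (φ, a) = evalK K Γ T (φ, a) - evalK K Γ T (φ, c) := by
      rw [hT, sub_zero]
    rw [this]
    simp only [evalK_apply, cobK, LinearMap.sub_apply, Module.End.one_apply, map_sub]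
    abel
  rw [h2, h3] at h1
  have h4 : (RK K Γ (S * T) - 1) (b - a) = -((RK K Γ (S * T) - 1) (a - b)) := by
    rw [← map_neg, neg_sub]
  have h5 : (RK K Γ T - 1) (c - a) = -((RK K Γ T - 1) (a - c)) := by
    rw [← map_neg, neg_sub]
  rw [h4, h5, h1]

/-- a common trivialisation vanishing at the base point is zero -/
lemma eq_zero_of_evalK_eq_zero {S T : G} (hgen : Subgroup.closure {S, T} = ⊤)
    (φ : Additive Γ →+ K) (a : (G ⧸ Γ) → K)
    (hS : evalK K Γ S (φ, a) = 0) (hT : evalK K Γ T (φ, a) = 0)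
    (h0 : a (QuotientGroup.mk 1) = 0) : φ = 0 ∧ a = 0 := by
  have := evalK_eq_zero_of_gen K Γ hgen (φ, a) (by
    rintro g (rfl | hg)
    · exact hS
    · rw [Set.mem_singleton_iff] at hg; rw [hg]; exact hT)
  refine ⟨this.1, ?_⟩
  funext q
  have h := this.2 q (QuotientGroup.mk 1)
  show a q = 0
  exact h.trans h0

section Count

variable [Fintype (G ⧸ Γ)]

lemma finrank_ker_sumK_ge :
    Fintype.card (G ⧸ Γ) ≤ finrank K (LinearMap.ker (sumK K Γ)) + 1 := by
  have h2 := LinearMap.finrank_range_add_finrank_ker (sumK K Γ)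
  have h3 : finrank K (LinearMap.range (sumK K Γ)) ≤ 1 := by
    have := Submodule.finrank_le (LinearMap.range (sumK K Γ))
    simpa using this
  have c3 : finrank K ((G ⧸ Γ) → K) = Fintype.card (G ⧸ Γ) := Module.finrank_fintype_fun_eq_card K
  omega

lemma finrank_range_RK_sub_one (g : G) :
    finrank K (LinearMap.range (RK K Γ g - 1))
      + Nat.card (MulAction.orbitRel.Quotient (Subgroup.zpowers g) (G ⧸ Γ))
      = Fintype.card (G ⧸ Γ) := by
  have h2 := LinearMap.finrank_range_add_finrank_ker (RK K Γ g - 1)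
  rw [finrank_ker_RK_sub_one, Module.finrank_fintype_fun_eq_card] at h2
  exact h2

/-- abstract linear algebra bookkeeping for the count -/
lemma abstract_count {K : Type*} [Field K] {V M R1 R2 R3 : Type*}
    [AddCommGroup V] [Module K V] [FiniteDimensional K V]
    [AddCommGroup M] [Module K M] [FiniteDimensional K M]
    [AddCommGroup R1] [Module K R1] [FiniteDimensional K R1]
    [AddCommGroup R2] [Module K R2] [FiniteDimensional K R2]
    [AddCommGroup R3] [Module K R3] [FiniteDimensional K R3]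
    (Ψ : V × (M × (M × M)) →ₗ[K] R1 × (R2 × R3))
    (L : M × M →ₗ[K] M) (ev : M →ₗ[K] K)
    (hrel : ∀ p, Ψ p = 0 → L (p.2.2.1 - p.2.1, p.2.2.2 - p.2.1) = 0)
    (hker : ∀ p, Ψ p = 0 → p.2.2.1 - p.2.1 = 0 → p.2.2.2 - p.2.1 = 0 → ev p.2.1 = 0 → p = 0) :
    finrank K V + finrank K M + finrank K (LinearMap.range L)
      ≤ finrank K R1 + finrank K R2 + finrank K R3 + 1 := by
  -- the projection
  let P : V × (M × (M × M)) →ₗ[K] M × M :=
    LinearMap.prod
      (LinearMap.fst K M M ∘ₗ LinearMap.snd K M (M × M) ∘ₗ LinearMap.snd K V (M × (M × M))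
        - LinearMap.fst K M (M × M) ∘ₗ LinearMap.snd K V (M × (M × M)))
      (LinearMap.snd K M M ∘ₗ LinearMap.snd K M (M × M) ∘ₗ LinearMap.snd K V (M × (M × M))
        - LinearMap.fst K M (M × M) ∘ₗ LinearMap.snd K V (M × (M × M)))
  have hP : ∀ p, P p = (p.2.2.1 - p.2.1, p.2.2.2 - p.2.1) := fun p => rfl
  let A : V × (M × (M × M)) →ₗ[K] K :=
    ev ∘ₗ LinearMap.fst K M (M × M) ∘ₗ LinearMap.snd K V (M × (M × M))
  have hA : ∀ p, A p = ev p.2.1 := fun p => rfl
  let Θ : LinearMap.ker Ψ →ₗ[K] (LinearMap.ker L) × K :=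
    LinearMap.prod
      (LinearMap.codRestrict (LinearMap.ker L) (P ∘ₗ (LinearMap.ker Ψ).subtype) (fun w => by
        rw [LinearMap.mem_ker]
        exact hrel w.1 (LinearMap.mem_ker.mp w.2)))
      (A ∘ₗ (LinearMap.ker Ψ).subtype)
  have hΘ : Function.Injective Θ := by
    rw [injective_iff_map_eq_zero]
    intro w hw
    have h1 : P w.1 = 0 := congrArg (fun x : (LinearMap.ker L) × K => (x.1 : M × M)) hw
    have h2 : A w.1 = 0 := congrArg (fun x : (LinearMap.ker L) × K => x.2) hw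
    rw [hP] at h1
    apply Subtype.ext
    exact hker w.1 (LinearMap.mem_ker.mp w.2) (congrArg Prod.fst h1) (congrArg Prod.snd h1) h2
  have c1 := LinearMap.finrank_le_finrank_of_injective hΘ
  have c2 : finrank K ((LinearMap.ker L) × K) = finrank K (LinearMap.ker L) + 1 := by
    rw [Module.finrank_prod, Module.finrank_self]
  have c3 := LinearMap.finrank_range_add_finrank_ker Ψ
  have c4 := LinearMap.finrank_range_add_finrank_ker L
  have c5 : finrank K (V × (M × (M × M))) = finrank K V + (finrank K M + (finrank K M + finrank K M)) := by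
    rw [Module.finrank_prod, Module.finrank_prod, Module.finrank_prod]
  have c6 : finrank K (M × M) = finrank K M + finrank K M := Module.finrank_prod
  have c7 : finrank K (R1 × (R2 × R3)) = finrank K R1 + (finrank K R2 + finrank K R3) := by
    rw [Module.finrank_prod, Module.finrank_prod]
  have c8 : finrank K (LinearMap.range Ψ) ≤ finrank K (R1 × (R2 × R3)) := Submodule.finrank_le _
  omega

/-- **The dimension count over `K`.** -/
theorem count_bound {S T : G} (hgen : Subgroup.closure {S, T} = ⊤) :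
    finrank K (vanHoms K Γ {S, S * T, T})
      + Nat.card (MulAction.orbitRel.Quotient (Subgroup.zpowers S) (G ⧸ Γ))
      + Nat.card (MulAction.orbitRel.Quotient (Subgroup.zpowers (S * T)) (G ⧸ Γ))
      + Nat.card (MulAction.orbitRel.Quotient (Subgroup.zpowers T) (G ⧸ Γ))
      ≤ Fintype.card (G ⧸ Γ) + 2 := by
  classical
  have hfin := finite_homK K Γ hgen
  have hS : S ∈ ({S, S * T, T} : Set G) := by simp
  have hU : S * T ∈ ({S, S * T, T} : Set G) := by simp
  have hT : T ∈ ({S, S * T, T} : Set G) := by simp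
  -- the map `Ψ`
  obtain ⟨Ψ, hΨ⟩ : ∃ Ψ : (vanHoms K Γ {S, S * T, T}) ×
        (((G ⧸ Γ) → K) × (((G ⧸ Γ) → K) × ((G ⧸ Γ) → K)))
      →ₗ[K] (LinearMap.range (RK K Γ S - 1)) ×
        ((LinearMap.range (RK K Γ (S * T) - 1)) × (LinearMap.range (RK K Γ T - 1))),
      ∀ p, Ψ p = 0 → evalK K Γ S (p.1.1, p.2.1) = 0 ∧ evalK K Γ (S * T) (p.1.1, p.2.2.1) = 0
        ∧ evalK K Γ T (p.1.1, p.2.2.2) = 0 := by
    let πφ : (vanHoms K Γ {S, S * T, T}) × (((G ⧸ Γ) → K) × (((G ⧸ Γ) → K) × ((G ⧸ Γ) → K)))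
        →ₗ[K] (Additive Γ →+ K) :=
      (vanHoms K Γ {S, S * T, T}).subtype ∘ₗ LinearMap.fst K _ _
    let πa : (vanHoms K Γ {S, S * T, T}) × (((G ⧸ Γ) → K) × (((G ⧸ Γ) → K) × ((G ⧸ Γ) → K)))
        →ₗ[K] ((G ⧸ Γ) → K) :=
      LinearMap.fst K _ _ ∘ₗ LinearMap.snd K _ _
    let πb : (vanHoms K Γ {S, S * T, T}) × (((G ⧸ Γ) → K) × (((G ⧸ Γ) → K) × ((G ⧸ Γ) → K)))
        →ₗ[K] ((G ⧸ Γ) → K) :=
      LinearMap.fst K _ _ ∘ₗ LinearMap.snd K _ _ ∘ₗ LinearMap.snd K _ _
    let πc : (vanHoms K Γ {S, S * T, T}) × (((G ⧸ Γ) → K) × (((G ⧸ Γ) → K) × ((G ⧸ Γ) → K)))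
        →ₗ[K] ((G ⧸ Γ) → K) :=
      LinearMap.snd K _ _ ∘ₗ LinearMap.snd K _ _ ∘ₗ LinearMap.snd K _ _
    refine ⟨LinearMap.prod
      (LinearMap.codRestrict _ (evalK K Γ S ∘ₗ LinearMap.prod πφ πa)
        (fun p => evalK_mem_range K Γ p.1.2 hS _))
      (LinearMap.prod
        (LinearMap.codRestrict _ (evalK K Γ (S * T) ∘ₗ LinearMap.prod πφ πb)
          (fun p => evalK_mem_range K Γ p.1.2 hU _))
        (LinearMap.codRestrict _ (evalK K Γ T ∘ₗ LinearMap.prod πφ πc)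
          (fun p => evalK_mem_range K Γ p.1.2 hT _))), ?_⟩
    intro p hp
    refine ⟨?_, ?_, ?_⟩
    · exact congrArg (fun x : (LinearMap.range (RK K Γ S - 1)) ×
        ((LinearMap.range (RK K Γ (S * T) - 1)) × (LinearMap.range (RK K Γ T - 1))) =>
          (x.1 : (G ⧸ Γ) → K)) hp
    · exact congrArg (fun x : (LinearMap.range (RK K Γ S - 1)) ×
        ((LinearMap.range (RK K Γ (S * T) - 1)) × (LinearMap.range (RK K Γ T - 1))) =>
          (x.2.1 : (G ⧸ Γ) → K)) hp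
    · exact congrArg (fun x : (LinearMap.range (RK K Γ S - 1)) ×
        ((LinearMap.range (RK K Γ (S * T) - 1)) × (LinearMap.range (RK K Γ T - 1))) =>
          (x.2.2 : (G ⧸ Γ) → K)) hp
  obtain ⟨L, hL⟩ : ∃ L : ((G ⧸ Γ) → K) × ((G ⧸ Γ) → K) →ₗ[K] ((G ⧸ Γ) → K),
      ∀ m, L m = (RK K Γ (S * T) - 1) m.1 - (RK K Γ T - 1) m.2 :=
    ⟨(RK K Γ (S * T) - 1) ∘ₗ LinearMap.fst K _ _ - (RK K Γ T - 1) ∘ₗ LinearMap.snd K _ _,
      fun m => rfl⟩
  have hrel : ∀ p, Ψ p = 0 → L (p.2.2.1 - p.2.1, p.2.2.2 - p.2.1) = 0 := by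
    intro p hp
    obtain ⟨h1, h2, h3⟩ := hΨ p hp
    rw [hL]
    have := rel_of_evalK_eq_zero K Γ p.1.1 p.2.1 p.2.2.1 p.2.2.2 h1 h2 h3
    show (RK K Γ (S * T) - 1) (p.2.2.1 - p.2.1) - (RK K Γ T - 1) (p.2.2.2 - p.2.1) = 0
    rw [this, sub_self]
  have hker : ∀ p, Ψ p = 0 → p.2.2.1 - p.2.1 = 0 → p.2.2.2 - p.2.1 = 0 →
      (LinearMap.proj (QuotientGroup.mk 1 : G ⧸ Γ) : ((G ⧸ Γ) → K) →ₗ[K] K) p.2.1 = 0 →
      p = 0 := by
    intro p hp hba hca h0
    obtain ⟨h1, h2, h3⟩ := hΨ p hp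
    rw [sub_eq_zero] at hba hca
    rw [hca] at h3
    obtain ⟨hφ, ha⟩ := eq_zero_of_evalK_eq_zero K Γ hgen p.1.1 p.2.1 h1 h3 h0
    have hφ' : p.1 = 0 := Subtype.ext hφ
    have hb' : p.2.2.1 = 0 := hba.trans ha
    have hc' : p.2.2.2 = 0 := hca.trans ha
    exact Prod.ext hφ' (Prod.ext ha (Prod.ext hb' hc'))
  have key := abstract_count (K := K) (V := vanHoms K Γ {S, S * T, T}) (M := (G ⧸ Γ) → K)
    (R1 := LinearMap.range (RK K Γ S - 1)) (R2 := LinearMap.range (RK K Γ (S * T) - 1))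
    (R3 := LinearMap.range (RK K Γ T - 1)) Ψ L
    (LinearMap.proj (QuotientGroup.mk 1 : G ⧸ Γ)) hrel hker
  -- ker sumK ≤ range L
  have h5 : LinearMap.ker (sumK K Γ) ≤ LinearMap.range L := by
    intro w hw
    have hsup := ker_sumK_le_sup K Γ (closure_ST_T hgen) hw
    obtain ⟨a, ⟨a', rfl⟩, b, ⟨b', rfl⟩, hab⟩ := Submodule.mem_sup.mp hsup
    refine ⟨(a', -b'), ?_⟩
    rw [hL]
    show (RK K Γ (S * T) - 1) a' - (RK K Γ T - 1) (-b') = w
    rw [map_neg, sub_neg_eq_add, hab]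
  -- bookkeeping
  have c0 := finrank_ker_sumK_ge K Γ
  have cS := finrank_range_RK_sub_one K Γ S
  have cU := finrank_range_RK_sub_one K Γ (S * T)
  have cT := finrank_range_RK_sub_one K Γ T
  have c3 : finrank K ((G ⧸ Γ) → K) = Fintype.card (G ⧸ Γ) := Module.finrank_fintype_fun_eq_card K
  have c12 : finrank K (LinearMap.ker (sumK K Γ)) ≤ finrank K (LinearMap.range L) :=
    Submodule.finrank_mono h5
  omega

end Count

end Fermat.Agent.Betti.H77
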