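import Mathlib
import Fermat.Prelude.Def_ModularCurve_PeriodHomPair
import Fermat.Prelude.Def_ModularCurve_GenusNumerics
import Fermat.Agent.S21.H75_PartE1a
import Fermat.Agent.S20.H19_Index
import Fermat.Agent.S20.H19_Fixed
import Fermat.Agent.S20.H38_CuspCount
import Fermat.Agent.S20
import Fermat.Agent.Betti.H77_CountK

/-!
# TORSLIFT, the count for `Γ₀(N)` (helper77)

For every field `K`, the space `killsPE K N` of homomorphisms `Γ₀(N) → K` which kill all elements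
of trace `0, ±1, ±2` has dimension at most `2 * dim S₂(Γ₀(N))` (`finrank_killsPE_le`); for
`K = ℤ/ℓ` this bounds the number of such homomorphisms by `ℓ ^ (2 * dim S₂(Γ₀(N)))`
(`card_killsPE_le`).
-/

set_option autoImplicit false
set_option linter.unusedSectionVars false

open ModularCurve ModularCurve.Period CongruenceSubgroup
open scoped MatrixGroups

namespace Fermat.Agent.Betti.H77

open Module

/-- homs `Γ₀(N) → K` killing all elements with `trace² ≤ 4` -/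
def killsPE (K : Type*) [Field K] (N : ℕ) : Submodule K (Additive (Gamma0 N) →+ K) where
  carrier := {χ | ∀ γ : Gamma0 N,
    ((γ : SL(2, ℤ)) : Matrix (Fin 2) (Fin 2) ℤ).trace ^ 2 ≤ 4 → χ (Additive.ofMul γ) = 0}
  zero_mem' := fun _ _ => rfl
  add_mem' := by
    intro φ ψ hφ hψ γ hγ
    show φ _ + ψ _ = 0
    rw [hφ γ hγ, hψ γ hγ, add_zero]
  smul_mem' := by
    intro c φ hφ γ hγ
    show c • φ _ = 0
    rw [hφ γ hγ, smul_zero]

lemma mem_killsPE {K : Type*} [Field K] {N : ℕ} {χ : Additive (Gamma0 N) →+ K} :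
    χ ∈ killsPE K N ↔ ∀ γ : Gamma0 N,
      ((γ : SL(2, ℤ)) : Matrix (Fin 2) (Fin 2) ℤ).trace ^ 2 ≤ 4 → χ (Additive.ofMul γ) = 0 :=
  Iff.rfl

/-- the trace is invariant under conjugation -/
lemma trace_conj (g x : SL(2, ℤ)) :
    ((g⁻¹ * (x * g) : SL(2, ℤ)) : Matrix (Fin 2) (Fin 2) ℤ).trace
      = (x : Matrix (Fin 2) (Fin 2) ℤ).trace := by
  have h1 : ((g⁻¹ * (x * g) : SL(2, ℤ)) : Matrix (Fin 2) (Fin 2) ℤ)
      = (g⁻¹ : SL(2, ℤ)).1 * ((x * g : SL(2, ℤ)) : Matrix (Fin 2) (Fin 2) ℤ) :=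
    Matrix.SpecialLinearGroup.coe_mul _ _
  rw [h1, Matrix.trace_mul_comm, ← Matrix.SpecialLinearGroup.coe_mul, mul_assoc,
    mul_inv_cancel, mul_one]

lemma S_pow_four : ModularGroup.S ^ 4 = (1 : SL(2, ℤ)) := by decide

lemma ST_pow_six : (ModularGroup.S * ModularGroup.T) ^ 6 = (1 : SL(2, ℤ)) := by decide

lemma trace_sq_S_pow (n : ℕ) :
    ((ModularGroup.S ^ n : SL(2, ℤ)) : Matrix (Fin 2) (Fin 2) ℤ).trace ^ 2 ≤ 4 := by
  rw [pow_eq_pow_mod n S_pow_four]
  have h : n % 4 < 4 := Nat.mod_lt _ (by norm_num)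
  interval_cases (n % 4) <;> decide

lemma trace_sq_ST_pow (n : ℕ) :
    (((ModularGroup.S * ModularGroup.T) ^ n : SL(2, ℤ)) : Matrix (Fin 2) (Fin 2) ℤ).trace ^ 2
      ≤ 4 := by
  rw [pow_eq_pow_mod n ST_pow_six]
  have h : n % 6 < 6 := Nat.mod_lt _ (by norm_num)
  interval_cases (n % 6) <;> decide

lemma trace_sq_T_pow (n : ℕ) :
    ((ModularGroup.T ^ n : SL(2, ℤ)) : Matrix (Fin 2) (Fin 2) ℤ).trace ^ 2 ≤ 4 := by
  have h2 := ModularGroup.coe_T_zpow (n : ℤ)
  rw [zpow_natCast] at h2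
  rw [show ((ModularGroup.T ^ n : SL(2, ℤ)) : Matrix (Fin 2) (Fin 2) ℤ)
      = (ModularGroup.T ^ n).1 from rfl, h2, Matrix.trace_fin_two_of]
  norm_num

/-- conjugates of powers of `S`, `S * T`, `T` have `trace² ≤ 4` -/
lemma trace_sq_conj_le {x : SL(2, ℤ)}
    (hx : x ∈ ({ModularGroup.S, ModularGroup.S * ModularGroup.T, ModularGroup.T} : Set SL(2, ℤ)))
    (g : SL(2, ℤ)) (n : ℕ) :
    ((g⁻¹ * (x ^ n * g) : SL(2, ℤ)) : Matrix (Fin 2) (Fin 2) ℤ).trace ^ 2 ≤ 4 := by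
  rw [trace_conj]
  rcases hx with rfl | rfl | hx
  · exact trace_sq_S_pow n
  · exact trace_sq_ST_pow n
  · rw [Set.mem_singleton_iff] at hx
    rw [hx]
    exact trace_sq_T_pow n

lemma killsPE_le_vanHoms (K : Type*) [Field K] (N : ℕ) :
    killsPE K N ≤ vanHoms K (Gamma0 N)
      {ModularGroup.S, ModularGroup.S * ModularGroup.T, ModularGroup.T} := by
  intro χ hχ x hx g n h
  exact hχ ⟨_, h⟩ (trace_sq_conj_le hx g n)

/-- **The count for `Γ₀(N)`**, first form. -/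
theorem finrank_killsPE_bound (K : Type*) [Field K] (N : ℕ) [NeZero N] :
    Module.Finite K (killsPE K N) ∧
      6 * Module.finrank K (killsPE K N)
        + 3 * Nat.card {q : SL(2, ℤ) ⧸ Gamma0 N // ModularGroup.S • q = q}
        + 4 * Nat.card {q : SL(2, ℤ) ⧸ Gamma0 N // (ModularGroup.S * ModularGroup.T) • q = q}
        + 6 * Nat.card (MulAction.orbitRel.Quotient (Subgroup.zpowers ModularGroup.T)
            (SL(2, ℤ) ⧸ Gamma0 N))
        ≤ (Gamma0 N).index + 12 := by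
  classical
  let _ := Fintype.ofFinite (SL(2, ℤ) ⧸ Gamma0 N)
  obtain ⟨M, H⟩ := Fermat.Agent.S21.H75.hyp_Gamma0 N
  have hfin := finite_homK K (Gamma0 N) H.gen
  refine ⟨inferInstance, ?_⟩
  have hb := count_bound K (Gamma0 N) H.gen
  have hmono : finrank K (killsPE K N)
      ≤ finrank K (vanHoms K (Gamma0 N)
        {ModularGroup.S, ModularGroup.S * ModularGroup.T, ModularGroup.T}) :=
    Submodule.finrank_mono (killsPE_le_vanHoms K N)
  rw [← Fermat.Agent.S21.H75.finrank_ker_R_sub_one (Gamma0 N) ModularGroup.S,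
    ← Fermat.Agent.S21.H75.finrank_ker_R_sub_one (Gamma0 N) (ModularGroup.S * ModularGroup.T)]
    at hb
  have hS := Fermat.Agent.S21.H75.mul_finrank_ker_R_sub_one (Gamma0 N) ModularGroup.S (M := 2)
    (by norm_num) H.R_S_sq
  have hU := Fermat.Agent.S21.H75.mul_finrank_ker_R_sub_one (Gamma0 N)
    (ModularGroup.S * ModularGroup.T) (M := 3) (by norm_num) H.R_U_cube
  have hidx : (Gamma0 N).index = Fintype.card (SL(2, ℤ) ⧸ Gamma0 N) := by
    rw [Subgroup.index_eq_card, Nat.card_eq_fintype_card]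
  have hall : ∀ g : SL(2, ℤ), (∀ q : SL(2, ℤ) ⧸ Gamma0 N, g • q = q) →
      Nat.card {q : SL(2, ℤ) ⧸ Gamma0 N // g • q = q}
        = Fintype.card (SL(2, ℤ) ⧸ Gamma0 N) := by
    intro g hg
    rw [← Nat.card_eq_fintype_card]
    exact Nat.card_congr (Equiv.subtypeUnivEquiv hg)
  have h0S : Nat.card {q : SL(2, ℤ) ⧸ Gamma0 N // (ModularGroup.S ^ 0) • q = q}
      = Fintype.card (SL(2, ℤ) ⧸ Gamma0 N) := hall _ (by simp)
  have h0U : Nat.card {q : SL(2, ℤ) ⧸ Gamma0 N //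
      ((ModularGroup.S * ModularGroup.T) ^ 0) • q = q}
      = Fintype.card (SL(2, ℤ) ⧸ Gamma0 N) := hall _ (by simp)
  have h1S : Nat.card {q : SL(2, ℤ) ⧸ Gamma0 N // (ModularGroup.S ^ 1) • q = q}
      = Nat.card {q : SL(2, ℤ) ⧸ Gamma0 N // ModularGroup.S • q = q} := by
    rw [pow_one]
  have h1U : Nat.card {q : SL(2, ℤ) ⧸ Gamma0 N //
      ((ModularGroup.S * ModularGroup.T) ^ 1) • q = q}
      = Nat.card {q : SL(2, ℤ) ⧸ Gamma0 N // (ModularGroup.S * ModularGroup.T) • q = q} := by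
    rw [pow_one]
  have h2U : Nat.card {q : SL(2, ℤ) ⧸ Gamma0 N //
      ((ModularGroup.S * ModularGroup.T) ^ 2) • q = q}
      = Nat.card {q : SL(2, ℤ) ⧸ Gamma0 N // (ModularGroup.S * ModularGroup.T) • q = q} := by
    apply Nat.card_congr
    apply Equiv.subtypeEquivRight
    intro q
    constructor
    · intro h
      have h3 : ((ModularGroup.S * ModularGroup.T) ^ 3) • q = q := by
        rw [H.hU]; exact H.smul_z q
      rw [pow_succ', mul_smul, h] at h3
      exact h3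
    · intro h
      rw [pow_two, mul_smul, h, h]
  rw [Finset.sum_range_succ, Finset.sum_range_one, h0S, h1S] at hS
  rw [Finset.sum_range_succ, Finset.sum_range_succ, Finset.sum_range_one, h0U, h1U, h2U] at hU
  omega

/-- **The count for `Γ₀(N)`**: `dim_K ≤ 2 * dim S₂(Γ₀(N))`, for every field `K`. -/
theorem finrank_killsPE_le (K : Type*) [Field K] (N : ℕ) [NeZero N] :
    Module.finrank K (killsPE K N) ≤ 2 * Module.finrank ℂ (CuspForm (Gamma0 N) 2) := by
  obtain ⟨-, h2⟩ := finrank_killsPE_bound K N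
  rw [Fermat.Agent.S20.H19.G1, Fermat.Agent.S20.H19.G2, Fermat.Agent.S20.H19.G3,
    Fermat.Agent.S20.H38.G4] at h2
  have h3 : ((6 * Module.finrank K (killsPE K N) + 3 * nuTwo N + 4 * nuThree N
      + 6 * cuspCount N : ℕ) : ℚ) ≤ ((dedekindPsi N + 12 : ℕ) : ℚ) := by exact_mod_cast h2
  push_cast at h3
  have h4 := Fermat.Agent.S20.result N
  unfold genusFormula at h4
  have h5 : (Module.finrank K (killsPE K N) : ℚ)
      ≤ ((2 * Module.finrank ℂ (CuspForm (Gamma0 N) 2) : ℕ) : ℚ) := by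
    push_cast
    linarith
  exact_mod_cast h5

/-- **The count for `Γ₀(N)`** over `ℤ/ℓ`, cardinality form. -/
theorem card_killsPE_le (N : ℕ) [NeZero N] (l : ℕ) [Fact l.Prime] :
    Nat.card {χ : Additive (Gamma0 N) →+ ZMod l //
        ∀ γ : Gamma0 N, ((γ : SL(2, ℤ)) : Matrix (Fin 2) (Fin 2) ℤ).trace ^ 2 ≤ 4 →
          χ (Additive.ofMul γ) = 0}
      ≤ l ^ (2 * Module.finrank ℂ (CuspForm (Gamma0 N) 2)) := by
  have hfin := (finrank_killsPE_bound (ZMod l) N).1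
  have h1 : Nat.card (killsPE (ZMod l) N) = l ^ Module.finrank (ZMod l) (killsPE (ZMod l) N) := by
    rw [Module.natCard_eq_pow_finrank (K := ZMod l), Nat.card_zmod]
  have h2 : Nat.card {χ : Additive (Gamma0 N) →+ ZMod l //
        ∀ γ : Gamma0 N, ((γ : SL(2, ℤ)) : Matrix (Fin 2) (Fin 2) ℤ).trace ^ 2 ≤ 4 →
          χ (Additive.ofMul γ) = 0} = Nat.card (killsPE (ZMod l) N) := rfl
  rw [h2, h1]
  exact Nat.pow_le_pow_right (Fact.out : l.Prime).pos (finrank_killsPE_le (ZMod l) N)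

end Fermat.Agent.Betti.H77
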