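import Mathlib
import Fermat.Agent.Betti.Stmts

/-!
# Betti–Hecke: assembly of the eigenvector statement

`eigen_of : Stmt_basis → Stmt_matrixRep → Stmt_algEig → Stmt_eigen`.
-/

set_option autoImplicit false

namespace Fermat.Agent.Betti

open CongruenceSubgroup ModularCurve ModularCurve.Period
open scoped MatrixGroups

section

variable {N : ℕ} {K : Type} [Field K]

/-- Change of coefficients `ℤ → K`. -/
noncomputable def castHom (K : Type) [Field K] (β : Additive (Gamma0 N) →+ ℤ) :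
    Additive (Gamma0 N) →+ K := (Int.castAddHom K).comp β

@[simp] theorem castHom_apply (β : Additive (Gamma0 N) →+ ℤ) (γ : Additive (Gamma0 N)) :
    castHom K β γ = ((β γ : ℤ) : K) := rfl

theorem TB_castHom {p : ℕ} (hp : p.Prime) (hpN : ¬ p ∣ N) (β : Additive (Gamma0 N) →+ ℤ) :
    TB N K hp hpN (castHom K β) = castHom K (TB N ℤ hp hpN β) := by
  have : Fact p.Prime := ⟨hp⟩
  exact (isHeckeFamily_T N hpN).heckeOp_comp (incl_injective N) (Int.castAddHom K) β

theorem UB_castHom [NeZero N] {p : ℕ} (hpN : p ∣ N) (β : Additive (Gamma0 N) →+ ℤ) :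
    UB N K hpN (castHom K β) = castHom K (UB N ℤ hpN β) := by
  have : NeZero p := neZero_of_dvd hpN
  exact (isHeckeFamily_U N hpN).heckeOp_comp (incl_injective N) (Int.castAddHom K) β

theorem TB_smul {p : ℕ} (hp : p.Prime) (hpN : ¬ p ∣ N) (c : K) (φ : Additive (Gamma0 N) →+ K) :
    TB N K hp hpN (c • φ) = c • TB N K hp hpN φ := by
  have : Fact p.Prime := ⟨hp⟩
  exact ((isHeckeFamily_T N hpN).heckeOpLin (incl_injective N) K).map_smul c φ

theorem UB_smul [NeZero N] {p : ℕ} (hpN : p ∣ N) (c : K) (φ : Additive (Gamma0 N) →+ K) :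
    UB N K hpN (c • φ) = c • UB N K hpN φ := by
  have : NeZero p := neZero_of_dvd hpN
  exact ((isHeckeFamily_U N hpN).heckeOpLin (incl_injective N) K).map_smul c φ

theorem castHom_sum_smul {r : ℕ} (b : Fin r → (Additive (Gamma0 N) →+ ℤ)) (m : Fin r → ℤ) :
    castHom K (∑ i, m i • b i) = ∑ i, (m i : K) • castHom K (b i) := by
  refine AddMonoidHom.ext fun γ => ?_
  simp [castHom]

/-- Abstract form of the computation: if an additive operator `T` on `Hom(Γ, K)` which is
`K`-linear acts on the `castHom (b j)` by the integer matrix `m` and `v` is an eigenvector of `m`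
with eigenvalue `c`, then `∑ j, v j • castHom (b j)` is an eigenvector of `T`. -/
theorem eigen_of_matrix {r : ℕ} (b : Fin r → (Additive (Gamma0 N) →+ ℤ))
    (T : (Additive (Gamma0 N) →+ K) →+ (Additive (Gamma0 N) →+ K))
    (hT : ∀ (c : K) φ, T (c • φ) = c • T φ)
    (m : Matrix (Fin r) (Fin r) ℤ)
    (hm : ∀ j, T (castHom K (b j)) = ∑ i, (m i j : K) • castHom K (b i))
    (v : Fin r → K) (c : K) (hv : (m.map (Int.cast : ℤ → K)).mulVec v = c • v) :
    T (∑ j, v j • castHom K (b j)) = c • ∑ j, v j • castHom K (b j) := by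
  rw [map_sum]
  simp only [hT, hm, Finset.smul_sum, smul_smul]
  rw [Finset.sum_comm]
  refine Finset.sum_congr rfl fun i _ => ?_
  rw [← Finset.sum_smul]
  congr 1
  have := congrFun hv i
  simp only [Matrix.mulVec, dotProduct, Matrix.map_apply, Pi.smul_apply, smul_eq_mul] at this
  rw [← this]
  exact Finset.sum_congr rfl fun j _ => mul_comm _ _

end

/-- **B4-eig** from B1, B4-a and ALG-EIG. -/
theorem eigen_of (h1 : Stmt_basis) (h2 : Stmt_matrixRep) (h3 : Stmt_algEig) : Stmt_eigen := by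
  intro N _ S K _ _ χ
  obtain ⟨r, b, hb⟩ := h1 N
  obtain ⟨M, hMinj, hMT, hMU⟩ := h2 N S r b hb
  obtain ⟨v, hv0, hv⟩ := h3 _ r M hMinj K χ
  have hsum : ∀ γ, (∑ j, v j • castHom K (b j)) γ = ∑ i, b i γ • v i := by
    intro γ
    simp only [AddMonoidHom.finsetSum_apply, AddMonoidHom.smul_apply, castHom_apply,
      smul_eq_mul, zsmul_eq_mul]
    exact Finset.sum_congr rfl fun i _ => mul_comm _ _
  have hpar : ∀ β : Additive (Gamma0 N) →+ ℤ, IsParabolicHom (Gamma0 N) β →
      IsParabolicHom (Gamma0 N) (castHom K β) := by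
    intro β hβ γ hγ
    show ((β (Additive.ofMul γ) : ℤ) : K) = 0
    rw [hβ γ hγ, Int.cast_zero]
  refine ⟨∑ j, v j • castHom K (b j), ?_, ?_, ?_, ?_⟩
  · intro h0
    apply hv0
    have hzero : IsParabolicHom (Gamma0 N) (0 : Additive (Gamma0 N) →+ K) := fun _ _ => rfl
    obtain ⟨a, -, hauniq⟩ := hb.2 K (0 : Additive (Gamma0 N) →+ K) hzero
    have e1 : v = a := hauniq v (fun γ => by rw [← hsum, h0])
    have e2 : (0 : Fin r → K) = a := hauniq 0 (fun γ => by simp)
    rw [e1, ← e2]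
  · exact (parabolicHoms K (Gamma0 N) K).sum_mem fun j _ =>
      (parabolicHoms K (Gamma0 N) K).smul_mem _ (hpar _ (hb.1 j))
  · intro ℓ hℓ hℓN hℓS
    refine eigen_of_matrix b (TB N K hℓ hℓN) (TB_smul hℓ hℓN) (M (CuspForm.heckeAlgebra.T hℓ hℓN hℓS))
      (fun j => ?_) v _ (hv _)
    rw [TB_castHom, hMT ℓ hℓ hℓN hℓS j, castHom_sum_smul]
  · intro q hq hqN hqS
    refine eigen_of_matrix b (UB N K hqN) (UB_smul hqN) (M (CuspForm.heckeAlgebra.U hq hqN hqS))
      (fun j => ?_) v _ (hv _)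
    rw [UB_castHom, hMU q hq hqN hqS j, castHom_sum_smul]

end Fermat.Agent.Betti
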