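import Mathlib
import Fermat.Agent.Betti.Stmts

/-!
# Betti-Hecke, package ALG-EIG: common eigenvectors for characters of rings of integer matrices

`stmt_algEig : Stmt_algEig`: if `M : R →+* M_r(ℤ)` is an injective ring homomorphism from a
commutative ring and `χ : R →+* K` is a character with values in a field of characteristic zero,
then there is `v ≠ 0` in `K^r` with `M(t) v = χ(t) v` for all `t`.

Proof.  Let `B = K ⊗_ℤ R`, acting on `V = K^r` through the TRANSPOSED matrices
`Φ : B → M_r(K)`, `c ⊗ t ↦ c • M(t)ᵀ`; `Φ` is injective because `K` is flat over `ℤ`.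
Let `I = ker (χ_B : B → K)`.  If `I V = V`, Nakayama's lemma gives `b ∈ 1 + I` killing `V`, so
`b = 0` and `1 ∈ I`, which is absurd.  Hence there is a nonzero `K`-linear form `f` on `V`
vanishing on `I V`, i.e. `f (M(t)ᵀ x) = χ(t) f(x)`; the vector `v = (f(e_i))_i` is the
eigenvector.
-/

set_option autoImplicit false

open TensorProduct

namespace Fermat.Agent.Betti.H76

section

variable {R : Type} [CommRing R] {r : ℕ} (M : R →+* Matrix (Fin r) (Fin r) ℤ)

/-- The transposed representation. -/
def transposeHom : R →+* Matrix (Fin r) (Fin r) ℤ where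
  toFun t := (M t).transpose
  map_one' := by rw [map_one, Matrix.transpose_one]
  map_mul' s t := by rw [mul_comm s t, map_mul, Matrix.transpose_mul]
  map_zero' := by rw [map_zero, Matrix.transpose_zero]
  map_add' s t := by rw [map_add, Matrix.transpose_add]

@[simp] theorem transposeHom_apply (t : R) : transposeHom M t = (M t).transpose := rfl

theorem transposeHom_injective (hM : Function.Injective M) :
    Function.Injective (transposeHom M) := fun _ _ h =>
  hM (Matrix.transpose_injective h)

variable (K : Type) [Field K] [CharZero K]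

/-- `K ⊗ R → M_r(K)`, `c ⊗ t ↦ c • M(t)`. -/
noncomputable def tensorRep : (K ⊗[ℤ] R) →+* Matrix (Fin r) (Fin r) K :=
  ((matrixEquivTensor (Fin r) ℤ K).symm.toAlgHom.toRingHom).comp
    (Algebra.TensorProduct.map (AlgHom.id K K) M.toIntAlgHom).toRingHom

omit [CharZero K] in
theorem tensorRep_tmul (c : K) (t : R) :
    tensorRep M K (c ⊗ₜ[ℤ] t) = c • (M t).map (Int.cast : ℤ → K) := by
  unfold tensorRep
  simp only [RingHom.coe_comp, Function.comp_apply, AlgHom.toRingHom_eq_coe, RingHom.coe_coe,
    Algebra.TensorProduct.map_tmul, AlgHom.coe_id, id_eq]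
  exact matrixEquivTensor_apply_symm (Fin r) ℤ K c (M t)

theorem tensorRep_injective (hM : Function.Injective M) :
    Function.Injective (tensorRep M K) := by
  unfold tensorRep
  rw [RingHom.coe_comp]
  refine Function.Injective.comp ?_ ?_
  · exact (matrixEquivTensor (Fin r) ℤ K).symm.injective
  · have h := Module.Flat.lTensor_preserves_injective_linearMap (M := K)
      (M.toIntAlgHom.toLinearMap) hM
    exact h

variable {K}

/-- The character `K ⊗ R → K`, `c ⊗ t ↦ c χ(t)`. -/
noncomputable def tensorChar (χ : R →+* K) : (K ⊗[ℤ] R) →ₐ[K] K :=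
  Algebra.TensorProduct.lift (AlgHom.id K K) χ.toIntAlgHom (fun _ _ => Commute.all _ _)

omit [CharZero K] in
theorem tensorChar_tmul (χ : R →+* K) (c : K) (t : R) :
    tensorChar χ (c ⊗ₜ[ℤ] t) = c * χ t := by
  unfold tensorChar
  rw [Algebra.TensorProduct.lift_tmul]
  rfl

end

/-- A linear form on `K^r` with `f (Aᵀ x) = c f(x)` gives an eigenvector of `A`. -/
theorem eigenvector_of_form {K : Type} [Field K] {r : ℕ} (f : (Fin r → K) →ₗ[K] K) (hf : f ≠ 0) :
    ∃ v : Fin r → K, v ≠ 0 ∧ ∀ (A : Matrix (Fin r) (Fin r) K) (c : K),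
      (∀ x, f (A.transpose.mulVec x) = c * f x) → A.mulVec v = c • v := by
  classical
  let v : Fin r → K := fun i => f (Pi.single i 1)
  have hfv : ∀ x : Fin r → K, f x = v ⬝ᵥ x := by
    intro x
    have hx : x = ∑ i, x i • (Pi.single i (1 : K) : Fin r → K) := by
      funext j
      simp [Finset.sum_apply, Pi.single_apply]
    conv_lhs => rw [hx]
    rw [map_sum]
    simp only [map_smul, smul_eq_mul, dotProduct, v]
    exact Finset.sum_congr rfl fun i _ => mul_comm _ _
  refine ⟨v, ?_, ?_⟩
  · intro hv
    apply hf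
    ext i
    have := hfv (Pi.single i 1)
    rw [hv, zero_dotProduct] at this
    simpa using this
  · intro A c h
    have key : ∀ x : Fin r → K, (A.mulVec v - c • v) ⬝ᵥ x = 0 := by
      intro x
      have h1 := h x
      rw [hfv, hfv, Matrix.dotProduct_mulVec, Matrix.vecMul_transpose] at h1
      rw [sub_dotProduct, smul_dotProduct, h1, smul_eq_mul, sub_self]
    have hz : A.mulVec v - c • v = 0 := by
      funext i
      have := key (Pi.single i 1)
      simpa using this
    exact sub_eq_zero.mp hz

/-- Nakayama: a finitely generated faithful module over a commutative `K`-algebra `B` has, for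
every character `χB : B → K`, a nonzero `K`-linear form which is a `χB`-eigenvector of the
transposed action. -/
theorem exists_form_of_faithful {K B V : Type*} [Field K] [CommRing B] [Algebra K B]
    [AddCommGroup V] [Module K V] [Module B V]
    (hK : ∀ (c : K) (x : V), (algebraMap K B c) • x = c • x)
    (hfg : (⊤ : Submodule B V).FG)
    (hfaith : ∀ b : B, (∀ x : V, b • x = 0) → b = 0)
    (χB : B →ₐ[K] K) :
    ∃ f : V →ₗ[K] K, f ≠ 0 ∧ ∀ (b : B) (x : V), f (b • x) = χB b * f x := by
  classical
  let I : Ideal B := RingHom.ker χB.toRingHom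
  have hne : ¬ (⊤ : Submodule B V) ≤ I • (⊤ : Submodule B V) := by
    intro hle
    obtain ⟨b, hb1, hb2⟩ :=
      Submodule.exists_sub_one_mem_and_smul_eq_zero_of_fg_of_le_smul I ⊤ hfg hle
    have hb0 : b = 0 := hfaith b (fun x => hb2 x trivial)
    rw [hb0, zero_sub] at hb1
    have h1 : χB (-1) = 0 := hb1
    rw [map_neg, map_one, neg_eq_zero] at h1
    exact one_ne_zero h1
  let W : Submodule K V :=
    { carrier := ((I • (⊤ : Submodule B V) : Submodule B V) : Set V)
      add_mem' := fun ha hb => Submodule.add_mem _ ha hb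
      zero_mem' := Submodule.zero_mem _
      smul_mem' := fun c x hx => by
        have := Submodule.smul_mem (I • (⊤ : Submodule B V)) (algebraMap K B c) hx
        rwa [hK] at this }
  have hW : W < ⊤ := by
    rw [lt_top_iff_ne_top]
    intro hWtop
    apply hne
    intro x _
    have : x ∈ W := by rw [hWtop]; trivial
    exact this
  obtain ⟨f, hf0, hfW⟩ := Submodule.exists_le_ker_of_lt_top W hW
  refine ⟨f, hf0, fun b x => ?_⟩
  have hmemI : b - algebraMap K B (χB b) ∈ I := by
    rw [RingHom.mem_ker]
    show χB (b - algebraMap K B (χB b)) = 0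
    rw [map_sub, AlgHom.commutes, Algebra.algebraMap_self, RingHom.id_apply, sub_self]
  have hmemW : (b - algebraMap K B (χB b)) • x ∈ W := by
    show (b - algebraMap K B (χB b)) • x ∈ (I • (⊤ : Submodule B V) : Submodule B V)
    exact Submodule.smul_mem_smul hmemI trivial
  have h0 : f ((b - algebraMap K B (χB b)) • x) = 0 := hfW hmemW
  have e : f (χB b • x) = χB b * f x := by rw [LinearMap.map_smul, smul_eq_mul]
  rw [sub_smul, hK, map_sub, e, sub_eq_zero] at h0
  exact h0

section RepSpace

variable {R : Type} [CommRing R] {r : ℕ} (M : R →+* Matrix (Fin r) (Fin r) ℤ)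
variable (K : Type) [Field K] [CharZero K]

/-- The space `K^r` with the action of `K ⊗ R` through `M`. -/
def RepSpace (_M : R →+* Matrix (Fin r) (Fin r) ℤ) (K : Type) : Type := Fin r → K

noncomputable instance : AddCommGroup (RepSpace M K) :=
  inferInstanceAs (AddCommGroup (Fin r → K))

noncomputable instance : Module K (RepSpace M K) :=
  inferInstanceAs (Module K (Fin r → K))

/-- The identification `RepSpace M K = K^r`. -/
noncomputable def RepSpace.equiv : RepSpace M K ≃ₗ[K] (Fin r → K) := LinearEquiv.refl K _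

/-- The action as a ring homomorphism to endomorphisms. -/
noncomputable def repEnd : (K ⊗[ℤ] R) →+* Module.End K (RepSpace M K) :=
  ((Matrix.toLinAlgEquiv' (R := K) (n := Fin r)).toAlgHom.toRingHom).comp (tensorRep M K)

noncomputable instance : Module (K ⊗[ℤ] R) (RepSpace M K) := Module.compHom _ (repEnd M K)

theorem RepSpace.smul_def (b : K ⊗[ℤ] R) (x : RepSpace M K) :
    RepSpace.equiv M K (b • x) = (tensorRep M K b).mulVec (RepSpace.equiv M K x) := rfl

theorem RepSpace.algebraMap_smul (c : K) (x : RepSpace M K) :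
    (algebraMap K (K ⊗[ℤ] R) c) • x = c • x := by
  apply (RepSpace.equiv M K).injective
  rw [RepSpace.smul_def, Algebra.TensorProduct.algebraMap_apply, Algebra.algebraMap_self,
    RingHom.id_apply, tensorRep_tmul, map_one, Matrix.map_one _ Int.cast_zero Int.cast_one,
    Matrix.smul_mulVec, Matrix.one_mulVec, map_smul]

theorem RepSpace.fg : (⊤ : Submodule (K ⊗[ℤ] R) (RepSpace M K)).FG := by
  classical
  refine ⟨Finset.univ.image
    (fun i : Fin r => (RepSpace.equiv M K).symm (Pi.single i (1 : K))), ?_⟩
  rw [eq_top_iff]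
  rintro x -
  have hx : x = ∑ i, (algebraMap K (K ⊗[ℤ] R) (RepSpace.equiv M K x i)) •
      (RepSpace.equiv M K).symm (Pi.single i (1 : K)) := by
    simp only [RepSpace.algebraMap_smul]
    apply (RepSpace.equiv M K).injective
    rw [map_sum]
    simp only [map_smul, LinearEquiv.apply_symm_apply]
    funext j
    simp [Finset.sum_apply, Pi.single_apply]
  rw [hx]
  refine Submodule.sum_mem _ fun i _ => Submodule.smul_mem _ _ (Submodule.subset_span ?_)
  simp

theorem RepSpace.faithful (hM : Function.Injective M) (b : K ⊗[ℤ] R)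
    (hb : ∀ x : RepSpace M K, b • x = 0) : b = 0 := by
  apply tensorRep_injective M K hM
  rw [map_zero]
  apply (Matrix.toLinAlgEquiv' (R := K) (n := Fin r)).injective
  rw [map_zero]
  refine LinearMap.ext fun x => ?_
  have := hb ((RepSpace.equiv M K).symm x)
  have h2 := congrArg (RepSpace.equiv M K) this
  rw [RepSpace.smul_def, LinearEquiv.apply_symm_apply, map_zero] at h2
  rw [Matrix.toLinAlgEquiv'_apply, h2]
  rfl

end RepSpace

/-- **ALG-EIG**. -/
theorem stmt_algEig : Betti.Stmt_algEig := by
  intro R _ r M hM K _ _ χ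
  classical
  let Mt := transposeHom M
  have hMt : Function.Injective Mt := transposeHom_injective M hM
  obtain ⟨f, hf0, hf⟩ := exists_form_of_faithful (K := K) (B := K ⊗[ℤ] R) (V := RepSpace Mt K)
    (RepSpace.algebraMap_smul Mt K) (RepSpace.fg Mt K) (RepSpace.faithful Mt K hMt)
    (tensorChar χ)
  let f' : (Fin r → K) →ₗ[K] K := f.comp (RepSpace.equiv Mt K).symm.toLinearMap
  have hf'0 : f' ≠ 0 := by
    intro h
    apply hf0
    refine LinearMap.ext fun x => ?_
    have := congrArg (fun g : (Fin r → K) →ₗ[K] K => g (RepSpace.equiv Mt K x)) h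
    simpa [f'] using this
  obtain ⟨v, hv0, hv⟩ := eigenvector_of_form f' hf'0
  refine ⟨v, hv0, fun t => hv _ _ (fun x => ?_)⟩
  have h1 := hf ((1 : K) ⊗ₜ[ℤ] t) ((RepSpace.equiv Mt K).symm x)
  rw [tensorChar_tmul, one_mul] at h1
  have h2 : ((1 : K) ⊗ₜ[ℤ] t : K ⊗[ℤ] R) • (RepSpace.equiv Mt K).symm x
      = (RepSpace.equiv Mt K).symm
          ((((M t).map (Int.cast : ℤ → K)).transpose).mulVec x) := by
    apply (RepSpace.equiv Mt K).injective
    rw [RepSpace.smul_def, LinearEquiv.apply_symm_apply, LinearEquiv.apply_symm_apply,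
      tensorRep_tmul, one_smul]
    rfl
  rw [h2] at h1
  exact h1

end Fermat.Agent.Betti.H76
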