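import Mathlib
import Fermat.Agent.Betti.Eigen
import Fermat.Agent.Betti.Basis
import Fermat.Agent.Betti.H76_MatrixRep
import Fermat.Agent.Betti.H76_AlgEig

/-!
# Betti–Hecke: every Hecke character occurs in `Hom_par(Γ₀(N), K)`

`stmt_eigen : Stmt_eigen` (B4-eig), from `stmt_basis` (helper20), `H76.stmt_matrixRep` and
`H76.stmt_algEig` (helper76), Eichler–Shimura S21 and the dimension formula S20.
-/

set_option autoImplicit false

namespace Fermat.Agent.Betti

/-- **B4-eig**: every character `χ : heckeAlgebra N 2 S → K` (`K` a field of characteristic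
zero) has a nonzero parabolic eigenvector `φ : Γ₀(N) → K`. -/
theorem stmt_eigen : Stmt_eigen :=
  eigen_of stmt_basis H76.stmt_matrixRep H76.stmt_algEig

end Fermat.Agent.Betti
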