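import Mathlib.RingTheory.Support
import Mathlib.RingTheory.LocalRing.Module
import Mathlib.RingTheory.LocalRing.ResidueField.Ideal
import Mathlib.LinearAlgebra.Dual.Lemmas
import Mathlib.LinearAlgebra.Matrix.ToLin
import Mathlib.Data.Matrix.Basic

/-!
# BETTI-HECKE, package ALG-EIG (helper21): common eigenvectors of a faithful commutative ring of
integer matrices

`exists_eigenvector` : for a commutative ring `R`, an injective ring homomorphism
`M : R →+* Matrix (Fin r) (Fin r) ℤ` and a ring homomorphism `χ : R →+* K` into a field, there is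
`v ≠ 0` in `K^r` with `M(t) v = χ(t) v` for all `t`.  (No hypothesis on the characteristic.)

Proof: `V = ℤ^r` with `R` acting through the transposed matrices is a finite faithful `R`-module,
so its support is all of `Spec R`; hence `κ(𝔭) ⊗ V ≠ 0` for `𝔭 = ker χ` (Nakayama), a nonzero
functional on it composed with `κ(𝔭) → K` is a nonzero additive map `lam : V → K` with
`lam (t • w) = χ t * lam w`, and `v k = lam (e_k)` is the eigenvector.
-/

set_option autoImplicit false

noncomputable section

namespace Fermat.Agent.Betti.H21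

open Matrix TensorProduct

variable {R : Type*} [CommRing R] {r : ℕ}

/-- The transposed action as a ring homomorphism into the endomorphisms of `ℤ^r`. -/
def transAction (M : R →+* Matrix (Fin r) (Fin r) ℤ) : R →+* Module.End ℤ (Fin r → ℤ) where
  toFun t := Matrix.toLin' (M t)ᵀ
  map_one' := by simp; rfl
  map_mul' s t := by
    rw [mul_comm s t, map_mul, Matrix.transpose_mul, Matrix.toLin'_mul]
    rfl
  map_zero' := by simp
  map_add' s t := by simp [Matrix.transpose_add]

/-- `ℤ^r` with `R` acting through the transposed matrices. -/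
def TV (_M : R →+* Matrix (Fin r) (Fin r) ℤ) : Type := Fin r → ℤ

instance (M : R →+* Matrix (Fin r) (Fin r) ℤ) : AddCommGroup (TV M) :=
  inferInstanceAs (AddCommGroup (Fin r → ℤ))

instance (M : R →+* Matrix (Fin r) (Fin r) ℤ) : Module R (TV M) :=
  Module.compHom (Fin r → ℤ) (transAction M)

theorem TV_smul_def (M : R →+* Matrix (Fin r) (Fin r) ℤ) (t : R) (w : TV M) :
    t • w = ((M t)ᵀ *ᵥ (w : Fin r → ℤ) : Fin r → ℤ) := rfl

variable (M : R →+* Matrix (Fin r) (Fin r) ℤ)

/-- The identity, as an additive equivalence. -/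
def TV.equiv : TV M ≃+ (Fin r → ℤ) := AddEquiv.refl _

theorem TV.equiv_smul (t : R) (w : TV M) :
    TV.equiv M (t • w) = (M t)ᵀ *ᵥ TV.equiv M w := rfl

/-- The standard basis vectors of `TV M`. -/
def stdVec (k : Fin r) : TV M := (TV.equiv M).symm (Pi.single k (1 : ℤ))

theorem TV_eq_sum (w : TV M) : w = ∑ k, (TV.equiv M w k) • stdVec M k := by
  apply (TV.equiv M).injective
  rw [map_sum]
  simp only [map_zsmul, stdVec, AddEquiv.apply_symm_apply]
  funext j
  simp [Pi.single_apply]

instance : Module.Finite R (TV M) := by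
  classical
  refine ⟨⟨Finset.univ.image (stdVec M), ?_⟩⟩
  rw [eq_top_iff]
  intro w _
  rw [TV_eq_sum M w]
  refine Submodule.sum_mem _ fun k _ => ?_
  refine zsmul_mem (Submodule.subset_span ?_) _
  simp

theorem annihilator_TV (hM : Function.Injective M) : Module.annihilator R (TV M) = ⊥ := by
  rw [eq_bot_iff]
  intro t ht
  rw [Module.mem_annihilator] at ht
  have h0 : Matrix.toLin' (M t)ᵀ = 0 := by
    refine LinearMap.ext fun w => ?_
    have := congrArg (TV.equiv M) (ht ((TV.equiv M).symm w))
    rw [TV.equiv_smul, AddEquiv.apply_symm_apply, map_zero] at this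
    simpa using this
  have h1 : (M t)ᵀ = 0 := by
    have := congrArg (LinearMap.toMatrix' : _ → Matrix (Fin r) (Fin r) ℤ) h0
    simpa using this
  have h2 : M t = 0 := by
    have := congrArg Matrix.transpose h1
    simpa using this
  rw [Submodule.mem_bot]
  exact hM (by rw [h2, map_zero])

/-- A nonzero `χ`-semilinear functional on `TV M`. -/
theorem exists_functional (hM : Function.Injective M) {K : Type*} [Field K] (χ : R →+* K) :
    ∃ lam : TV M →+ K, lam ≠ 0 ∧ ∀ (t : R) (w : TV M), lam (t • w) = χ t * lam w := by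
  set I : Ideal R := RingHom.ker χ with hI
  have hIp : I.IsPrime := RingHom.ker_isPrime χ
  let p : PrimeSpectrum R := ⟨I, hIp⟩
  have hp : p ∈ Module.support R (TV M) := by
    rw [Module.support_eq_zeroLocus, annihilator_TV M hM]
    simp
  have hnt : Nontrivial (I.ResidueField ⊗[R] TV M) :=
    (Module.mem_support_iff_nontrivial_residueField_tensorProduct p).mp hp
  obtain ⟨x, hx⟩ := exists_ne (0 : I.ResidueField ⊗[R] TV M)
  obtain ⟨f, hf⟩ := Module.Projective.exists_dual_ne_zero I.ResidueField hx
  have hunits : I.primeCompl ≤ (IsUnit.submonoid K).comap χ := by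
    intro t ht
    have : χ t ≠ 0 := fun h0 => ht ((RingHom.mem_ker (f := χ)).mpr h0)
    exact this.isUnit
  let ι : I.ResidueField →+* K := Ideal.ResidueField.lift I χ le_rfl hunits
  have hι : ∀ t : R, ι (algebraMap R I.ResidueField t) = χ t :=
    Ideal.ResidueField.lift_algebraMap I χ le_rfl hunits
  let lam : TV M →+ K :=
    { toFun := fun w => ι (f ((1 : I.ResidueField) ⊗ₜ[R] w))
      map_zero' := by simp
      map_add' := fun a b => by simp [TensorProduct.tmul_add] }
  refine ⟨lam, ?_, ?_⟩
  · intro h0
    have h1 : ∀ w : TV M, f ((1 : I.ResidueField) ⊗ₜ[R] w) = 0 := by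
      intro w
      have := DFunLike.congr_fun h0 w
      exact (map_eq_zero ι).mp this
    have h2 : ∀ y : I.ResidueField ⊗[R] TV M, f y = 0 := by
      intro y
      induction y using TensorProduct.induction_on with
      | zero => simp
      | tmul c w =>
        have : c ⊗ₜ[R] w = c • ((1 : I.ResidueField) ⊗ₜ[R] w) := by
          rw [TensorProduct.smul_tmul', smul_eq_mul, mul_one]
        rw [this, map_smul, h1, smul_zero]
      | add a b ha hb => rw [map_add, ha, hb, add_zero]
    exact hf (h2 x)
  · intro t w
    change ι (f ((1 : I.ResidueField) ⊗ₜ[R] (t • w))) = χ t * ι (f ((1 : I.ResidueField) ⊗ₜ[R] w))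
    rw [TensorProduct.tmul_smul, ← hι t, ← map_mul]
    congr 1
    rw [← algebraMap_smul I.ResidueField t ((1 : I.ResidueField) ⊗ₜ[R] w), map_smul, smul_eq_mul]

/-- **ALG-EIG**: a common eigenvector with prescribed character. -/
theorem exists_eigenvector (hM : Function.Injective M) {K : Type*} [Field K] (χ : R →+* K) :
    ∃ v : Fin r → K, v ≠ 0 ∧
      ∀ t : R, ((M t).map (Int.cast : ℤ → K)).mulVec v = χ t • v := by
  obtain ⟨lam, hlam, heq⟩ := exists_functional M hM χ
  have hsum : ∀ w : TV M, lam w = ∑ k, (TV.equiv M w k : K) * lam (stdVec M k) := by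
    intro w
    conv_lhs => rw [TV_eq_sum M w]
    rw [map_sum]
    refine Finset.sum_congr rfl fun k _ => ?_
    rw [map_zsmul, zsmul_eq_mul]
  refine ⟨fun k => lam (stdVec M k), ?_, ?_⟩
  · intro h0
    apply hlam
    ext w
    rw [hsum w]
    have : ∀ k, lam (stdVec M k) = 0 := fun k => congrFun h0 k
    simp [this]
  · intro t
    funext k
    have h1 := heq t (stdVec M k)
    rw [hsum (t • stdVec M k)] at h1
    simp only [Matrix.mulVec, dotProduct, Matrix.map_apply, Pi.smul_apply, smul_eq_mul]
    rw [← h1]
    refine Finset.sum_congr rfl fun j _ => ?_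
    congr 2
    rw [TV.equiv_smul, stdVec, AddEquiv.apply_symm_apply]
    simp [Matrix.mulVec, dotProduct, Pi.single_apply]

end Fermat.Agent.Betti.H21
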