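import Fermat.Agent.Betti.H21_AlgEig
import Fermat.Agent.Betti.Stmts

/-!
# BETTI-HECKE, package ALG-EIG (helper21): `Stmt_algEig` holds

`stmt_algEig : Fermat.Agent.Betti.Stmt_algEig` (the hypothesis `CharZero K` is not needed).
-/

set_option autoImplicit false

namespace Fermat.Agent.Betti.H21

/-- **ALG-EIG.** -/
theorem stmt_algEig : Fermat.Agent.Betti.Stmt_algEig := by
  intro R _ r M hM K _ _ χ
  exact exists_eigenvector M hM χ

end Fermat.Agent.Betti.H21
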