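import Fermat.Agent.Betti.Basis
import Fermat.Agent.S21.H20_Final

/-!
# TORSLIFT, package BASIS (helper21): the universal basis has at least `2 dim S₂` elements

`exists_basis_ge N` : there are `r` and `b : Fin r → Hom(Γ₀(N), ℤ)` with `IsParBasis N b` and
`2 * finrank ℂ S₂(Γ₀(N)) ≤ r`.

Proof: `IsParBasis` at `A = ℂ` gives a linear equivalence `ℂ^r ≃ Hom_par(Γ₀(N), ℂ)`, and
`2 dim S₂ ≤ dim Hom_par(Γ₀(N), ℂ)` is the injectivity of the Eichler–Shimura map (S21).
-/

set_option autoImplicit false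

noncomputable section

namespace Fermat.Agent.Betti.H21

open CongruenceSubgroup ModularCurve ModularCurve.Period Fermat.Agent.Betti
open scoped MatrixGroups

variable {N : ℕ} {r : ℕ}

/-- The homomorphism `γ ↦ ∑ i, b i γ • a i`. -/
def combC (b : Fin r → (Additive (Gamma0 N) →+ ℤ)) (a : Fin r → ℂ) : Additive (Gamma0 N) →+ ℂ :=
  ∑ i, (zmultiplesHom ℂ (a i)).comp (b i)

theorem combC_apply (b : Fin r → (Additive (Gamma0 N) →+ ℤ)) (a : Fin r → ℂ)
    (γ : Additive (Gamma0 N)) : combC b a γ = ∑ i, b i γ • a i := by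
  simp [combC]

theorem combC_parabolic {b : Fin r → (Additive (Gamma0 N) →+ ℤ)}
    (hb : ∀ i, IsParabolicHom (Gamma0 N) (b i)) (a : Fin r → ℂ) :
    IsParabolicHom (Gamma0 N) (combC b a) := by
  intro γ hγ
  rw [combC_apply]
  exact Finset.sum_eq_zero fun i _ => by rw [hb i γ hγ, zero_smul]

/-- The linear map `ℂ^r → Hom_par(Γ₀(N), ℂ)`. -/
def combLin (b : Fin r → (Additive (Gamma0 N) →+ ℤ))
    (hb : ∀ i, IsParabolicHom (Gamma0 N) (b i)) :
    (Fin r → ℂ) →ₗ[ℂ] parabolicHoms ℂ (Gamma0 N) ℂ where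
  toFun a := ⟨combC b a, combC_parabolic hb a⟩
  map_add' a a' := by
    apply Subtype.ext
    refine AddMonoidHom.ext fun γ => ?_
    show combC b (a + a') γ = combC b a γ + combC b a' γ
    simp only [combC_apply, Pi.add_apply, smul_add, Finset.sum_add_distrib]
  map_smul' c a := by
    apply Subtype.ext
    refine AddMonoidHom.ext fun γ => ?_
    show combC b (c • a) γ = c • combC b a γ
    simp only [combC_apply, Pi.smul_apply, smul_eq_mul, Finset.mul_sum, zsmul_eq_mul]
    refine Finset.sum_congr rfl fun i _ => ?_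
    ring

theorem combLin_bijective {b : Fin r → (Additive (Gamma0 N) →+ ℤ)} (hb : IsParBasis N b) :
    Function.Bijective (combLin b hb.1) := by
  constructor
  · intro a a' h
    have h1 : ∀ γ, combC b a γ = ∑ i, b i γ • a' i := by
      intro γ
      have := congrArg (fun f : parabolicHoms ℂ (Gamma0 N) ℂ => (f : Additive (Gamma0 N) →+ ℂ) γ) h
      rw [← combC_apply]
      exact this
    obtain ⟨a₀, -, huniq⟩ := hb.2 ℂ (combC b a) (combC_parabolic hb.1 a)
    rw [huniq a (combC_apply b a), huniq a' h1]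
  · rintro ⟨φ, hφ⟩
    obtain ⟨a, ha, -⟩ := hb.2 ℂ φ hφ
    refine ⟨a, Subtype.ext (AddMonoidHom.ext fun γ => ?_)⟩
    show combC b a γ = φ γ
    rw [combC_apply, ha γ]

/-- **BASIS**: a universal basis with at least `2 dim S₂(Γ₀(N))` elements. -/
theorem exists_basis_ge (N : ℕ) [NeZero N] :
    ∃ (r : ℕ) (b : Fin r → (Additive (Gamma0 N) →+ ℤ)), IsParBasis N b ∧
      2 * Module.finrank ℂ (CuspForm (Gamma0 N) 2) ≤ r := by
  obtain ⟨r, b, hb⟩ := stmt_basis N
  refine ⟨r, b, hb, ?_⟩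
  let e : (Fin r → ℂ) ≃ₗ[ℂ] parabolicHoms ℂ (Gamma0 N) ℂ :=
    LinearEquiv.ofBijective (combLin b hb.1) (combLin_bijective hb)
  have hfin : Module.Finite ℂ (parabolicHoms ℂ (Gamma0 N) ℂ) := Module.Finite.equiv e
  have hr : Module.finrank ℂ (parabolicHoms ℂ (Gamma0 N) ℂ) = r := by
    rw [← e.finrank_eq, Module.finrank_pi, Fintype.card_fin]
  have := Fermat.Agent.S21.two_mul_finrank_cuspForm_le N
  rw [hr] at this
  exact this

end Fermat.Agent.Betti.H21
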