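import Mathlib

/-!
# ABS-LIFT (helper41): lifting homomorphisms `Q → ℤ/n` to `Q → ℤ` by counting mod primes

Let `Q` be an additive group, `P ⊆ Q` a set and `b : Fin r → (Q →+ ℤ)` a `ℤ`-basis of the group of
homomorphisms `Q → ℤ` vanishing on `P`.  If for every prime `ℓ` the set of homomorphisms
`Q → ℤ/ℓ` vanishing on `P` is finite with at most `ℓ ^ r` elements, then for every `n` every
homomorphism `Q → ℤ/n` vanishing on `P` is the reduction of a homomorphism `Q → ℤ` vanishing on `P`.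

* `H41.exists_lift_prime` : the case `n = ℓ` prime;
* `H41.exists_lift`       : the general case (strong induction on `n`).
-/

set_option autoImplicit false

namespace Fermat.Agent.Betti.H41

variable {Q : Type} [AddGroup Q]

/-- The integral combination `x ↦ ∑ i, c i * b i x`. -/
noncomputable def comb {r : ℕ} (b : Fin r → (Q →+ ℤ)) (c : Fin r → ℤ) : Q →+ ℤ :=
  ∑ i, c i • b i

theorem comb_apply {r : ℕ} (b : Fin r → (Q →+ ℤ)) (c : Fin r → ℤ) (x : Q) :
    comb b c x = ∑ i, c i * b i x := by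
  simp [comb, AddMonoidHom.finsetSum_apply]

/-- Reduction mod `n` of an integral homomorphism. -/
noncomputable def red (n : ℕ) (φ : Q →+ ℤ) : Q →+ ZMod n :=
  (Int.castAddHom (ZMod n)).comp φ

@[simp] theorem red_apply (n : ℕ) (φ : Q →+ ℤ) (x : Q) : red n φ x = ((φ x : ℤ) : ZMod n) := rfl

/-- Division by `ℓ` of a homomorphism all of whose values are divisible by `ℓ`. -/
noncomputable def divHom (ℓ : ℤ) (φ : Q →+ ℤ) (h : ∀ x, ℓ ∣ φ x) : Q →+ ℤ where
  toFun x := φ x / ℓ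
  map_zero' := by simp
  map_add' x y := by
    rw [map_add]
    exact Int.add_ediv_of_dvd_left (h x)

theorem divHom_apply (ℓ : ℤ) (φ : Q →+ ℤ) (h : ∀ x, ℓ ∣ φ x) (x : Q) :
    ℓ * divHom ℓ φ h x = φ x :=
  Int.mul_ediv_cancel' (h x)

section Prime

variable (P : Set Q) {r : ℕ} (b : Fin r → (Q →+ ℤ))

/-- The basis hypotheses used below (a weak form of `IsParBasis`). -/
structure IsBasisKilling : Prop where
  kills : ∀ i, ∀ x ∈ P, b i x = 0
  span : ∀ φ : Q →+ ℤ, (∀ x ∈ P, φ x = 0) → ∃ a : Fin r → ℤ, ∀ x, φ x = ∑ i, a i * b i x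
  indep : ∀ a : Fin r → ℤ, (∀ x, ∑ i, a i * b i x = 0) → a = 0

variable {P b}

theorem IsBasisKilling.comb_kills (hb : IsBasisKilling P b) (c : Fin r → ℤ) :
    ∀ x ∈ P, comb b c x = 0 := by
  intro x hx
  rw [comb_apply]
  exact Finset.sum_eq_zero fun i _ => by rw [hb.kills i x hx, mul_zero]

/-- Saturation: if an integral combination of the basis is divisible by `ℓ ≠ 0`, so are its
coefficients. -/
theorem IsBasisKilling.dvd_of_dvd (hb : IsBasisKilling P b) {ℓ : ℤ} (hℓ : ℓ ≠ 0)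
    (c : Fin r → ℤ) (h : ∀ x, ℓ ∣ comb b c x) : ∀ i, ℓ ∣ c i := by
  have hk : ∀ x ∈ P, divHom ℓ (comb b c) h x = 0 := by
    intro x hx
    have h1 := divHom_apply ℓ (comb b c) h x
    rw [hb.comb_kills c x hx] at h1
    rcases mul_eq_zero.mp h1 with h2 | h2
    · exact absurd h2 hℓ
    · exact h2
  obtain ⟨d, hd⟩ := hb.span _ hk
  have hz : (fun i => c i - ℓ * d i) = 0 := by
    apply hb.indep
    intro x
    have h1 := divHom_apply ℓ (comb b c) h x
    rw [hd x, comb_apply] at h1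
    calc ∑ i, (c i - ℓ * d i) * b i x
        = ∑ i, c i * b i x - ℓ * ∑ i, d i * b i x := by
          rw [Finset.mul_sum, ← Finset.sum_sub_distrib]
          exact Finset.sum_congr rfl fun i _ => by ring
      _ = 0 := by rw [h1]; ring
  intro i
  have := congrFun hz i
  simp only [Pi.zero_apply, sub_eq_zero] at this
  exact ⟨d i, this⟩

/-- The homomorphisms `Q → ℤ/ℓ` vanishing on `P`. -/
abbrev KillMod (P : Set Q) (n : ℕ) : Type := {χ : Q →+ ZMod n // ∀ x ∈ P, χ x = 0}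

/-- **Prime case**: if there are at most `ℓ ^ r` homomorphisms `Q → ℤ/ℓ` vanishing on `P`, every
one of them is the reduction of an integral one. -/
theorem exists_lift_prime (hb : IsBasisKilling P b) {ℓ : ℕ} (hℓ : ℓ.Prime)
    [Finite (KillMod P ℓ)] (hcount : Nat.card (KillMod P ℓ) ≤ ℓ ^ r)
    (χ : Q →+ ZMod ℓ) (hχ : ∀ x ∈ P, χ x = 0) :
    ∃ φ : Q →+ ℤ, (∀ x ∈ P, φ x = 0) ∧ ∀ x, ((φ x : ℤ) : ZMod ℓ) = χ x := by
  have : Fact ℓ.Prime := ⟨hℓ⟩
  have : NeZero ℓ := ⟨hℓ.ne_zero⟩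
  -- the reduction map on coefficient vectors
  let lift : ZMod ℓ → ℤ := fun a => (a.val : ℤ)
  have hlift : ∀ a : ZMod ℓ, ((lift a : ℤ) : ZMod ℓ) = a := by
    intro a
    simp [lift]
  let R : (Fin r → ZMod ℓ) → KillMod P ℓ := fun a =>
    ⟨red ℓ (comb b (fun i => lift (a i))), fun x hx => by
      rw [red_apply, hb.comb_kills _ x hx, Int.cast_zero]⟩
  have hR : Function.Injective R := by
    intro a a' h
    have h1 : ∀ x, ((comb b (fun i => lift (a i)) x : ℤ) : ZMod ℓ)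
        = ((comb b (fun i => lift (a' i)) x : ℤ) : ZMod ℓ) := by
      intro x
      have := congrArg (fun χ : KillMod P ℓ => χ.1 x) h
      simpa [R] using this
    have h2 : ∀ x, (ℓ : ℤ) ∣ comb b (fun i => lift (a i) - lift (a' i)) x := by
      intro x
      have h3 : comb b (fun i => lift (a i) - lift (a' i)) x
          = comb b (fun i => lift (a i)) x - comb b (fun i => lift (a' i)) x := by
        simp only [comb_apply, ← Finset.sum_sub_distrib]
        exact Finset.sum_congr rfl fun i _ => by ring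
      rw [h3, ← ZMod.intCast_zmod_eq_zero_iff_dvd, Int.cast_sub, h1 x, sub_self]
    have h4 := hb.dvd_of_dvd (ℓ := (ℓ : ℤ)) (by exact_mod_cast hℓ.ne_zero) _ h2
    funext i
    have h5 := (ZMod.intCast_zmod_eq_zero_iff_dvd _ ℓ).mpr (h4 i)
    rw [Int.cast_sub, hlift, hlift, sub_eq_zero] at h5
    exact h5
  have hcard : Nat.card (KillMod P ℓ) ≤ Nat.card (Fin r → ZMod ℓ) := by
    have h6 : Nat.card (Fin r → ZMod ℓ) = ℓ ^ r := by
      rw [Nat.card_eq_fintype_card, Fintype.card_fun, ZMod.card, Fintype.card_fin]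
    rw [h6]
    exact hcount
  have hbij := hR.bijective_of_nat_card_le hcard
  obtain ⟨a, ha⟩ := hbij.2 ⟨χ, hχ⟩
  refine ⟨comb b (fun i => lift (a i)), hb.comb_kills _, fun x => ?_⟩
  have := congrArg (fun χ : KillMod P ℓ => χ.1 x) ha
  simpa [R] using this

end Prime

/-! ### Multiplication by `ℓ` from `ℤ/m` to `ℤ/(ℓ m)` -/

/-- `ℤ/m → ℤ/(ℓ m)`, `k ↦ ℓ k`. -/
noncomputable def mulHom (ℓ m : ℕ) : ZMod m →+ ZMod (ℓ * m) :=
  ZMod.lift m ⟨(AddMonoidHom.mulLeft (ℓ : ZMod (ℓ * m))).comp (Int.castAddHom (ZMod (ℓ * m))), by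
    show (ℓ : ZMod (ℓ * m)) * ((m : ℤ) : ZMod (ℓ * m)) = 0
    have : ((ℓ * m : ℕ) : ZMod (ℓ * m)) = 0 := ZMod.natCast_self _
    push_cast at this ⊢
    exact this⟩

theorem mulHom_intCast (ℓ m : ℕ) (k : ℤ) :
    mulHom ℓ m (k : ZMod m) = ((ℓ * k : ℤ) : ZMod (ℓ * m)) := by
  rw [mulHom, ZMod.lift_coe]
  simp

theorem mulHom_injective (ℓ m : ℕ) (hℓ : ℓ ≠ 0) : Function.Injective (mulHom ℓ m) := by
  rw [injective_iff_map_eq_zero]
  intro a ha
  obtain ⟨k, rfl⟩ := ZMod.intCast_surjective a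
  rw [mulHom_intCast, ZMod.intCast_zmod_eq_zero_iff_dvd] at ha
  rw [ZMod.intCast_zmod_eq_zero_iff_dvd]
  push_cast at ha
  exact Int.dvd_of_mul_dvd_mul_left (by exact_mod_cast hℓ) ha

theorem mem_range_mulHom (ℓ m : ℕ) (y : ZMod (ℓ * m))
    (hy : ZMod.castHom (Dvd.intro m rfl : ℓ ∣ ℓ * m) (ZMod ℓ) y = 0) :
    y ∈ (mulHom ℓ m).range := by
  obtain ⟨k, rfl⟩ := ZMod.intCast_surjective y
  rw [map_intCast, ZMod.intCast_zmod_eq_zero_iff_dvd] at hy
  obtain ⟨j, rfl⟩ := hy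
  exact ⟨(j : ZMod m), by rw [mulHom_intCast]⟩

/-! ### The general case -/

/-- **ABS-LIFT**: if `b` is a basis of the homomorphisms `Q → ℤ` vanishing on `P` and for every
prime `ℓ` there are at most `ℓ ^ r` homomorphisms `Q → ℤ/ℓ` vanishing on `P`, then every
homomorphism `Q → ℤ/n` vanishing on `P` lifts to a homomorphism `Q → ℤ` vanishing on `P`. -/
theorem exists_lift {P : Set Q} {r : ℕ} {b : Fin r → (Q →+ ℤ)} (hb : IsBasisKilling P b)
    (hcount : ∀ ℓ : ℕ, ℓ.Prime → Finite (KillMod P ℓ) ∧ Nat.card (KillMod P ℓ) ≤ ℓ ^ r) :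
    ∀ (n : ℕ) (χ : Q →+ ZMod n), (∀ x ∈ P, χ x = 0) →
      ∃ φ : Q →+ ℤ, (∀ x ∈ P, φ x = 0) ∧ ∀ x, ((φ x : ℤ) : ZMod n) = χ x := by
  intro n
  induction n using Nat.strong_induction_on with
  | _ n ih =>
    intro χ hχ
    rcases Nat.eq_zero_or_pos n with h0 | hpos
    · subst h0
      refine ⟨(ZMod.castHom (dvd_refl 0) ℤ).toAddMonoidHom.comp χ, fun x hx => ?_, fun x => ?_⟩
      · show (ZMod.castHom (dvd_refl 0) ℤ) (χ x) = 0
        rw [hχ x hx, map_zero]
      · show (((ZMod.castHom (dvd_refl 0) ℤ) (χ x) : ℤ) : ZMod 0) = χ x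
        rw [ZMod.castHom_apply]
        exact ZMod.intCast_zmod_cast (χ x)
    rcases Nat.lt_or_ge n 2 with h1 | h2
    · have : n = 1 := by omega
      subst this
      exact ⟨0, fun _ _ => rfl, fun x => Subsingleton.elim _ _⟩
    obtain ⟨ℓ, hℓ, hdvd⟩ := Nat.exists_prime_and_dvd (by omega : n ≠ 1)
    obtain ⟨m, rfl⟩ := hdvd
    have hm : 0 < m := Nat.pos_of_mul_pos_left hpos |> fun h => by
      rcases Nat.eq_zero_or_pos m with h | h
      · simp [h] at hpos
      · exact h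
    have hmlt : m < ℓ * m := by
      have := hℓ.two_le
      nlinarith
    -- step 1: lift mod `ℓ`
    let c := ZMod.castHom (Dvd.intro m rfl : ℓ ∣ ℓ * m) (ZMod ℓ)
    obtain ⟨hfin, hcard⟩ := hcount ℓ hℓ
    obtain ⟨φ₁, hφ₁P, hφ₁⟩ := exists_lift_prime hb hℓ hcard
      (c.toAddMonoidHom.comp χ) (fun x hx => by
        show c (χ x) = 0
        rw [hχ x hx, map_zero])
    -- step 2: the difference is divisible by `ℓ`
    let ψ : Q →+ ZMod (ℓ * m) := χ - red (ℓ * m) φ₁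
    have hψrange : ∀ x, ψ x ∈ (mulHom ℓ m).range := by
      intro x
      apply mem_range_mulHom ℓ m
      show c (χ x - ((φ₁ x : ℤ) : ZMod (ℓ * m))) = 0
      rw [map_sub, map_intCast, hφ₁ x]
      exact sub_self _
    let e := AddMonoidHom.ofInjective (mulHom_injective ℓ m hℓ.ne_zero)
    let ψ' : Q →+ ZMod m := e.symm.toAddMonoidHom.comp (ψ.codRestrict (mulHom ℓ m).range hψrange)
    have hψ' : ∀ x, mulHom ℓ m (ψ' x) = ψ x := by
      intro x
      exact AddMonoidHom.apply_ofInjective_symm (mulHom_injective ℓ m hℓ.ne_zero) _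
    have hψ'P : ∀ x ∈ P, ψ' x = 0 := by
      intro x hx
      apply mulHom_injective ℓ m hℓ.ne_zero
      rw [hψ' x, map_zero]
      show χ x - ((φ₁ x : ℤ) : ZMod (ℓ * m)) = 0
      rw [hχ x hx, hφ₁P x hx, Int.cast_zero, sub_zero]
    obtain ⟨φ₂, hφ₂P, hφ₂⟩ := ih m hmlt ψ' hψ'P
    refine ⟨φ₁ + (ℓ : ℤ) • φ₂, fun x hx => ?_, fun x => ?_⟩
    · show φ₁ x + (ℓ : ℤ) • φ₂ x = 0
      rw [hφ₁P x hx, hφ₂P x hx, smul_zero, add_zero]
    · show (((φ₁ x + (ℓ : ℤ) • φ₂ x : ℤ)) : ZMod (ℓ * m)) = χ x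
      have h3 := hψ' x
      rw [← hφ₂ x, mulHom_intCast] at h3
      have h4 : ψ x = χ x - ((φ₁ x : ℤ) : ZMod (ℓ * m)) := rfl
      rw [h4] at h3
      rw [smul_eq_mul, Int.cast_add, h3]
      ring

end Fermat.Agent.Betti.H41
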