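import Fermat.Agent.Betti.H41_AbsLift
import Fermat.Agent.Betti.Basis
import Fermat.Agent.S16.H38_Chi
import Fermat.Agent.S16.H40_LBchi

/-!
# TORSLIFT from a count mod primes (helper41)

`H41.torsLift_of_count` : if `b` is a universal basis of the parabolic homomorphisms of `Γ₀(N)`
(`IsParBasis N b`, exists by `stmt_basis`) with `r` elements and for every prime `ℓ` there are at
most `ℓ ^ r` homomorphisms `Γ₀(N) → ℤ/ℓ` vanishing on the elements with `trace ^ 2 ≤ 4`, then
`Stmt_TorsLift N n` holds for every `n`.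

`H41.torsLift_of_inj` : the same with the count given by injective maps into `Fin r → ZMod ℓ`.
-/

set_option autoImplicit false

namespace Fermat.Agent.Betti.H41

open CongruenceSubgroup ModularCurve ModularCurve.Period
open scoped MatrixGroups

/-- The elements of `Γ₀(N)` (additive notation) with `trace ^ 2 ≤ 4`. -/
def smallTrace (N : ℕ) : Set (Additive (Gamma0 N)) :=
  {x | (((Additive.toMul x : Gamma0 N) : SL(2, ℤ)) : Matrix (Fin 2) (Fin 2) ℤ).trace ^ 2 ≤ 4}

/-- A homomorphism `Γ₀(N) → ℤ` kills the elements with `trace ^ 2 < 4` (they have finite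
order). -/
theorem hom_int_kills_elliptic (N : ℕ) (φ : Additive (Gamma0 N) →+ ℤ) (γ : Gamma0 N)
    (h : ((γ : SL(2, ℤ)) : Matrix (Fin 2) (Fin 2) ℤ).trace ^ 2 < 4) :
    φ (Additive.ofMul γ) = 0 := by
  have h12 : γ ^ 12 = 1 := by
    apply Subtype.ext
    rw [Subgroup.coe_pow, Subgroup.coe_one]
    exact Fermat.Agent.S16.H38.pow_twelve_eq_one_of_trace _ h
  have h1 : (12 : ℕ) • φ (Additive.ofMul γ) = 0 := by
    rw [← map_nsmul, ← ofMul_pow, h12, ofMul_one, map_zero]
  simpa using h1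

theorem isBasisKilling_of_isParBasis (N : ℕ) {r : ℕ} {b : Fin r → (Additive (Gamma0 N) →+ ℤ)}
    (hb : IsParBasis N b) : IsBasisKilling (smallTrace N) b := by
  obtain ⟨hpar, huniv⟩ := hb
  refine ⟨fun i x hx => ?_, fun φ hφ => ?_, fun a ha => ?_⟩
  · have hx' : (((Additive.toMul x : Gamma0 N) : SL(2, ℤ)) :
        Matrix (Fin 2) (Fin 2) ℤ).trace ^ 2 ≤ 4 := hx
    rcases lt_or_eq_of_le hx' with h | h
    · exact hom_int_kills_elliptic N (b i) (Additive.toMul x) h
    · exact hpar i (Additive.toMul x) h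
  · have hφpar : IsParabolicHom (Gamma0 N) φ := fun γ hγ => hφ (Additive.ofMul γ) (le_of_eq hγ)
    obtain ⟨a, ha, -⟩ := huniv ℤ φ hφpar
    refine ⟨a, fun x => ?_⟩
    rw [ha x]
    exact Finset.sum_congr rfl fun i _ => by rw [smul_eq_mul, mul_comm]
  · obtain ⟨a₀, -, huniq⟩ := huniv ℤ 0 (fun _ _ => rfl)
    have h1 : a = a₀ := huniq a (fun x => by
      rw [AddMonoidHom.zero_apply, ← ha x]
      exact Finset.sum_congr rfl fun i _ => by rw [smul_eq_mul, mul_comm])
    have h2 : (0 : Fin r → ℤ) = a₀ := huniq 0 (fun x => by simp)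
    rw [h1, ← h2]

/-- Homomorphisms from a finitely generated group to a finite group: finitely many. -/
theorem finite_hom_of_fg (Q : Type) [AddGroup Q] [AddGroup.FG Q] (A : Type) [AddCommGroup A]
    [Finite A] : Finite (Q →+ A) := by
  obtain ⟨s, hs, hfin⟩ := AddGroup.fg_iff.mp (inferInstance : AddGroup.FG Q)
  have : Finite s := hfin
  let ev : (Q →+ A) → (s → A) := fun φ x => φ x
  refine Finite.of_injective ev ?_
  intro φ ψ h
  refine AddMonoidHom.eq_of_eqOn_dense hs ?_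
  intro x hx
  exact congrFun h ⟨x, hx⟩

theorem finite_killMod (N : ℕ) [NeZero N] (ℓ : ℕ) [NeZero ℓ] :
    Finite (KillMod (smallTrace N) ℓ) := by
  have : Group.FG (Gamma0 N) := fg_Gamma0 N
  have : AddGroup.FG (Additive (Gamma0 N)) := inferInstance
  have : Finite (Additive (Gamma0 N) →+ ZMod ℓ) := finite_hom_of_fg _ _
  exact Subtype.finite

/-- **TORSLIFT from the count mod primes.** -/
theorem torsLift_of_count (N : ℕ) [NeZero N] {r : ℕ} {b : Fin r → (Additive (Gamma0 N) →+ ℤ)}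
    (hb : IsParBasis N b)
    (hcount : ∀ ℓ : ℕ, ℓ.Prime → Nat.card (KillMod (smallTrace N) ℓ) ≤ ℓ ^ r) (n : ℕ) :
    Fermat.Agent.S16.Stmt_TorsLift N n := by
  intro χ hχ
  have hB := isBasisKilling_of_isParBasis N hb
  obtain ⟨φ, hφ, hφχ⟩ := exists_lift hB (fun ℓ hℓ =>
    ⟨haveI : NeZero ℓ := ⟨hℓ.ne_zero⟩; finite_killMod N ℓ, hcount ℓ hℓ⟩) n χ
    (fun x hx => hχ (Additive.toMul x) hx)
  exact ⟨φ, fun γ hγ => hφ (Additive.ofMul γ) (le_of_eq hγ), fun γ => hφχ (Additive.ofMul γ)⟩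

/-- **TORSLIFT from the count mod primes**, the count being given by injections into
`(ℤ/ℓ)^r`. -/
theorem torsLift_of_inj (N : ℕ) [NeZero N] {r : ℕ} {b : Fin r → (Additive (Gamma0 N) →+ ℤ)}
    (hb : IsParBasis N b)
    (hinj : ∀ ℓ : ℕ, ℓ.Prime →
      ∃ f : KillMod (smallTrace N) ℓ → (Fin r → ZMod ℓ), Function.Injective f) (n : ℕ) :
    Fermat.Agent.S16.Stmt_TorsLift N n := by
  refine torsLift_of_count N hb (fun ℓ hℓ => ?_) n
  obtain ⟨f, hf⟩ := hinj ℓ hℓ
  have : NeZero ℓ := ⟨hℓ.ne_zero⟩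
  have h1 := Nat.card_le_card_of_injective f hf
  have h6 : Nat.card (Fin r → ZMod ℓ) = ℓ ^ r := by
    rw [Nat.card_eq_fintype_card, Fintype.card_fun, ZMod.card, Fintype.card_fin]
  rwa [h6] at h1

end Fermat.Agent.Betti.H41
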