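import Mathlib

/-!
# Traces of conjugates of powers of `S`, `S * T`, `T` in `SL(2, ℤ)` (helper58, for TORSLIFT)

For `x ∈ {S, S * T, T}`, `g : SL(2, ℤ)` and `n : ℕ`, the matrix `g⁻¹ * (x ^ n * g)` has
trace of square at most `4`.
-/

set_option autoImplicit false

namespace Fermat.Agent.Betti.H58

open Matrix ModularGroup
open scoped MatrixGroups

/-- The trace of a conjugate. -/
lemma trace_conj (g x : SL(2, ℤ)) :
    ((g⁻¹ * (x * g) : SL(2, ℤ)) : Matrix (Fin 2) (Fin 2) ℤ).trace =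
      (x : Matrix (Fin 2) (Fin 2) ℤ).trace := by
  have h1 : ((g⁻¹ * (x * g) : SL(2, ℤ)) : Matrix (Fin 2) (Fin 2) ℤ)
      = (g⁻¹ : SL(2, ℤ)).1 * ((x * g : SL(2, ℤ)) : Matrix (Fin 2) (Fin 2) ℤ) :=
    Matrix.SpecialLinearGroup.coe_mul _ _
  rw [h1, Matrix.trace_mul_comm, ← Matrix.SpecialLinearGroup.coe_mul, mul_assoc,
    mul_inv_cancel, mul_one]

lemma coe_S_sq : ((S : SL(2, ℤ)) : Matrix (Fin 2) (Fin 2) ℤ) ^ 2 = !![-1, 0; 0, -1] := by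
  rw [coe_S, pow_two, Matrix.mul_fin_two]
  norm_num

lemma coe_ST : ((S * T : SL(2, ℤ)) : Matrix (Fin 2) (Fin 2) ℤ) = !![0, -1; 1, 1] := by
  rw [Matrix.SpecialLinearGroup.coe_mul, coe_S, coe_T, Matrix.mul_fin_two]
  norm_num

lemma coe_ST_cube : ((S * T : SL(2, ℤ)) : Matrix (Fin 2) (Fin 2) ℤ) ^ 3 = !![-1, 0; 0, -1] := by
  rw [coe_ST, pow_succ, pow_two, Matrix.mul_fin_two, Matrix.mul_fin_two]
  norm_num

lemma neg_one_sq_mat : (!![-1, 0; 0, -1] : Matrix (Fin 2) (Fin 2) ℤ) ^ 2 = 1 := by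
  rw [pow_two, Matrix.mul_fin_two, Matrix.one_fin_two]
  norm_num

lemma S_pow_four : (S : SL(2, ℤ)) ^ 4 = 1 := by
  apply Subtype.ext
  rw [Matrix.SpecialLinearGroup.coe_pow, show (4 : ℕ) = 2 * 2 from rfl, pow_mul, coe_S_sq,
    neg_one_sq_mat, Matrix.SpecialLinearGroup.coe_one]

lemma ST_pow_six : (S * T : SL(2, ℤ)) ^ 6 = 1 := by
  apply Subtype.ext
  rw [Matrix.SpecialLinearGroup.coe_pow, show (6 : ℕ) = 3 * 2 from rfl, pow_mul, coe_ST_cube,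
    neg_one_sq_mat, Matrix.SpecialLinearGroup.coe_one]

lemma coe_S_cube : ((S : SL(2, ℤ)) : Matrix (Fin 2) (Fin 2) ℤ) ^ 3 = !![0, 1; -1, 0] := by
  rw [pow_succ, coe_S_sq, coe_S, Matrix.mul_fin_two]
  norm_num

lemma coe_ST_sq : ((S * T : SL(2, ℤ)) : Matrix (Fin 2) (Fin 2) ℤ) ^ 2 = !![-1, -1; 1, 0] := by
  rw [coe_ST, pow_two, Matrix.mul_fin_two]
  norm_num

lemma coe_ST_four : ((S * T : SL(2, ℤ)) : Matrix (Fin 2) (Fin 2) ℤ) ^ 4 = !![0, 1; -1, -1] := by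
  rw [pow_succ, coe_ST_cube, coe_ST, Matrix.mul_fin_two]
  norm_num

lemma coe_ST_five : ((S * T : SL(2, ℤ)) : Matrix (Fin 2) (Fin 2) ℤ) ^ 5 = !![1, 1; -1, 0] := by
  rw [pow_succ, coe_ST_four, coe_ST, Matrix.mul_fin_two]
  norm_num

lemma trace_S_pow_sq_le (n : ℕ) :
    ((S ^ n : SL(2, ℤ)) : Matrix (Fin 2) (Fin 2) ℤ).trace ^ 2 ≤ 4 := by
  have h : (S : SL(2, ℤ)) ^ n = S ^ (n % 4) := by
    conv_lhs => rw [← Nat.div_add_mod n 4, pow_add, pow_mul, S_pow_four, one_pow, one_mul]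
  rw [h, Matrix.SpecialLinearGroup.coe_pow]
  have h4 : n % 4 < 4 := Nat.mod_lt _ (by norm_num)
  interval_cases (n % 4)
  · rw [pow_zero, Matrix.one_fin_two, Matrix.trace_fin_two_of]; norm_num
  · rw [pow_one, coe_S, Matrix.trace_fin_two_of]; norm_num
  · rw [coe_S_sq, Matrix.trace_fin_two_of]; norm_num
  · rw [coe_S_cube, Matrix.trace_fin_two_of]; norm_num

lemma trace_ST_pow_sq_le (n : ℕ) :
    (((S * T) ^ n : SL(2, ℤ)) : Matrix (Fin 2) (Fin 2) ℤ).trace ^ 2 ≤ 4 := by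
  have h : (S * T : SL(2, ℤ)) ^ n = (S * T) ^ (n % 6) := by
    conv_lhs => rw [← Nat.div_add_mod n 6, pow_add, pow_mul, ST_pow_six, one_pow, one_mul]
  rw [h, Matrix.SpecialLinearGroup.coe_pow]
  have h6 : n % 6 < 6 := Nat.mod_lt _ (by norm_num)
  interval_cases (n % 6)
  · rw [pow_zero, Matrix.one_fin_two, Matrix.trace_fin_two_of]; norm_num
  · rw [pow_one, coe_ST, Matrix.trace_fin_two_of]; norm_num
  · rw [coe_ST_sq, Matrix.trace_fin_two_of]; norm_num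
  · rw [coe_ST_cube, Matrix.trace_fin_two_of]; norm_num
  · rw [coe_ST_four, Matrix.trace_fin_two_of]; norm_num
  · rw [coe_ST_five, Matrix.trace_fin_two_of]; norm_num

lemma trace_T_pow (n : ℕ) :
    ((T ^ n : SL(2, ℤ)) : Matrix (Fin 2) (Fin 2) ℤ).trace = 2 := by
  have h2 := ModularGroup.coe_T_zpow (n : ℤ)
  rw [zpow_natCast] at h2
  rw [show ((T ^ n : SL(2, ℤ)) : Matrix (Fin 2) (Fin 2) ℤ) = (T ^ n).1 from rfl, h2,
    Matrix.trace_fin_two_of]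
  norm_num

/-- **TraceConj**: for `x ∈ {S, S * T, T}`, every conjugate of a power of `x` has
`trace ^ 2 ≤ 4`. -/
theorem trace_conj_pow_sq_le (x : SL(2, ℤ)) (hx : x = S ∨ x = S * T ∨ x = T)
    (g : SL(2, ℤ)) (n : ℕ) :
    ((g⁻¹ * (x ^ n * g) : SL(2, ℤ)) : Matrix (Fin 2) (Fin 2) ℤ).trace ^ 2 ≤ 4 := by
  rw [trace_conj]
  rcases hx with rfl | rfl | rfl
  · exact trace_S_pow_sq_le n
  · exact trace_ST_pow_sq_le n
  · rw [trace_T_pow]; norm_num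

theorem trace_conj_S_pow_sq_le (g : SL(2, ℤ)) (n : ℕ) :
    ((g⁻¹ * (S ^ n * g) : SL(2, ℤ)) : Matrix (Fin 2) (Fin 2) ℤ).trace ^ 2 ≤ 4 :=
  trace_conj_pow_sq_le S (Or.inl rfl) g n

theorem trace_conj_ST_pow_sq_le (g : SL(2, ℤ)) (n : ℕ) :
    ((g⁻¹ * ((S * T) ^ n * g) : SL(2, ℤ)) : Matrix (Fin 2) (Fin 2) ℤ).trace ^ 2 ≤ 4 :=
  trace_conj_pow_sq_le (S * T) (Or.inr (Or.inl rfl)) g n

theorem trace_conj_T_pow_sq_le (g : SL(2, ℤ)) (n : ℕ) :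
    ((g⁻¹ * (T ^ n * g) : SL(2, ℤ)) : Matrix (Fin 2) (Fin 2) ℤ).trace ^ 2 ≤ 4 :=
  trace_conj_pow_sq_le T (Or.inr (Or.inr rfl)) g n

end Fermat.Agent.Betti.H58
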