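import Mathlib
import Fermat.Agent.Betti.Basis
import Fermat.Agent.Betti.H76_Rel

/-!
# `SpanHyp` from the universal basis

`spanHyp N : H76.SpanHyp N`: `Hom_par(Γ₀(N), ℂ)` is spanned over `ℂ` by the integer valued
parabolic homomorphisms (consequence of `stmt_basis`).
-/

set_option autoImplicit false

namespace Fermat.Agent.Betti

open CongruenceSubgroup ModularCurve ModularCurve.Period
open scoped MatrixGroups

theorem spanHyp (N : ℕ) [NeZero N] : H76.SpanHyp N := by
  intro φ hφ
  obtain ⟨r, b, hb⟩ := stmt_basis N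
  obtain ⟨a, ha, -⟩ := hb.2 ℂ φ hφ
  have hφeq : φ = ∑ i, a i • (Int.castAddHom ℂ).comp (b i) := by
    refine AddMonoidHom.ext fun γ => ?_
    rw [ha γ]
    simp only [AddMonoidHom.finsetSum_apply, AddMonoidHom.smul_apply, AddMonoidHom.comp_apply,
      Int.coe_castAddHom, smul_eq_mul, zsmul_eq_mul]
    exact Finset.sum_congr rfl fun i _ => mul_comm _ _
  rw [hφeq]
  refine Submodule.sum_mem _ fun i _ => Submodule.smul_mem _ _ (Submodule.subset_span ?_)
  exact ⟨b i, hb.1 i, rfl⟩

end Fermat.Agent.Betti
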